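import Mathlib.Analysis.Calculus.FDeriv.Analytic
import Mathlib.Analysis.Calculus.InverseFunctionTheorem.FDeriv
import Mathlib.Analysis.Normed.Module.FiniteDimension
import Mathlib.Analysis.Complex.CauchyIntegral
import Mathlib.LinearAlgebra.Matrix.NonsingularInverse
import Mathlib.Tactic

/-!
# Analytic implicit functions and analytic solutions of linear systems
-/

set_option autoImplicit false

noncomputable section

open Filter Topology

namespace Fermat.Agent.AJ

/-- An analytic equation `f (w, a) = 0` with nonvanishing `a`-derivative has locally exactly one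
root, depending analytically on `w`. -/
theorem exists_implicit_root {E : Type*} [NormedAddCommGroup E] [NormedSpace ℂ E]
    [FiniteDimensional ℂ E] {f : E × ℂ → ℂ} {w₀ : E} {a₀ d : ℂ}
    (hf : AnalyticAt ℂ f (w₀, a₀)) (h0 : f (w₀, a₀) = 0)
    (hd : HasDerivAt (fun a => f (w₀, a)) d a₀) (hd0 : d ≠ 0) :
    ∃ Y : E → ℂ, Y w₀ = a₀ ∧ AnalyticAt ℂ Y w₀ ∧
      ∀ᶠ p : E × ℂ in 𝓝 (w₀, a₀), (f p = 0 ↔ p.2 = Y p.1) := by
  have : CompleteSpace E := FiniteDimensional.complete ℂ E
  set L : E × ℂ →L[ℂ] ℂ := fderiv ℂ f (w₀, a₀) with hL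
  have hLd : L (0, 1) = d := by
    have h1 : HasFDerivAt f L (w₀, a₀) := hf.differentiableAt.hasFDerivAt
    have h2 : HasDerivAt (fun a : ℂ => ((w₀, a) : E × ℂ)) ((0 : E), (1 : ℂ)) a₀ :=
      (hasDerivAt_const a₀ w₀).prodMk (hasDerivAt_id a₀)
    exact (h1.comp_hasDerivAt a₀ h2).unique hd
  set Φ : E × ℂ → E × ℂ := fun p => (p.1, f p) with hΦ
  set T : E × ℂ →L[ℂ] E × ℂ := (ContinuousLinearMap.fst ℂ E ℂ).prod L with hT
  have hinj : Function.Injective T := by
    rw [injective_iff_map_eq_zero]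
    rintro ⟨w, a⟩ hwa
    simp only [hT, ContinuousLinearMap.prod_apply, ContinuousLinearMap.coe_fst', Prod.mk_eq_zero]
      at hwa
    obtain ⟨rfl, hwa⟩ := hwa
    rw [show ((0 : E), a) = a • ((0 : E), (1 : ℂ)) by simp, map_smul, hLd, smul_eq_mul] at hwa
    simp [(mul_eq_zero.mp hwa).resolve_right hd0]
  let Te : (E × ℂ) ≃L[ℂ] E × ℂ :=
    (LinearEquiv.ofInjectiveEndo T.toLinearMap hinj).toContinuousLinearEquiv
  have hTe : (Te : E × ℂ →L[ℂ] E × ℂ) = T := by
    ext p <;> simp [Te]
  have hstrict : HasStrictFDerivAt Φ (Te : E × ℂ →L[ℂ] E × ℂ) (w₀, a₀) := by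
    rw [hTe, hΦ, hT]
    exact hasStrictFDerivAt_fst.prodMk hf.hasStrictFDerivAt
  set h := HasStrictFDerivAt.toOpenPartialHomeomorph Φ hstrict with hh
  have hcoe : (h : E × ℂ → E × ℂ) = Φ := hstrict.toOpenPartialHomeomorph_coe
  have hsrc : (w₀, a₀) ∈ h.source := hstrict.mem_toOpenPartialHomeomorph_source
  have hsymm : AnalyticAt ℂ h.symm (w₀, (0 : ℂ)) := by
    have h1 := h.analyticAt_symm' hsrc (i := Te) (by rw [hcoe]; exact analyticAt_fst.prod hf)
      (by rw [hcoe]; exact hstrict.hasFDerivAt.fderiv)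
    simp only [hcoe, hΦ, h0] at h1
    exact h1
  have hs0 : h.symm (w₀, (0 : ℂ)) = (w₀, a₀) := by
    have := h.left_inv hsrc
    simp only [hcoe, hΦ, h0] at this
    exact this
  refine ⟨fun w => (h.symm (w, 0)).2, by simp [hs0], ?_, ?_⟩
  · exact analyticAt_snd.comp (AnalyticAt.fun_comp (g := h.symm) hsymm
      (analyticAt_id.prod analyticAt_const))
  · have htgt : (w₀, (0 : ℂ)) ∈ h.target := by
      have := h.map_source hsrc
      simp only [hcoe, hΦ, h0] at this
      exact this
    have ht : Tendsto (fun p : E × ℂ => ((p.1, 0) : E × ℂ)) (𝓝 (w₀, a₀)) (𝓝 (w₀, 0)) :=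
      (by fun_prop : Continuous fun p : E × ℂ => ((p.1, 0) : E × ℂ)).tendsto _
    filter_upwards [h.open_source.mem_nhds hsrc, ht (h.open_target.mem_nhds htgt),
      (hsymm.continuousAt.tendsto.comp ht).eventually
        (by rw [hs0]; exact h.open_source.mem_nhds hsrc)] with p hp hp' _
    constructor
    · intro hz
      have := h.left_inv hp
      simp only [hcoe, hΦ, hz] at this
      exact (congrArg Prod.snd this).symm
    · intro hp2
      have hr : Φ (h.symm (p.1, 0)) = (p.1, 0) := by rw [← hcoe]; exact h.right_inv hp'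
      have e1 : (h.symm (p.1, 0)).1 = p.1 := (congrArg Prod.fst hr :)
      have e2 : h.symm (p.1, 0) = p := Prod.ext e1 hp2.symm
      have := congrArg Prod.snd hr
      rwa [e2] at this

variable {ι E : Type*} [Fintype ι] [DecidableEq ι] [NormedAddCommGroup E] [NormedSpace ℂ E]

theorem analyticAt_det {M : E → Matrix ι ι ℂ} {z : E}
    (hM : ∀ i j, AnalyticAt ℂ (fun s => M s i j) z) : AnalyticAt ℂ (fun s => (M s).det) z := by
  simp only [Matrix.det_apply, Units.smul_def, zsmul_eq_mul]
  exact Finset.analyticAt_fun_sum _ fun σ _ =>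
    analyticAt_const.mul (Finset.analyticAt_fun_prod _ fun i _ => hM _ _)

/-- A linear system with analytic coefficients has an analytic solution where it is regular. -/
theorem exists_analytic_solution {M : E → Matrix ι ι ℂ} {z : E}
    (hM : ∀ i j, AnalyticAt ℂ (fun s => M s i j) z) (h0 : (M z).det ≠ 0) (b : ι → ℂ) :
    ∃ c : E → ι → ℂ, (∀ i, AnalyticAt ℂ (fun s => c s i) z) ∧
      ∀ᶠ s in 𝓝 z, (M s).mulVec (c s) = b := by
  refine ⟨fun s => ((M s).det)⁻¹ • (M s).adjugate.mulVec b, fun i => ?_, ?_⟩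
  · simp only [Pi.smul_apply, smul_eq_mul, Matrix.mulVec, dotProduct, Matrix.adjugate_apply]
    refine ((analyticAt_det hM).inv h0).mul (Finset.analyticAt_fun_sum _ fun j _ => ?_)
    refine (analyticAt_det fun k l => ?_).mul analyticAt_const
    by_cases hk : k = j
    · simp only [hk, Matrix.updateRow_self]
      exact analyticAt_const
    · simp only [Matrix.updateRow_ne hk]
      exact hM k l
  · filter_upwards [(analyticAt_det hM).continuousAt.eventually_ne h0] with s hs
    rw [Matrix.mulVec_smul, Matrix.mulVec_mulVec, Matrix.mul_adjugate, Matrix.smul_mulVec,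
      Matrix.one_mulVec, smul_smul, inv_mul_cancel₀ hs, one_smul]

end Fermat.Agent.AJ
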