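import Fermat.Agent.AJ.Chart
import Mathlib.Analysis.Complex.HasPrimitives

/-!
# An atlas with primitives of the classes of polar parts
-/

set_option autoImplicit false

noncomputable section

open AlgebraicCurve Filter Topology

namespace Fermat.Agent.AJ

variable (F : Type*) [Field F] [Algebra ℂ F] [IsCurveOver ℂ F]

attribute [local instance] placeTopology

/-- A chart at every place, a coordinate system on `H¹(0)` and, in every chart, a primitive of the
class of the polar part `1 / (t - s)`. -/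
structure Atlas where
  /-- the coordinate at each place -/
  t : Place ℂ F → F
  /-- the parametrisation at each place -/
  σ : Place ℂ F → ℂ → Place ℂ F
  isChart : ∀ P, IsChart P (t P) (σ P)
  /-- coordinates on `H¹(0)` -/
  L : H1 (0 : Divisor ℂ F) ≃ₗ[ℂ] (Fin (genusFF ℂ F) → ℂ)
  /-- the primitive -/
  Ψ : Place ℂ F → ℂ → Fin (genusFF ℂ F) → ℂ
  Ψ_zero : ∀ P, Ψ P 0 = 0
  hasDerivAt_Ψ : ∀ P, ∀ᶠ s in 𝓝 (0 : ℂ),
    HasDerivAt (Ψ P) (L (cls (σ P s) (t P - algebraMap ℂ F s)⁻¹)) s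
  analyticAt_Ψ : ∀ P, AnalyticAt ℂ (Ψ P) 0
  /-- the base point -/
  O : Place ℂ F

variable {F} [FF.IsFunctionField ℂ F]

theorem nonempty_atlas (hR : Riemann ℂ F) (O : Place ℂ F) : Nonempty (Atlas F) := by
  choose t σ hc using fun P : Place ℂ F => exists_isChart hR P
  have := hR.finite_H1
  let L : H1 (0 : Divisor ℂ F) ≃ₗ[ℂ] (Fin (genusFF ℂ F) → ℂ) :=
    LinearEquiv.ofFinrankEq _ _ (by rw [Module.finrank_fin_fun]; rfl)
  set a : Place ℂ F → ℂ → Fin (genusFF ℂ F) → ℂ :=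
    fun P s => L (cls (σ P s) (t P - algebraMap ℂ F s)⁻¹) with ha
  have han : ∀ P, AnalyticAt ℂ (a P) 0 := fun P => by
    rw [analyticAt_pi_iff]
    exact fun i => (hc P).cls_analytic ((LinearMap.proj i).comp L.toLinearMap)
  have hprim : ∀ P, ∃ g : ℂ → Fin (genusFF ℂ F) → ℂ, g 0 = 0 ∧
      (∀ᶠ s in 𝓝 (0 : ℂ), HasDerivAt g (a P s) s) ∧ AnalyticAt ℂ g 0 := by
    intro P
    obtain ⟨r, hr, hrball⟩ := (han P).exists_ball_analyticOnNhd
    obtain ⟨g, hg0, hg⟩ := (hrball.differentiableOn.isExactOn_ball).with_val_at 0 0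
    refine ⟨g, hg0, eventually_of_mem (Metric.ball_mem_nhds 0 hr) hg, ?_⟩
    have hd : DifferentiableOn ℂ g (Metric.ball 0 r) :=
      fun s hs => (hg s hs).differentiableAt.differentiableWithinAt
    exact hd.analyticAt (Metric.ball_mem_nhds 0 hr)
  choose Ψ h0 hd hΨan using hprim
  exact ⟨⟨t, σ, hc, L, Ψ, h0, hd, hΨan, O⟩⟩

omit [FF.IsFunctionField ℂ F] in
theorem IsChart.coord_mem {P : Place ℂ F} {t : F} {σ : ℂ → Place ℂ F} (h : IsChart P t σ) :
    t ∈ P.toValuationSubring ∧ val P t = 0 ∧ P.ord t = 1 := by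
  obtain ⟨h1, h2, h3⟩ := h.coord.self_of_nhds
  rw [h.map_zero] at h1 h2 h3
  exact ⟨h1, h2, by simpa using h3⟩

/-- The parametrisation is continuous near the origin. -/
theorem IsChart.eventually_continuousAt {P : Place ℂ F} {t : F} {σ : ℂ → Place ℂ F}
    (h : IsChart P t σ) : ∀ᶠ s in 𝓝 (0 : ℂ), ContinuousAt σ s := by
  have : CompactSpace (Place ℂ F) := compactSpace_place
  have : T2Space (Place ℂ F) := t2Space_place
  obtain ⟨hmem, hval, -⟩ := h.coord_mem
  obtain ⟨U, hUnhds, hUclosed, hUsub⟩ := exists_mem_nhds_isClosed_subset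
    (h.surj.and ((isOpen_regular t).mem_nhds hmem) : {Q | σ (val Q t) = Q ∧
      t ∈ Q.toValuationSubring} ∈ 𝓝 P)
  have hU : ∀ Q ∈ U, σ (val Q t) = Q := fun Q hQ => (hUsub hQ).1
  filter_upwards [(h.tendsto.eventually (eventually_mem_nhds_iff.mpr hUnhds)).eventually_nhds,
    h.coord.eventually_nhds] with s hs hs'
  rw [ContinuousAt]
  refine isCompact_univ.tendsto_nhds_of_unique_mapClusterPt
    (Eventually.of_forall fun _ => Set.mem_univ _) fun Q _ hQ => ?_
  have : (𝓝 Q ⊓ Filter.map σ (𝓝 s)).NeBot := hQ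
  have hQU : Q ∈ U := hUclosed.mem_of_frequently_of_tendsto
    (b := 𝓝 Q ⊓ Filter.map σ (𝓝 s)) (f := id)
    (Eventually.frequently (by
      refine Filter.Eventually.filter_mono inf_le_right (eventually_map.mpr ?_)
      filter_upwards [hs] with s' hs'' using mem_of_mem_nhds hs''))
    (tendsto_id'.mpr inf_le_left)
  obtain ⟨-, hQt⟩ := hUsub hQU
  have h1 : MapClusterPt (val Q t) (𝓝 s) ((fun w => val w t) ∘ σ) :=
    hQ.continuousAt_comp (continuousAt_val hQt)
  have h2 : Tendsto ((fun w => val w t) ∘ σ) (𝓝 s) (𝓝 s) :=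
    tendsto_id.congr' (hs'.mono fun s' hs'' => hs''.2.1.symm)
  have e : val Q t = s := eq_of_nhds_neBot (ClusterPt.mono h1 h2)
  rw [← hU Q hQU, e]

variable (A : Atlas F)

omit [FF.IsFunctionField ℂ F] in
theorem Atlas.coord (P : Place ℂ F) :
    A.t P ∈ P.toValuationSubring ∧ val P (A.t P) = 0 ∧ P.ord (A.t P) = 1 :=
  (A.isChart P).coord_mem

omit [FF.IsFunctionField ℂ F] in
theorem degree_sub_single (O : Place ℂ F) (D : Divisor ℂ F) :
    D - Finsupp.single O (Divisor.degree D) ∈ Divisor.degZero (K := ℂ) (F := F) := by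
  rw [Divisor.mem_degZero, map_sub, degree_single', sub_self]

/-- The class of `D - deg D · O`. -/
def Atlas.toPic0 : Divisor ℂ F →+ Pic0 ℂ F where
  toFun D := Pic0.mk ⟨D - Finsupp.single A.O (Divisor.degree D), degree_sub_single A.O D⟩
  map_zero' := by
    rw [← Pic0.mk_zero]
    exact congrArg Pic0.mk (Subtype.ext (by simp))
  map_add' D E := by
    rw [← Pic0.mk_add]
    refine congrArg Pic0.mk (Subtype.ext ?_)
    simp only [map_add, Finsupp.single_add, AddSubgroup.coe_add]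
    abel

omit [FF.IsFunctionField ℂ F] in
theorem Atlas.toPic0_eq_zero_iff {D : Divisor ℂ F} (hD : Divisor.degree D = 0) :
    A.toPic0 D = 0 ↔ Divisor.IsPrincipal D := by
  show Pic0.mk _ = 0 ↔ _
  rw [Pic0.mk, QuotientAddGroup.eq_zero_iff, AddSubgroup.mem_addSubgroupOf]
  simp only [hD, Finsupp.single_zero, sub_zero]
  exact Divisor.mem_principal

omit [FF.IsFunctionField ℂ F] in
theorem Atlas.toPic0_surjective : Function.Surjective A.toPic0 := by
  intro x
  obtain ⟨⟨D, hD⟩, rfl⟩ := Pic0.mk_surjective x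
  refine ⟨D, ?_⟩
  show Pic0.mk _ = _
  exact congrArg Pic0.mk (Subtype.ext (by simp [Divisor.mem_degZero.mp hD]))

/-- The local Abel–Jacobi map: the class of `σ_P(s) - P`. -/
def Atlas.α (P : Place ℂ F) (s : ℂ) : Pic0 ℂ F :=
  A.toPic0 (Finsupp.single (A.σ P s) 1 - Finsupp.single P 1)

/-- The polar class at the origin of the chart at `P`. -/
def Atlas.a (P : Place ℂ F) : H1 (0 : Divisor ℂ F) := cls P (A.t P)⁻¹

omit [FF.IsFunctionField ℂ F] in
theorem Atlas.hasDerivAt_Ψ_zero (P : Place ℂ F) :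
    HasDerivAt (A.Ψ P) (A.L (A.a P)) 0 := by
  have := (A.hasDerivAt_Ψ P).self_of_nhds
  simpa [(A.isChart P).map_zero, Atlas.a] using this

end Fermat.Agent.AJ
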