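import Fermat.Agent.AJ.Topology
import Fermat.Agent.AJ.Analytic
import Mathlib.FieldTheory.Minpoly.IsIntegrallyClosed
import Mathlib.Algebra.Polynomial.Bivariate

/-!
# Analytic branches over a neighbourhood of a fibre with simple points

For a function `x` whose only pole is at `R` and whose zero set `Z` consists of simple points, the
fibres of `x` near `0` are described by analytic functions.
-/

set_option autoImplicit false

noncomputable section

open AlgebraicCurve Filter Topology Polynomial

namespace Fermat.Agent.AJ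

variable {F : Type*} [Field F] [Algebra ℂ F] [IsCurveOver ℂ F] [FF.IsFunctionField ℂ F]

attribute [local instance] placeTopology

/-- The polynomial relation between `x` and `y`, with every root realised by a place. -/
theorem exists_relation {x y : F} (hx : Transcendental ℂ x)
    (hy : ∀ v : Place ℂ F, x ∈ v.toValuationSubring → y ∈ v.toValuationSubring) :
    ∃ G : ℂ[X][X], G.Monic ∧ G.eval₂ (aeval x).toRingHom y = 0 ∧
      (derivative G).eval₂ (aeval x).toRingHom y ≠ 0 ∧
      ∀ s a : ℂ, G.evalEval s a = 0 → ∃ v : Place ℂ F, x ∈ v.toValuationSubring ∧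
        y ∈ v.toValuationSubring ∧ val v x = s ∧ val v y = a := by
  let φ : ℂ[X] →+* F := (aeval x).toRingHom
  let : Algebra ℂ[X] F := φ.toAlgebra
  have hinj : Function.Injective (algebraMap ℂ[X] F) :=
    transcendental_iff_injective.mp hx
  have : FaithfulSMul ℂ[X] F := (faithfulSMul_iff_algebraMap_injective _ _).mpr hinj
  have hint : IsIntegral ℂ[X] y := by
    have hmem : y ∈ (integralClosure (Subring.closure (Set.range (algebraMap ℂ F) ∪ {x})) F).toSubring := by
      rw [← iInf_valuationSubring_superset, Subring.mem_iInf]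
      rintro ⟨V, hV⟩
      by_cases htop : V = ⊤
      · subst htop
        trivial
      · let v : Place ℂ F := FF.placeOfValuationSubring V
          (fun c => hV (Or.inl ⟨c, rfl⟩)) htop
        exact hy v (hV (Or.inr rfl) : x ∈ V)
    obtain ⟨P, hP, hPy⟩ :=
      (hmem : IsIntegral (Subring.closure (Set.range (algebraMap ℂ F) ∪ {x})) y)
    have hle : Subring.closure (Set.range (algebraMap ℂ F) ∪ {x}) ≤
        (algebraMap ℂ[X] F).range := by
      rw [Subring.closure_le]
      rintro z (⟨c, rfl⟩ | rfl)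
      · exact ⟨C c, aeval_C x c⟩
      · exact ⟨X, aeval_X _⟩
    have hlift : P.map (algebraMap (Subring.closure (Set.range (algebraMap ℂ F) ∪ {x})) F) ∈
        lifts (algebraMap ℂ[X] F) := by
      rw [lifts_iff_coeff_lifts]
      intro i
      rw [coeff_map]
      exact hle (P.coeff i).2
    obtain ⟨Q, hQ, -, hQm⟩ := lifts_and_natDegree_eq_and_monic hlift (hP.map _)
    refine ⟨Q, hQm, ?_⟩
    rw [eval₂_eq_eval_map, hQ, ← eval₂_eq_eval_map]
    exact hPy
  set G := minpoly ℂ[X] y with hG
  have hGm : G.Monic := minpoly.monic hint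
  have hGy : G.eval₂ φ y = 0 := minpoly.aeval ℂ[X] y
  refine ⟨G, hGm, hGy, ?_, ?_⟩
  · intro h
    have hdeg := minpoly.natDegree_pos hint
    have hne : derivative G ≠ 0 := by
      intro h0
      have := congrArg natDegree h0
      rw [natDegree_derivative, natDegree_zero] at this
      rw [← hG] at hdeg
      have hone : G.natDegree = 1 := by omega
      obtain ⟨c, hc⟩ : ∃ c, G = X + C c := ⟨G.coeff 0, by
        conv_lhs => rw [hGm.eq_X_add_C hone]⟩
      rw [hc] at h0
      simp at h0
    have hdvd : G ∣ derivative G := (minpoly.isIntegrallyClosed_dvd_iff hint _).mp h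
    have := natDegree_le_of_dvd hdvd hne
    rw [natDegree_derivative] at this
    rw [← hG] at hdeg
    omega
  · intro s a hsa
    let Φ : ℂ[X][X] →+* F := eval₂RingHom φ y
    let ev : ℂ[X][X] →+* ℂ := evalEvalRingHom s a
    have hker : ∀ p, Φ p = 0 → ev p = 0 := by
      intro p hp
      obtain ⟨q, rfl⟩ := (minpoly.isIntegrallyClosed_dvd_iff hint p).mp hp
      rw [← hG, map_mul]
      have : ev G = 0 := hsa
      rw [this, zero_mul]
    set I : Ideal Φ.range := (RingHom.ker ev).map Φ.rangeRestrict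
    have hI : I ≠ ⊤ := by
      intro htop
      obtain ⟨p, hp, hp1⟩ := (Ideal.mem_map_iff_of_surjective _ Φ.rangeRestrict_surjective).mp
        (htop ▸ Submodule.mem_top : (1 : Φ.range) ∈ I)
      have h1 : Φ (p - 1) = 0 := by
        rw [map_sub, map_one, sub_eq_zero]
        exact congrArg Subtype.val hp1
      have := hker _ h1
      rw [map_sub, map_one, RingHom.mem_ker.mp hp, zero_sub, neg_eq_zero] at this
      exact one_ne_zero this
    obtain ⟨V, hV, hVI⟩ := Ideal.image_subset_nonunits_valuationSubring I hI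
    have hcV : ∀ c : ℂ, algebraMap ℂ F c ∈ V := fun c => hV ⟨C (C c), by
      simp [Φ, φ]⟩
    have hxV : x ∈ V := hV ⟨C X, by simp [Φ, φ]⟩
    have hyV : y ∈ V := hV ⟨X, by simp [Φ]⟩
    have hnonunit : ∀ p, ev p = 0 → Φ p ∈ V.nonunits := fun p hp =>
      hVI ⟨Φ.rangeRestrict p, Ideal.mem_map_of_mem _ hp, rfl⟩
    have hxs : x - algebraMap ℂ F s ∈ V.nonunits := by
      have h := hnonunit (C X - C (C s)) (by simp [ev])
      rw [map_sub] at h
      simpa [Φ, φ] using h
    have hys : y - algebraMap ℂ F a ∈ V.nonunits := by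
      have h := hnonunit (X - C (C a)) (by simp [ev])
      rw [map_sub] at h
      simpa [Φ, φ] using h
    have hxs0 : x - algebraMap ℂ F s ≠ 0 := fun h =>
      hx (by rw [sub_eq_zero.mp h]; exact isAlgebraic_algebraMap s)
    have htop : V ≠ ⊤ := by
      rintro rfl
      obtain ⟨h1, h2⟩ := ValuationSubring.mem_nonunits_iff_exists_mem_maximalIdeal.mp hxs
      exact (IsLocalRing.mem_maximalIdeal _).mp h2 (isUnit_iff_exists_inv.mpr
        ⟨⟨(x - algebraMap ℂ F s)⁻¹, ValuationSubring.mem_top _⟩,
          Subtype.ext (mul_inv_cancel₀ hxs0)⟩)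
    let v : Place ℂ F := FF.placeOfValuationSubring V hcV htop
    have key : ∀ f : F, ∀ c : ℂ, f ∈ V → f - algebraMap ℂ F c ∈ V.nonunits → val v f = c := by
      intro f c hf hfc
      obtain ⟨h1, h2⟩ := ValuationSubring.mem_nonunits_iff_exists_mem_maximalIdeal.mp hfc
      refine val_eq_of_residue (v := v) hf ?_
      have h3 : IsLocalRing.residue v.toValuationSubring ⟨f - algebraMap ℂ F c, h1⟩ = 0 :=
        (IsLocalRing.residue_eq_zero_iff _).mpr h2
      rw [show (⟨f - algebraMap ℂ F c, h1⟩ : v.toValuationSubring)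
        = ⟨f, hf⟩ - algebraMap ℂ v.toValuationSubring c from rfl, map_sub, sub_eq_zero] at h3
      exact h3
    exact ⟨v, hxV, hyV, key x s hxV hxs, key y a hyV hys⟩

variable {R : Place ℂ F} {x : F} {Z : Finset (Place ℂ F)}

namespace IsSimpleDiv

variable (hx : IsSimpleDiv R x Z)
include hx

omit [IsCurveOver ℂ F] [FF.IsFunctionField ℂ F] in
theorem mem_toValuationSubring {v : Place ℂ F} (hv : v ≠ R) : x ∈ v.toValuationSubring := by
  refine mem_of_ord_nonneg ?_
  by_cases h : v ∈ Z
  · rw [hx.ord_eq_one v h]; norm_num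
  · rw [hx.ord_eq_zero v h hv]

omit [FF.IsFunctionField ℂ F] in
theorem val_eq_zero {v : Place ℂ F} (hv : v ∈ Z) : val v x = 0 :=
  (val_eq_zero_iff (hx.mem_toValuationSubring fun e => hx.notMem (e ▸ hv))).mpr
    (Or.inr (by rw [hx.ord_eq_one v hv]; norm_num))

omit [FF.IsFunctionField ℂ F] in
theorem mem_of_val_eq_zero {v : Place ℂ F} (hv : v ≠ R) (h : val v x = 0) : v ∈ Z := by
  by_contra hvZ
  have := ((val_eq_zero_iff (hx.mem_toValuationSubring hv)).mp h).resolve_left hx.ne_zero
  rw [hx.ord_eq_zero v hvZ hv] at this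
  exact lt_irrefl 0 this

omit [IsCurveOver ℂ F] [FF.IsFunctionField ℂ F] in
theorem transcendental (hZ : Z.Nonempty) : Transcendental ℂ x := by
  obtain ⟨v, hv⟩ := hZ
  exact FF.transcendental_of_ord_ne_zero v (by rw [hx.ord_eq_one v hv]; norm_num)

omit [IsCurveOver ℂ F] [FF.IsFunctionField ℂ F] in
theorem notMem_pole (hZ : Z.Nonempty) : x ∉ R.toValuationSubring := by
  rw [notMem_iff_ord_neg, hx.ord_pole]
  have := hZ.card_pos
  omega

omit [IsCurveOver ℂ F] [FF.IsFunctionField ℂ F] in
theorem mem_L : x ∈ riemannRochSpace (Finsupp.single R (Z.card : ℤ)) := by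
  classical
  refine mem_riemannRochSpace_iff.mpr fun v => Or.inr ?_
  rcases eq_or_ne v R with rfl | hv
  · rw [Finsupp.single_eq_same, hx.ord_pole]
  · rw [Finsupp.single_eq_of_ne hv, neg_zero]
    exact ord_nonneg_of_mem (hx.mem_toValuationSubring hv)

omit [FF.IsFunctionField ℂ F] in
/-- A fibre of `x` has at most `Z.card` points, all simple in case of equality. -/
theorem card_fibre_le (hZ : Z.Nonempty) (s : ℂ) (S : Finset (Place ℂ F))
    (hS : ∀ v ∈ S, v ≠ R ∧ val v x = s) :
    S.card ≤ Z.card ∧ (Z.card ≤ S.card → (∀ v ∈ S, v.ord (x - algebraMap ℂ F s) = 1) ∧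
      ∀ v, v ≠ R → val v x = s → v ∈ S) := by
  classical
  have hne : x - algebraMap ℂ F s ≠ 0 := fun h =>
    hx.transcendental hZ (by rw [sub_eq_zero.mp h]; exact isAlgebraic_algebraMap s)
  have hmem : x - algebraMap ℂ F s ∈ riemannRochSpace (Finsupp.single R (Z.card : ℤ)) := by
    refine sub_mem hx.mem_L (mem_riemannRochSpace_iff.mpr fun v => Or.inr ?_)
    rw [ord_algebraMap]
    rcases eq_or_ne v R with rfl | hv
    · simp
    · simp [Finsupp.single_eq_of_ne hv]
  have hpos : ∀ v, v ≠ R → val v x = s → 0 < v.ord (x - algebraMap ℂ F s) := by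
    intro v hv hvs
    have hm := hx.mem_toValuationSubring hv
    refine ((val_eq_zero_iff (sub_mem hm (v.algebraMap_mem' s))).mp ?_).resolve_left hne
    rw [val_sub hm (v.algebraMap_mem' s), val_algebraMap, hvs, sub_self]
  obtain ⟨h1, h2⟩ := ord_add_eq_of_card hne hmem (S := S) fun v hv => by
    rw [Finsupp.single_eq_of_ne (hS v hv).1, add_zero]
    have := hpos v (hS v hv).1 (hS v hv).2
    omega
  rw [degree_single'] at h1 h2
  refine ⟨by exact_mod_cast h1, fun hle => ?_⟩
  obtain ⟨h3, h4⟩ := h2 (by exact_mod_cast hle)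
  refine ⟨fun v hv => ?_, fun v hv hvs => ?_⟩
  · have := h3 v hv
    rwa [Finsupp.single_eq_of_ne (hS v hv).1, add_zero] at this
  · by_contra hvS
    have := h4 v hvS
    rw [Finsupp.single_eq_of_ne hv, add_zero] at this
    have := hpos v hv hvs
    omega

/-- Analytic branches of a function regular away from `R` and injective on the zero set of `x`. -/
theorem exists_branches (hZ : Z.Nonempty) {y : F}
    (hy : ∀ v, v ≠ R → y ∈ v.toValuationSubring) (hinj : Set.InjOn (fun v => val v y) (Z : Set (Place ℂ F))) :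
    ∃ Y : Place ℂ F → ℂ → ℂ,
      (∀ v ∈ Z, AnalyticAt ℂ (Y v) 0 ∧ Y v 0 = val v y ∧
        ∀ᶠ w in 𝓝 v, val w y = Y v (val w x)) ∧
      ∀ᶠ s in 𝓝 (0 : ℂ), ∀ v ∈ Z, ∃ w, w ≠ R ∧ val w x = s ∧ val w y = Y v s := by
  classical
  have hxR := hx.notMem_pole hZ
  have hne : ∀ v : Place ℂ F, x ∈ v.toValuationSubring → v ≠ R := fun v h e => hxR (e ▸ h)
  obtain ⟨G, hGm, hGy, hG', hroot⟩ := exists_relation (hx.transcendental hZ)
    fun v h => hy v (hne v h)
  -- values of polynomial expressions in `x` and `y`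
  have hvalP : ∀ (p : ℂ[X][X]) (v : Place ℂ F), v ≠ R →
      p.eval₂ (aeval x).toRingHom y ∈ v.toValuationSubring ∧
      val v (p.eval₂ (aeval x).toRingHom y) = p.evalEval (val v x) (val v y) := by
    intro p v hv
    have hxm := hx.mem_toValuationSubring hv
    have hym := hy v hv
    induction p using Polynomial.induction_on' with
    | add p q hp hq =>
      rw [eval₂_add, evalEval_add]
      exact ⟨add_mem hp.1 hq.1, by rw [val_add hp.1 hq.1, hp.2, hq.2]⟩
    | monomial n c =>
      obtain ⟨h1, h2⟩ := aeval_mem_and_val hxm c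
      rw [eval₂_monomial]
      refine ⟨mul_mem h1 (pow_mem hym n), ?_⟩
      show val v (aeval x c * y ^ n) = _
      rw [val_mul h1 (pow_mem hym n), val_pow hym]
      simp [evalEval, h2]
  -- the degree is the number of points of a generic fibre
  set u := (derivative G).eval₂ (aeval x).toRingHom y
  have hroots : ∀ (s : ℂ) (A : Finset ℂ), (∀ a ∈ A, G.evalEval s a = 0) → A.card ≤ Z.card := by
    intro s A hA
    have : Nonempty (Place ℂ F) := ⟨R⟩
    choose! w hw using fun a ha => hroot s a (hA a ha)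
    have hw' : Set.InjOn w A := fun a ha b hb e => by
      rw [← (hw a ha).2.2.2, ← (hw b hb).2.2.2, e]
    rw [← Finset.card_image_of_injOn hw']
    refine (hx.card_fibre_le hZ s (A.image w) fun v hv => ?_).1
    obtain ⟨a, ha, rfl⟩ := Finset.mem_image.mp hv
    exact ⟨hne _ (hw a ha).1, (hw a ha).2.2.1⟩
  have hmapdeg : ∀ s : ℂ, (G.map (evalRingHom s)).natDegree = G.natDegree := fun s =>
    hGm.natDegree_map _
  have hev : ∀ (p : ℂ[X][X]) (s a : ℂ), p.evalEval s a = (p.map (evalRingHom s)).eval a :=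
    fun p s a => by rw [map_evalRingHom_eval]
  have hdle : G.natDegree ≤ Z.card := by
    obtain ⟨s, hs⟩ := Infinite.exists_notMem_finset
      ((FF.finite_setOf_ord_ne_zero (K := ℂ) hG').toFinset.image fun v => val v x)
    set p := G.map (evalRingHom s)
    have hp0 : p ≠ 0 := (hGm.map _).ne_zero
    have hnodup : p.roots.Nodup := by
      rw [nodup_roots_iff_of_splits hp0 (IsAlgClosed.splits p), separable_def,
        isCoprime_iff_aeval_ne_zero_of_isAlgClosed ℂ ℂ]
      intro a
      by_contra hc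
      rw [not_or, not_not, not_not, coe_aeval_eq_eval, derivative_map, ← hev, ← hev] at hc
      obtain ⟨v, hvx, hvy, hvs, hva⟩ := hroot s a hc.1
      obtain ⟨h1, h2⟩ := hvalP (derivative G) v (hne v hvx)
      rw [hvs, hva, hc.2] at h2
      have h3 := ((val_eq_zero_iff h1).mp h2).resolve_left hG'
      exact hs (Finset.mem_image.mpr ⟨v, by simpa [u] using h3.ne', hvs⟩)
    calc G.natDegree = p.natDegree := (hmapdeg s).symm
      _ = p.roots.card := (IsAlgClosed.card_roots_eq_natDegree).symm
      _ = p.roots.toFinset.card := (Multiset.toFinset_card_of_nodup hnodup).symm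
      _ ≤ Z.card := hroots s _ fun a ha => by
        rw [hev]; exact (mem_roots'.mp (Multiset.mem_toFinset.mp ha)).2
  -- all roots over `0` are simple
  have hZne : ∀ v ∈ Z, v ≠ R := fun v hv e => hx.notMem (e ▸ hv)
  have hroot0 : ∀ v ∈ Z, G.evalEval 0 (val v y) = 0 := fun v hv => by
    have := (hvalP G v (hZne v hv)).2
    rwa [hGy, val_zero, hx.val_eq_zero hv, eq_comm] at this
  have hsimple : ∀ v ∈ Z, (derivative G).evalEval 0 (val v y) ≠ 0 := by
    intro v hv h0
    set p := G.map (evalRingHom (0 : ℂ))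
    have hp0 : p ≠ 0 := (hGm.map _).ne_zero
    have hsub : (Z.image fun w => val w y) ⊆ p.roots.toFinset := fun a ha => by
      obtain ⟨w, hw, rfl⟩ := Finset.mem_image.mp ha
      rw [Multiset.mem_toFinset, mem_roots hp0, IsRoot, ← hev]
      exact hroot0 w hw
    have h1 : Z.card ≤ p.roots.toFinset.card := by
      rw [← Finset.card_image_of_injOn hinj]
      exact Finset.card_le_card hsub
    have h2 : p.roots.card ≤ Z.card := (card_roots' p).trans ((hmapdeg 0).le.trans hdle)
    have hnd : p.roots.Nodup := by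
      rw [← Multiset.toFinset_card_eq_card_iff_nodup]
      exact le_antisymm (Multiset.toFinset_card_le _) (h2.trans h1)
    have := Multiset.nodup_iff_count_le_one.mp hnd (val v y)
    rw [count_roots] at this
    have h3 : 1 < p.rootMultiplicity (val v y) := by
      rw [one_lt_rootMultiplicity_iff_isRoot hp0]
      exact ⟨by rw [IsRoot, ← hev]; exact hroot0 v hv,
        by rw [IsRoot, derivative_map, ← hev]; exact h0⟩
    omega
  have han : ∀ v : Place ℂ F, AnalyticAt ℂ (fun q : ℂ × ℂ => G.evalEval q.1 q.2) (0, val v y) := by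
    intro v
    have e : (fun q : ℂ × ℂ => G.evalEval q.1 q.2) =
        fun q => ∑ i ∈ G.support, (G.coeff i).eval q.1 * q.2 ^ i := by
      ext q
      conv_lhs => rw [G.as_sum_support_C_mul_X_pow]
      simp [evalEval, eval_finsetSum]
    rw [e]
    refine Finset.analyticAt_fun_sum _ fun i _ => AnalyticAt.mul ?_ (analyticAt_snd.pow i)
    exact ((G.coeff i).differentiable.analyticAt _).fun_comp analyticAt_fst
  have hY : ∀ v ∈ Z, ∃ Y : ℂ → ℂ, Y 0 = val v y ∧ AnalyticAt ℂ Y 0 ∧
      ∀ᶠ q : ℂ × ℂ in 𝓝 (0, val v y), (G.evalEval q.1 q.2 = 0 ↔ q.2 = Y q.1) := by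
    intro v hv
    refine exists_implicit_root (han v) (hroot0 v hv)
      (d := (derivative G).evalEval 0 (val v y)) ?_ (hsimple v hv)
    simp only [hev, ← derivative_map]
    exact Polynomial.hasDerivAt _ _
  choose! Y hY0 hYan hYroot using hY
  refine ⟨Y, fun v hv => ⟨hYan v hv, hY0 v hv, ?_⟩, ?_⟩
  · have hvR := hZne v hv
    have hxm := hx.mem_toValuationSubring hvR
    have hopen : ∀ᶠ w in 𝓝 v, x ∈ w.toValuationSubring := (isOpen_regular x).mem_nhds hxm
    have ht : Tendsto (fun w => (val w x, val w y)) (𝓝 v) (𝓝 (0, val v y)) := by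
      have := (continuousAt_val hxm).tendsto.prodMk_nhds (continuousAt_val (hy v hvR)).tendsto
      rwa [hx.val_eq_zero hv] at this
    filter_upwards [hopen, ht.eventually (hYroot v hv)] with w hw hw'
    refine hw'.mp ?_
    rw [← (hvalP G w (hne w hw)).2, hGy, val_zero]
  · rw [eventually_all_finset]
    intro v hv
    have ht : Tendsto (fun s => (s, Y v s)) (𝓝 0) (𝓝 ((0 : ℂ), val v y)) := by
      have := (continuousAt_id (x := (0 : ℂ))).tendsto.prodMk_nhds (hYan v hv).continuousAt.tendsto
      rwa [hY0 v hv] at this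
    filter_upwards [ht.eventually (hYroot v hv)] with s hs
    obtain ⟨w, hwx, -, hws, hwy⟩ := hroot s (Y v s) (hs.mpr rfl)
    exact ⟨w, hne w hwx, hws, hwy⟩

end IsSimpleDiv

end Fermat.Agent.AJ
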