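import Fermat.Agent.AJ.Branches

/-!
# Holomorphic charts at the places of a curve over `ℂ`
-/

set_option autoImplicit false

noncomputable section

open AlgebraicCurve Filter Topology

namespace Fermat.Agent.AJ

variable {F : Type*} [Field F] [Algebra ℂ F] [IsCurveOver ℂ F]

attribute [local instance] placeTopology

/-- `σ` parametrises a neighbourhood of `P` holomorphically, with coordinate `t`. -/
structure IsChart (P : Place ℂ F) (t : F) (σ : ℂ → Place ℂ F) : Prop where
  map_zero : σ 0 = P
  tendsto : Tendsto σ (𝓝 0) (𝓝 P)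
  coord : ∀ᶠ s in 𝓝 0, t ∈ (σ s).toValuationSubring ∧ val (σ s) t = s ∧
    (σ s).ord (t - algebraMap ℂ F s) = 1
  surj : ∀ᶠ Q in 𝓝 P, σ (val Q t) = Q
  analytic : ∀ f : F, f ∈ P.toValuationSubring → AnalyticAt ℂ (fun s => val (σ s) f) 0
  cls_analytic : ∀ φ : H1 (0 : Divisor ℂ F) →ₗ[ℂ] ℂ,
    AnalyticAt ℂ (fun s => φ (cls (σ s) (t - algebraMap ℂ F s)⁻¹)) 0

variable [FF.IsFunctionField ℂ F]

omit [FF.IsFunctionField ℂ F] in
theorem exists_place_ne (hR : Riemann ℂ F) (P : Place ℂ F) : ∃ R : Place ℂ F, R ≠ P := by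
  classical
  obtain ⟨c, hc⟩ := hR.large
  obtain ⟨f, hfD, hf0, hfP⟩ := exists_exact hc hR.finite_L
    (Finsupp.single P (((c + 1).toNat : ℤ) + 1)) (by rw [degree_single']; omega) {P} (by simp)
  have hP := hfP P (Finset.mem_singleton_self P)
  rw [Finsupp.single_eq_same] at hP
  obtain ⟨E, hE, hE0⟩ := HasPrincipalDivisors.exists_divisor (K := ℂ) f hf0
  by_contra h
  push Not at h
  have : E = Finsupp.single P (P.ord f) := by
    ext v
    rw [h v, Finsupp.single_eq_same, hE P]
  rw [this, degree_single', hP] at hE0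
  omega

theorem exists_isChart (hR : Riemann ℂ F) (P : Place ℂ F) :
    ∃ (t : F) (σ : ℂ → Place ℂ F), IsChart P t σ := by
  classical
  obtain ⟨c, hc⟩ := hR.large
  obtain ⟨R, hRP⟩ := exists_place_ne hR P
  obtain ⟨N, hN⟩ := exists_isSimpleDiv hR R {P} (by simpa using hRP)
  obtain ⟨x, Z, hPZ, hcard, hx⟩ := hN (max N 1) (le_max_left _ _)
  have hP : P ∈ Z := hPZ (Finset.mem_singleton_self P)
  have hZ : Z.Nonempty := ⟨P, hP⟩
  have hZne : ∀ v ∈ Z, v ≠ R := fun v hv e => hx.notMem (e ▸ hv)
  have hxR := hx.notMem_pole hZ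
  have hm : 0 < Z.card := hZ.card_pos
  set M : ℕ := c.toNat + Z.card with hMdef
  set D : Divisor ℂ F := Finsupp.single R (M : ℤ) with hDdef
  have hDv : ∀ v, v ≠ R → D v = 0 := fun v hv => by simp [hDdef, Finsupp.single_eq_of_ne hv]
  have hDdeg : c + Z.card ≤ Divisor.degree D := by
    rw [hDdef, degree_single']; omega
  have hvals : ∀ a : Place ℂ F → ℂ, ∃ f ∈ riemannRochSpace D, ∀ v ∈ Z, val v f = a v :=
    exists_values hc hR.finite_L D Z (fun v hv => hDv v (hZne v hv)) hDdeg
  have hregD : ∀ f ∈ riemannRochSpace D, ∀ v, v ≠ R → f ∈ v.toValuationSubring :=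
    fun f hf v hv => mem_of_mem_L hf (hDv v hv).le
  -- a function separating the points of the fibre
  obtain ⟨enum, henum⟩ : ∃ enum : Place ℂ F → ℂ, Set.InjOn enum (Z : Set (Place ℂ F)) := by
    let e := Z.equivFin
    refine ⟨fun v => if h : v ∈ Z then ((e ⟨v, h⟩ : ℕ) : ℂ) else 0, fun v hv w hw hvw => ?_⟩
    simp only [Finset.mem_coe.mp hv, Finset.mem_coe.mp hw, dif_pos, Nat.cast_inj] at hvw
    simpa using e.injective (Fin.ext hvw)
  obtain ⟨y, hyD, hyv⟩ := hvals enum
  have hy := hregD y hyD
  have hinj : Set.InjOn (fun v => val v y) (Z : Set (Place ℂ F)) := fun v hv w hw e =>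
    henum hv hw (by simpa only [hyv v hv, hyv w hw] using e)
  obtain ⟨Y, hY, hex⟩ := hx.exists_branches hZ hy hinj
  have : Nonempty (Place ℂ F) := ⟨R⟩
  choose! σ hσ using fun (v : Place ℂ F) (s : ℂ)
    (h : ∃ w, w ≠ R ∧ val w x = s ∧ val w y = Y v s) => h
  -- the parametrised points exhaust the nearby fibres
  have hdist : ∀ᶠ s in 𝓝 (0 : ℂ), ∀ p ∈ Z ×ˢ Z, p.1 ≠ p.2 → Y p.1 s ≠ Y p.2 s := by
    rw [eventually_all_finset]
    rintro ⟨v, w⟩ hp
    obtain ⟨hv, hw⟩ := Finset.mem_product.mp hp
    by_cases hvw : v = w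
    · exact Eventually.of_forall fun s h => (h hvw).elim
    have : Y v 0 ≠ Y w 0 := by
      rw [(hY v hv).2.1, (hY w hw).2.1]
      exact fun e => hvw (hinj hv hw e)
    filter_upwards [((hY v hv).1.continuousAt.sub (hY w hw).1.continuousAt).eventually_ne
      (sub_ne_zero.mpr this)] with s hs _
    exact sub_ne_zero.mp hs
  have hfib : ∀ᶠ s in 𝓝 (0 : ℂ), (∀ v ∈ Z, σ v s ≠ R ∧ val (σ v s) x = s ∧
      val (σ v s) y = Y v s ∧ (σ v s).ord (x - algebraMap ℂ F s) = 1) ∧
      (∀ w, w ≠ R → val w x = s → ∃ v ∈ Z, w = σ v s) ∧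
      ∀ v ∈ Z, ∀ w, w ≠ R → val w x = s → val w y = Y v s → w = σ v s := by
    filter_upwards [hex, hdist] with s hs hd
    have hspec : ∀ v ∈ Z, σ v s ≠ R ∧ val (σ v s) x = s ∧ val (σ v s) y = Y v s :=
      fun v hv => hσ v s (hs v hv)
    have hσinj : Set.InjOn (fun v => σ v s) (Z : Set (Place ℂ F)) := by
      intro v hv w hw e
      by_contra hvw
      refine hd (v, w) (Finset.mk_mem_product hv hw) hvw ?_
      simp only at e ⊢
      rw [← (hspec v hv).2.2, e, (hspec w hw).2.2]
    obtain ⟨-, h2⟩ := hx.card_fibre_le hZ s (Z.image fun v => σ v s) fun w hw => by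
      obtain ⟨v, hv, rfl⟩ := Finset.mem_image.mp hw
      exact ⟨(hspec v hv).1, (hspec v hv).2.1⟩
    obtain ⟨h3, h4⟩ := h2 (by rw [Finset.card_image_of_injOn hσinj])
    have hall : ∀ w, w ≠ R → val w x = s → ∃ v ∈ Z, w = σ v s := fun w hw hws => by
      obtain ⟨v, hv, e⟩ := Finset.mem_image.mp (h4 w hw hws)
      exact ⟨v, hv, e.symm⟩
    refine ⟨fun v hv => ⟨(hspec v hv).1, (hspec v hv).2.1, (hspec v hv).2.2,
      h3 _ (Finset.mem_image_of_mem _ hv)⟩, hall, fun v hv w hw hws hwy => ?_⟩
    obtain ⟨v', hv', rfl⟩ := hall w hw hws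
    by_contra hne
    refine hd (v', v) (Finset.mk_mem_product hv' hv) (fun e => hne (by rw [show v' = v from e])) ?_
    show Y v' s = Y v s
    rw [← hwy, (hspec v' hv').2.2]
  have : CompactSpace (Place ℂ F) := compactSpace_place
  have hne : ∀ v : Place ℂ F, x ∈ v.toValuationSubring → v ≠ R := fun v h e => hxR (e ▸ h)
  -- continuity
  have htend : ∀ v ∈ Z, Tendsto (σ v) (𝓝 0) (𝓝 v) := by
    intro v hv
    refine isCompact_univ.tendsto_nhds_of_unique_mapClusterPt (Eventually.of_forall fun _ =>
      Set.mem_univ _) fun w _ hw => ?_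
    have hval : ∀ (f : F) (φ : ℂ → ℂ), ContinuousAt φ 0 →
        (∀ᶠ s in 𝓝 0, f ∈ (σ v s).toValuationSubring ∧ val (σ v s) f = φ s) →
        f ∈ w.toValuationSubring ∧ val w f = φ 0 := by
      intro f φ hφ hf
      have h1 := hw.continuousAt_comp (continuous_evalPt f).continuousAt
      have h2 : Tendsto ((fun q => evalPt q f) ∘ σ v) (𝓝 0) (𝓝 ((φ 0 : ℂ) : OnePoint ℂ)) := by
        refine ((OnePoint.continuous_coe.continuousAt.tendsto).comp hφ.tendsto).congr' ?_
        filter_upwards [hf] with s hs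
        simp [evalPt_of_mem hs.1, hs.2]
      exact evalPt_eq_coe_iff.mp (eq_of_nhds_neBot (ClusterPt.mono h1 h2))
    obtain ⟨hwx, hw0⟩ := hval x id continuousAt_id (hfib.mono fun s hs =>
      ⟨hx.mem_toValuationSubring (hs.1 v hv).1, (hs.1 v hv).2.1⟩)
    obtain ⟨-, hwy⟩ := hval y (Y v) (hY v hv).1.continuousAt (hfib.mono fun s hs =>
      ⟨hy _ (hs.1 v hv).1, (hs.1 v hv).2.2.1⟩)
    exact hinj (hx.mem_of_val_eq_zero (hne w hwx) hw0) hv
      (show val w y = val v y by rw [hwy, (hY v hv).2.1])
  -- values along the parametrisations are analytic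
  have han : ∀ f : F, (∀ v, v ≠ R → f ∈ v.toValuationSubring) → ∀ v ∈ Z,
      AnalyticAt ℂ (fun s => val (σ v s) f) 0 := by
    intro f hf v hv
    set bad : Finset ℂ := insert 0 ((Z ×ˢ Z).image fun p =>
      (val p.2 y - val p.1 y) / (val p.1 f - val p.2 f))
    obtain ⟨cc, hcc⟩ := Infinite.exists_notMem_finset bad
    simp only [bad, Finset.mem_insert, Finset.mem_image, not_or, not_exists, not_and] at hcc
    have hy' : ∀ w, w ≠ R → y + cc • f ∈ w.toValuationSubring := fun w hw =>
      add_mem (hy w hw) (smul_mem_toValuationSubring cc (hf w hw))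
    have hval' : ∀ w, w ≠ R → val w (y + cc • f) = val w y + cc * val w f := fun w hw => by
      rw [val_add (hy w hw) (smul_mem_toValuationSubring cc (hf w hw)), val_smul cc (hf w hw)]
    have hinj' : Set.InjOn (fun w => val w (y + cc • f)) (Z : Set (Place ℂ F)) := by
      intro w hw w' hw' e
      simp only [hval' w (hZne w hw), hval' w' (hZne w' hw')] at e
      refine hinj hw hw' ?_
      show val w y = val w' y
      by_cases hff : val w f = val w' f
      · rw [hff] at e
        exact add_right_cancel e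
      · refine absurd ?_ (hcc.2 (w, w') (Finset.mk_mem_product hw hw'))
        rw [div_eq_iff (sub_ne_zero.mpr hff)]
        linear_combination -e
    obtain ⟨Y', hY', -⟩ := hx.exists_branches hZ hy' hinj'
    refine (((hY' v hv).1.sub (hY v hv).1).div (analyticAt_const (v := cc)) hcc.1).congr ?_
    filter_upwards [hfib, (htend v hv).eventually (hY' v hv).2.2] with s hs hs'
    obtain ⟨h1, h2, h3, -⟩ := hs.1 v hv
    rw [h2, hval' _ h1, h3] at hs'
    simp only [Pi.div_apply, Pi.sub_apply]
    rw [← hs', add_sub_cancel_left, mul_div_cancel_left₀ _ hcc.1]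
  have han0 : ∀ f : F, f ∈ P.toValuationSubring → (∀ v ∈ Z, f ∈ v.toValuationSubring) →
      AnalyticAt ℂ (fun s => val (σ P s) f) 0 := by
    intro f hfP hfZ
    rcases eq_or_ne f 0 with rfl | hf0
    · simpa [val_zero] using analyticAt_const
    set B := (FF.finite_setOf_ord_ne_zero (K := ℂ) hf0).toFinset.filter
      fun w => f ∉ w.toValuationSubring ∧ w ≠ R with hBdef
    set d : Polynomial ℂ := ∏ w ∈ B,
      (Polynomial.X - Polynomial.C (val w x)) ^ (-w.ord f).toNat with hd
    have hd0 : d.eval 0 ≠ 0 := by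
      rw [hd, Polynomial.eval_prod, Finset.prod_ne_zero_iff]
      intro w hw
      obtain ⟨-, hwf, hwR⟩ := Finset.mem_filter.mp hw
      simp only [Polynomial.eval_pow, Polynomial.eval_sub, Polynomial.eval_X, Polynomial.eval_C]
      exact pow_ne_zero _ fun e => hwf (hfZ w (hx.mem_of_val_eq_zero hwR (by simpa using e)))
    have hdmem : ∀ w, w ≠ R → f * Polynomial.aeval x d ∈ w.toValuationSubring := by
      intro w hwR
      have hxm := hx.mem_toValuationSubring hwR
      by_cases hwf : f ∈ w.toValuationSubring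
      · exact mul_mem hwf (aeval_mem_and_val hxm d).1
      have hwB : w ∈ B := Finset.mem_filter.mpr
        ⟨by simpa using (notMem_iff_ord_neg.mp hwf).ne, hwf, hwR⟩
      rw [hd, ← Finset.mul_prod_erase _ _ hwB, map_mul, ← mul_assoc]
      refine mul_mem ?_ (aeval_mem_and_val hxm _).1
      have hu0 : x - algebraMap ℂ F (val w x) ≠ 0 := fun e =>
        hx.transcendental hZ (by rw [sub_eq_zero.mp e]; exact isAlgebraic_algebraMap _)
      have hpos := (ord_sub_val_pos hxm).resolve_left (fun e => hu0 (sub_eq_zero.mpr e))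
      simp only [map_pow, map_sub, Polynomial.aeval_X, Polynomial.aeval_C]
      refine mem_of_ord_nonneg ?_
      rw [w.ord_mul hf0 (pow_ne_zero _ hu0), ord_pow]
      have : ((-w.ord f).toNat : ℤ) ≤ (-w.ord f).toNat * w.ord (x - algebraMap ℂ F (val w x)) :=
        le_mul_of_one_le_right (by positivity) hpos
      omega
    refine ((han _ hdmem P hP).div (d.differentiable.analyticAt 0) hd0).congr ?_
    filter_upwards [hfib, d.continuous.continuousAt.eventually_ne hd0,
      (htend P hP).eventually ((isOpen_regular f).mem_nhds hfP)] with s hs hds hsf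
    obtain ⟨h1, h2, -, -⟩ := hs.1 P hP
    obtain ⟨h3, h4⟩ := aeval_mem_and_val (hx.mem_toValuationSubring h1) d
    simp only [Pi.div_apply]
    rw [val_mul hsf h3, h4, h2, mul_div_cancel_right₀ _ hds]
  have han1 : ∀ f : F, f ∈ P.toValuationSubring → AnalyticAt ℂ (fun s => val (σ P s) f) 0 := by
    intro f hfP
    rcases eq_or_ne f 0 with rfl | hf0
    · simpa [val_zero] using analyticAt_const
    set k : ℕ := Z.sup fun w => (-w.ord f).toNat
    set e : F := ∏ w ∈ Z.erase P, (y - algebraMap ℂ F (val w y)) ^ k with he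
    have hereg : ∀ v, v ≠ R → e ∈ v.toValuationSubring := fun v hv =>
      prod_mem fun w _ => pow_mem (sub_mem (hy v hv) (v.algebraMap_mem' _)) _
    have heP : val P e ≠ 0 := by
      rw [he]
      have h := map_prod (valHom P) (fun w => (⟨y - algebraMap ℂ F (val w y),
        sub_mem (hy P (hZne P hP)) (P.algebraMap_mem' _)⟩ : P.toValuationSubring) ^ k) (Z.erase P)
      simp only [map_pow, valHom, AlgHom.coe_mk, RingHom.coe_mk, MonoidHom.coe_mk, OneHom.coe_mk,
        SubmonoidClass.coe_finsetProd, SubmonoidClass.coe_pow] at h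
      rw [h, Finset.prod_ne_zero_iff]
      intro w hw
      refine pow_ne_zero _ ?_
      rw [val_sub (hy P (hZne P hP)) (P.algebraMap_mem' _), val_algebraMap, sub_ne_zero]
      exact fun h' => (Finset.mem_erase.mp hw).1 (hinj (Finset.mem_of_mem_erase hw) hP h'.symm)
    have hZreg : ∀ v ∈ Z, f * e ∈ v.toValuationSubring := by
      intro v hv
      rcases eq_or_ne v P with rfl | hvP
      · exact mul_mem hfP (hereg v (hZne v hv))
      have hvy : y ∈ v.toValuationSubring := hy v (hZne v hv)
      rw [he, ← Finset.mul_prod_erase _ _ (Finset.mem_erase.mpr ⟨hvP, hv⟩), ← mul_assoc]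
      refine mul_mem ?_ (prod_mem fun w _ => pow_mem (sub_mem hvy (v.algebraMap_mem' _)) _)
      rcases ord_sub_val_pos hvy with h | h
      · rw [← h, sub_self]
        rcases Nat.eq_zero_or_pos k with hk | hk
        · rw [hk, pow_zero, mul_one]
          refine mem_of_ord_nonneg ?_
          have : (-v.ord f).toNat ≤ k := Finset.le_sup (f := fun w => (-w.ord f).toNat) hv
          omega
        · rw [zero_pow hk.ne', mul_zero]; exact zero_mem _
      · refine mem_of_ord_nonneg ?_
        have h0 : y - algebraMap ℂ F (val v y) ≠ 0 := fun h' => by simp [h'] at h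
        rw [v.ord_mul hf0 (pow_ne_zero _ h0), ord_pow]
        have : (-v.ord f).toNat ≤ k := Finset.le_sup (f := fun w => (-w.ord f).toNat) hv
        have : (k : ℤ) ≤ k * v.ord (y - algebraMap ℂ F (val v y)) :=
          le_mul_of_one_le_right (by positivity) h
        omega
    have he0 : val (σ P 0) e = val P e := by
      rw [show σ P 0 = P from ((hfib.self_of_nhds).2.2 P hP P (hZne P hP) (hx.val_eq_zero hP)
        (hY P hP).2.1.symm).symm]
    refine ((han0 _ (mul_mem hfP (hereg P (hZne P hP))) hZreg).div (han e hereg P hP)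
      (by rw [he0]; exact heP)).congr ?_
    filter_upwards [hfib, (han e hereg P hP).continuousAt.eventually_ne (by rw [he0]; exact heP),
      (htend P hP).eventually ((isOpen_regular f).mem_nhds hfP)] with s hs hes hsf
    obtain ⟨h1, -, -, -⟩ := hs.1 P hP
    simp only [Pi.div_apply]
    rw [val_mul hsf (hereg _ h1), mul_div_cancel_right₀ _ hes]
  have hσ0 : ∀ v ∈ Z, σ v 0 = v := fun v hv =>
    ((hfib.self_of_nhds).2.2 v hv v (hZne v hv) (hx.val_eq_zero hv) (hY v hv).2.1.symm).symm
  refine ⟨x, σ P, hσ0 P hP, htend P hP, hfib.mono fun s hs => ⟨hx.mem_toValuationSubring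
    (hs.1 P hP).1, (hs.1 P hP).2.1, (hs.1 P hP).2.2.2⟩, ?_, han1, ?_⟩
  · have hPx := hx.mem_toValuationSubring (hZne P hP)
    have ht : Tendsto (fun Q : Place ℂ F => val Q x) (𝓝 P) (𝓝 0) := by
      have := (continuousAt_val hPx).tendsto
      rwa [hx.val_eq_zero hP] at this
    filter_upwards [(hY P hP).2.2, (isOpen_regular x).mem_nhds hPx, ht.eventually hfib] with Q h1 h2 h3
    exact (h3.2.2 P hP Q (hne Q h2) rfl h1).symm
  · intro φ
    have hb : ∀ v : Z, ∃ f ∈ riemannRochSpace D, ∀ w ∈ Z, val w f = if w = v.1 then 1 else 0 :=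
      fun v => hvals fun w => if w = v.1 then 1 else 0
    choose b hbD hbv using hb
    let Mx : ℂ → Matrix Z Z ℂ := fun s => Matrix.of fun v w => val (σ v.1 s) (b w)
    have hM0 : (Mx 0).det ≠ 0 := by
      have : Mx 0 = 1 := by
        ext v w
        show val (σ v.1 0) (b w) = _
        rw [hσ0 v.1 v.2, hbv w v.1 v.2, Matrix.one_apply]
        by_cases hvw : v = w
        · rw [if_pos hvw, if_pos (congrArg Subtype.val hvw)]
        · rw [if_neg hvw, if_neg fun e => hvw (Subtype.ext e)]
      rw [this, Matrix.det_one]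
      exact one_ne_zero
    obtain ⟨co, hco, hsol⟩ := exists_analytic_solution (M := Mx) (z := (0 : ℂ))
      (fun v w => by
        simp only [Mx, Matrix.of_apply]
        exact han (b w) (fun u hu => hregD _ (hbD w) u hu) v.1 v.2)
      hM0 (fun v => if v.1 = P then 1 else 0)
    have hK : ∀ (s : ℂ) (w : Z), cls R (b w / (x - algebraMap ℂ F s)) =
        ∑ i ∈ Finset.range M, s ^ i • cls R (b w / x ^ (i + 1)) := by
      intro s w
      have hx0 := hx.ne_zero
      have hxs : x - algebraMap ℂ F s ≠ 0 := fun e =>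
        hx.transcendental hZ (by rw [sub_eq_zero.mp e]; exact isAlgebraic_algebraMap s)
      rw [← sub_eq_zero]
      simp only [← map_smul]
      rw [← map_sum, ← map_sub]
      refine cls_eq_zero ?_
      have hgeo : ∀ n : ℕ, b w / (x - algebraMap ℂ F s) -
          ∑ i ∈ Finset.range n, s ^ i • (b w / x ^ (i + 1)) =
          algebraMap ℂ F s ^ n * (b w / (x ^ n * (x - algebraMap ℂ F s))) := by
        intro n
        induction n with
        | zero => simp
        | succ n ih =>
          rw [Finset.sum_range_succ, ← sub_sub, ih, Algebra.smul_def, map_pow]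
          field_simp
          ring
      rw [hgeo]
      refine mul_mem (pow_mem (R.algebraMap_mem' s) _) ?_
      rcases eq_or_ne (b w) 0 with h | h
      · rw [h, zero_div]; exact zero_mem _
      refine mem_of_ord_nonneg ?_
      have h1 : R.ord (x - algebraMap ℂ F s) = R.ord x := by
        rw [sub_eq_add_neg]
        refine (ord_sum_lt hx0 (Or.inl ?_)).2
        rw [ord_neg, ord_algebraMap, hx.ord_pole]
        omega
      have h2 := ((mem_riemannRochSpace_iff.mp (hbD w)) R).resolve_left h
      rw [hDdef, Finsupp.single_eq_same] at h2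
      rw [ord_div h (mul_ne_zero (pow_ne_zero _ hx0) hxs),
        R.ord_mul (pow_ne_zero _ hx0) hxs, ord_pow, h1, hx.ord_pole]
      have : (M : ℤ) ≤ (M : ℤ) * Z.card := le_mul_of_one_le_right (by positivity) (by omega)
      linarith [hm]
    have key : ∀ᶠ s in 𝓝 (0 : ℂ),
        -(∑ w : Z, co s w • ∑ i ∈ Finset.range M, s ^ i • φ (cls R (b w / x ^ (i + 1)))) =
        φ (cls (σ P s) (x - algebraMap ℂ F s)⁻¹) := by
      filter_upwards [hfib, hsol] with s hs hsol
      set g : F := ∑ w : Z, co s w • b w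
      have hgD : g ∈ riemannRochSpace D := sum_mem fun w _ => Submodule.smul_mem _ _ (hbD w)
      have hgv : ∀ v ∈ Z, val (σ v s) g = if v = P then 1 else 0 := by
        intro v hv
        have h := congrFun hsol ⟨v, hv⟩
        rw [Matrix.mulVec, dotProduct] at h
        rw [val_sum _ _ fun w _ => smul_mem_toValuationSubring _
          (hregD _ (hbD w) _ (hs.1 v hv).1)]
        refine Eq.trans ?_ h
        refine Finset.sum_congr rfl fun w _ => ?_
        rw [val_smul _ (hregD _ (hbD w) _ (hs.1 v hv).1), mul_comm]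
        rfl
      have hxs : x - algebraMap ℂ F s ≠ 0 := fun e =>
        hx.transcendental hZ (by rw [sub_eq_zero.mp e]; exact isAlgebraic_algebraMap s)
      have hreg : ∀ v ∉ ({σ P s, R} : Finset (Place ℂ F)),
          g / (x - algebraMap ℂ F s) ∈ v.toValuationSubring := by
        intro v hv
        simp only [Finset.mem_insert, Finset.mem_singleton, not_or] at hv
        have hgm := hregD g hgD v hv.2
        have hxm := hx.mem_toValuationSubring hv.2
        by_cases hvs : val v x = s
        · obtain ⟨v₀, hv₀, rfl⟩ := hs.2.1 v hv.2 hvs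
          have hv₀P : v₀ ≠ P := fun e => hv.1 (by rw [e])
          have hg0 := hgv v₀ hv₀
          rw [if_neg hv₀P, val_eq_zero_iff hgm] at hg0
          rcases hg0 with h | h
          · rw [h, zero_div]; exact zero_mem _
          · refine mem_of_ord_nonneg ?_
            rw [ord_div (fun e => by simp [e] at h) hxs, (hs.1 v₀ hv₀).2.2.2]
            omega
        · rw [div_eq_mul_inv]
          refine mul_mem hgm (mem_inv_of_val_ne_zero (sub_mem hxm (v.algebraMap_mem' s)) ?_)
          rw [val_sub hxm (v.algebraMap_mem' s), val_algebraMap]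
          exact sub_ne_zero.mpr hvs
      have hsum := sum_cls_eq_zero hreg
      have hPR : σ P s ≠ R := (hs.1 P hP).1
      rw [Finset.sum_pair hPR] at hsum
      have hPeq : cls (σ P s) (g / (x - algebraMap ℂ F s)) =
          cls (σ P s) (x - algebraMap ℂ F s)⁻¹ := by
        refine cls_congr ?_
        rw [show g / (x - algebraMap ℂ F s) - (x - algebraMap ℂ F s)⁻¹
          = (g - 1) / (x - algebraMap ℂ F s) by field_simp]
        have hgm := hregD g hgD _ hPR
        have h1 : val (σ P s) (g - 1) = 0 := by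
          rw [val_sub hgm (one_mem _), hgv P hP, if_pos rfl, val_one, sub_self]
        rcases (val_eq_zero_iff (sub_mem hgm (one_mem _))).mp h1 with h | h
        · rw [h, zero_div]; exact zero_mem _
        · refine mem_of_ord_nonneg ?_
          rw [ord_div (fun e => by simp [e] at h) hxs, (hs.1 P hP).2.2.2]
          omega
      have e : cls (σ P s) (x - algebraMap ℂ F s)⁻¹ = -cls R (g / (x - algebraMap ℂ F s)) :=
        eq_neg_of_add_eq_zero_left (hPeq ▸ hsum)
      rw [e, map_neg]
      congr 1
      rw [show g / (x - algebraMap ℂ F s) =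
        ∑ w : Z, co s w • (b w / (x - algebraMap ℂ F s)) by
          simp only [g, Finset.sum_div, Algebra.smul_def, mul_div_assoc]]
      simp only [map_sum, map_smul, hK]
    refine AnalyticAt.congr ?_ key
    refine (Finset.analyticAt_fun_sum _ fun w _ => ?_).neg
    simp only [smul_eq_mul]
    exact (hco w).mul (Finset.analyticAt_fun_sum _ fun i _ =>
      (analyticAt_id.pow i).mul analyticAt_const)

end Fermat.Agent.AJ
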