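import Mathlib.FieldTheory.AlgebraicClosure
import Mathlib.FieldTheory.IsAlgClosed.Classification
import Mathlib.RingTheory.AlgebraicIndependent.Adjoin
import Mathlib.RingTheory.Jacobson.Ring
import Mathlib.RingTheory.Flat.Basic
import Mathlib.RingTheory.FiniteType
import Mathlib.RingTheory.Localization.Away.Basic
import Mathlib.RingTheory.Finiteness.Basic
import Mathlib.RingTheory.TensorProduct.Free
import Mathlib.Analysis.Complex.Polynomial.Basic
import Mathlib.Analysis.Real.Cardinality
import Mathlib.Analysis.Complex.Cardinality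

/-!
# Countable fields of constants and base change to a larger algebraically closed field
-/

set_option autoImplicit false

noncomputable section

open Cardinal TensorProduct

namespace Fermat.Agent.AJ

/-- A countable field of characteristic zero embeds in `ℂ`. -/
theorem exists_ringHom_complex (k : Type*) [Field k] [CharZero k] [Countable k] :
    Nonempty (k →+* ℂ) := by
  obtain ⟨s, hs⟩ := exists_isTranscendenceBasis ℚ k
  obtain ⟨t, ht⟩ := exists_isTranscendenceBasis ℚ ℂ
  have hC : ℵ₀ < #ℂ := by rw [mk_complex]; exact aleph0_lt_continuum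
  have ht' : #ℂ = #t := IsAlgClosed.cardinal_eq_cardinal_transcendence_basis_of_aleph0_lt' _ ht
    (by simp) hC
  have : Infinite t := Cardinal.infinite_iff.mpr (by rw [← ht']; exact hC.le)
  obtain ⟨enum, henum⟩ := exists_injective_nat s
  let x : s → ℂ := fun i => ((Infinite.natEmbedding t (enum i) : t) : ℂ)
  have hx : AlgebraicIndependent ℚ x :=
    ht.1.comp _ ((Infinite.natEmbedding t).injective.comp henum)
  let A := Algebra.adjoin ℚ (Set.range ((↑) : s → k))
  let i : A →ₐ[ℚ] ℂ := (MvPolynomial.aeval x).comp hs.1.aevalEquiv.symm.toAlgHom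
  have hi : Function.Injective i :=
    (algebraicIndependent_iff_injective_aeval.mp hx).comp hs.1.aevalEquiv.symm.injective
  let _ : Algebra A ℂ := i.toRingHom.toAlgebra
  have : FaithfulSMul A ℂ := (faithfulSMul_iff_algebraMap_injective _ _).mpr hi
  have : Algebra.IsAlgebraic A k := hs.isAlgebraic
  exact ⟨(IsAlgClosed.lift (R := A) (S := k) (M := ℂ)).toRingHom⟩

/-- A finite set lies in a countable algebraically closed subfield. -/
theorem exists_countable_algClosed {K : Type*} [Field K] [CharZero K] [IsAlgClosed K]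
    (S : Finset K) :
    ∃ K₀ : IntermediateField ℚ K, Countable K₀ ∧ IsAlgClosed K₀ ∧ ∀ a ∈ S, a ∈ K₀ := by
  set B := IntermediateField.adjoin ℚ (S : Set K)
  have hB : #B ≤ ℵ₀ := by
    have h := IntermediateField.lift_cardinalMk_adjoin_le (F := ℚ) (S : Set K)
    rw [← Cardinal.lift_le_aleph0]
    refine h.trans ?_
    simp
  set A := algebraicClosure B K
  have hA : #A ≤ ℵ₀ := by
    refine (Algebra.IsAlgebraic.cardinalMk_le_max B A).trans ?_
    simp [hB]
  refine ⟨A.restrictScalars ℚ, Cardinal.mk_le_aleph0_iff.mp hA,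
    (inferInstance : IsAlgClosure B A).isAlgClosed, fun a ha => ?_⟩
  exact A.algebraMap_mem (⟨a, IntermediateField.subset_adjoin ℚ _ ha⟩ : B)

/-- A nonzero element of a finitely generated domain over an algebraically closed field is
nonzero at some rational point. -/
theorem exists_algHom_ne_zero {K A : Type*} [Field K] [IsAlgClosed K] [CommRing A] [IsDomain A]
    [Algebra K A] [Algebra.FiniteType K A] {a : A} (ha : a ≠ 0) :
    ∃ φ : A →ₐ[K] K, φ a ≠ 0 := by
  have : IsJacobsonRing A := isJacobsonRing_of_finiteType (A := K)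
  obtain ⟨m, hm, ham⟩ : ∃ m : Ideal A, m.IsMaximal ∧ a ∉ m := by
    by_contra h
    push Not at h
    have h1 : (⊥ : Ideal A).jacobson = ⊥ :=
      IsJacobsonRing.out inferInstance (Ideal.isPrime_bot (α := A)).isRadical
    exact ha (Ideal.mem_bot.mp (h1 ▸ Ideal.mem_sInf.mpr fun m hm => h m hm.2))
  let _ := Ideal.Quotient.field m
  have := finite_of_finite_type_of_isJacobsonRing K (A ⧸ m)
  let e : (A ⧸ m) →ₐ[K] K :=
    (AlgEquiv.ofBijective (Algebra.ofId K (A ⧸ m))
      IsAlgClosed.algebraMap_bijective_of_isIntegral).symm.toAlgHom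
  refine ⟨e.comp (Ideal.Quotient.mkₐ K m), ?_⟩
  exact (map_ne_zero e).mpr fun h => ham (Ideal.Quotient.eq_zero_iff_mem.mp h)

/-- Over an algebraically closed field, the tensor product of two fields is a domain. -/
theorem isDomain_tensorProduct (K L F : Type*) [Field K] [IsAlgClosed K] [Field L] [Field F]
    [Algebra K L] [Algebra K F] : IsDomain (L ⊗[K] F) := by
  classical
  have : Nontrivial (L ⊗[K] F) :=
    (Algebra.TensorProduct.includeLeft_injective (S := K) (A := L) (B := F)
      (RingHom.injective _)).nontrivial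
  have : NoZeroDivisors (L ⊗[K] F) := ⟨fun {z w} hzw => by
    set bF := Module.Free.chooseBasis K F
    set bT := Algebra.TensorProduct.basis L bF
    set S : Finset L := (bT.repr z).support.image (bT.repr z) ∪
      (bT.repr w).support.image (bT.repr w)
    set A := Algebra.adjoin K (S : Set L)
    have : Algebra.FiniteType K A := (Subalgebra.fg_iff_finiteType A).mp (Subalgebra.fg_adjoin_finset S)
    have hmz : ∀ i, bT.repr z i ∈ A := fun i => by
      by_cases h : i ∈ (bT.repr z).support
      · exact Algebra.subset_adjoin (Finset.mem_coe.mpr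
          (Finset.mem_union_left _ (Finset.mem_image_of_mem _ h)))
      · rw [Finsupp.notMem_support_iff.mp h]; exact zero_mem _
    have hmw : ∀ i, bT.repr w i ∈ A := fun i => by
      by_cases h : i ∈ (bT.repr w).support
      · exact Algebra.subset_adjoin (Finset.mem_coe.mpr
          (Finset.mem_union_right _ (Finset.mem_image_of_mem _ h)))
      · rw [Finsupp.notMem_support_iff.mp h]; exact zero_mem _
    by_contra hne
    rw [not_or] at hne
    have hz0 : bT.repr z ≠ 0 := fun h => hne.1 (bT.repr.map_eq_zero_iff.mp h)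
    have hw0 : bT.repr w ≠ 0 := fun h => hne.2 (bT.repr.map_eq_zero_iff.mp h)
    obtain ⟨i₀, hi₀⟩ := Finsupp.ne_iff.mp hz0
    obtain ⟨j₀, hj₀⟩ := Finsupp.ne_iff.mp hw0
    obtain ⟨φ, hφ⟩ := exists_algHom_ne_zero (K := K)
      (a := (⟨_, hmz i₀⟩ : A) * ⟨_, hmw j₀⟩) (mul_ne_zero (fun h => hi₀ (congrArg Subtype.val h))
        fun h => hj₀ (congrArg Subtype.val h))
    rw [map_mul] at hφ
    -- specialise the coefficients
    let cz : _ → A := fun i => ⟨_, hmz i⟩
    let cw : _ → A := fun i => ⟨_, hmw i⟩
    set Sz := (bT.repr z).support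
    set Sw := (bT.repr w).support
    have hzsum : z = ∑ i ∈ Sz, ((cz i : L) ⊗ₜ[K] bF i) := by
      conv_lhs => rw [← bT.linearCombination_repr z, Finsupp.linearCombination_apply, Finsupp.sum]
      exact Finset.sum_congr rfl fun i _ => by simp [bT, cz, smul_tmul']
    have hwsum : w = ∑ i ∈ Sw, ((cw i : L) ⊗ₜ[K] bF i) := by
      conv_lhs => rw [← bT.linearCombination_repr w, Finsupp.linearCombination_apply, Finsupp.sum]
      exact Finset.sum_congr rfl fun i _ => by simp [bT, cw, smul_tmul']
    set zA : A ⊗[K] F := ∑ i ∈ Sz, cz i ⊗ₜ[K] bF i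
    set wA : A ⊗[K] F := ∑ i ∈ Sw, cw i ⊗ₜ[K] bF i
    let incl : A ⊗[K] F →ₐ[K] L ⊗[K] F := Algebra.TensorProduct.map A.val (AlgHom.id K F)
    have hincl : Function.Injective incl :=
      Module.Flat.rTensor_preserves_injective_linearMap (M := F) A.val.toLinearMap
        Subtype.val_injective
    have hprod : zA * wA = 0 := hincl (by
      rw [map_mul, map_zero, ← hzw, hzsum, hwsum]
      simp [zA, wA, incl])
    let sp : A ⊗[K] F →ₐ[K] F :=
      Algebra.TensorProduct.lift ((Algebra.ofId K F).comp φ) (AlgHom.id K F)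
        (fun _ _ => Commute.all _ _)
    have h0 := congrArg sp hprod
    rw [map_mul, map_zero, mul_eq_zero] at h0
    have hlin : ∀ (T : Finset (Module.Free.ChooseBasisIndex K F)) (c : _ → A) (k : _),
        k ∈ T → sp (∑ i ∈ T, c i ⊗ₜ[K] bF i) = 0 → φ (c k) = 0 := by
      intro T c k hk hsum
      have : ∑ i ∈ T, φ (c i) • bF i = 0 := by
        simpa [sp, map_sum, Algebra.smul_def, Algebra.ofId_apply] using hsum
      exact linearIndependent_iff'.mp bF.linearIndependent T _ this k hk
    rcases h0 with h | h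
    · exact hφ (by rw [hlin Sz cz i₀ (Finsupp.mem_support_iff.mpr hi₀) h, zero_mul])
    · exact hφ (by rw [hlin Sw cw j₀ (Finsupp.mem_support_iff.mpr hj₀) h, mul_zero])⟩
  exact NoZeroDivisors.to_isDomain _

end Fermat.Agent.AJ
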