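import Mathlib.Analysis.Normed.Module.FiniteDimension
import Mathlib.Algebra.Module.ZLattice.Basic
import Mathlib.Data.ZMod.Basic
import Mathlib.Tactic

/-!
# Homomorphisms from germs, torsion of a quotient of a real vector space by a lattice
-/

set_option autoImplicit false

noncomputable section

open Filter Topology

namespace Fermat.Agent.AJ

variable {V : Type*} [NormedAddCommGroup V] [NormedSpace ℝ V] {G : Type*} [AddCommGroup G]

/-- An additive germ at `0` extends to a homomorphism. -/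
theorem exists_addMonoidHom_of_germ (φ : V → G)
    (h : ∀ᶠ p : V × V in 𝓝 (0, 0), φ (p.1 + p.2) = φ p.1 + φ p.2) :
    ∃ Φ : V →+ G, ∀ᶠ v in 𝓝 0, Φ v = φ v := by
  obtain ⟨r, hr, hball⟩ := Metric.eventually_nhds_iff_ball.mp h
  have hadd : ∀ u w : V, ‖u‖ < r → ‖w‖ < r → φ (u + w) = φ u + φ w := fun u w hu hw =>
    hball (u, w) (by rw [Metric.mem_ball, dist_eq_norm]; simp [Prod.norm_def, hu, hw])
  let sh : ℕ → V → V := fun n v => ((2 : ℝ) ^ n)⁻¹ • v
  have hnorm : ∀ n v, ‖sh n v‖ = ((2 : ℝ) ^ n)⁻¹ * ‖v‖ := fun n v => by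
    simp [sh, norm_smul]
  let f : ℕ → V → G := fun n v => (2 ^ n : ℕ) • φ (sh n v)
  have hstep : ∀ n v, ‖sh n v‖ < r → f (n + 1) v = f n v := by
    intro n v hn
    have hsplit : sh n v = sh (n + 1) v + sh (n + 1) v := by
      simp only [sh, ← add_smul, pow_succ, mul_inv]
      congr 1; ring
    have hlt : ‖sh (n + 1) v‖ < r := by
      refine lt_of_le_of_lt ?_ hn
      rw [hnorm, hnorm]
      gcongr
      · norm_num
      · omega
    simp only [f]
    rw [hsplit, hadd _ _ hlt hlt, ← two_nsmul, smul_smul, pow_succ]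
  have hmono : ∀ n m v, n ≤ m → ‖v‖ < r * (2 : ℝ) ^ n → ‖sh m v‖ < r := by
    intro n m v hnm hv
    rw [hnorm, inv_mul_lt_iff₀ (by positivity), mul_comm]
    calc ‖v‖ < r * (2 : ℝ) ^ n := hv
      _ ≤ r * (2 : ℝ) ^ m := by gcongr; norm_num
  have hstable : ∀ n m v, n ≤ m → ‖v‖ < r * (2 : ℝ) ^ n → f m v = f n v := by
    intro n m v hnm hv
    induction m, hnm using Nat.le_induction with
    | base => rfl
    | succ m hm ih => rw [hstep m v (hmono n m v hm hv), ih]
  have hex : ∀ v : V, ∃ n : ℕ, ‖v‖ < r * (2 : ℝ) ^ n := fun v => by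
    obtain ⟨n, hn⟩ := pow_unbounded_of_one_lt (‖v‖ / r) (by norm_num : (1 : ℝ) < 2)
    exact ⟨n, by rwa [div_lt_iff₀ hr, mul_comm] at hn⟩
  choose N hN using hex
  have hf : ∀ n v, ‖v‖ < r * (2 : ℝ) ^ n → f (N v) v = f n v := fun n v hv => by
    rw [← hstable (N v) (max (N v) n) v (le_max_left _ _) (hN v),
      hstable n (max (N v) n) v (le_max_right _ _) hv]
  refine ⟨AddMonoidHom.mk' (fun v => f (N v) v) fun u w => ?_, ?_⟩
  · set n := max (max (N u) (N w)) (N (u + w))
    rw [← hstable (N u) n u (by omega) (hN u), ← hstable (N w) n w (by omega) (hN w),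
      ← hstable (N (u + w)) n (u + w) (by omega) (hN (u + w))]
    simp only [f, ← smul_add]
    congr 1
    rw [← hadd _ _ (hmono (N u) n u (by omega) (hN u)) (hmono (N w) n w (by omega) (hN w))]
    simp [sh, smul_add]
  · filter_upwards [Metric.ball_mem_nhds (0 : V) hr] with v hv
    rw [Metric.mem_ball, dist_zero_right] at hv
    show f (N v) v = φ v
    rw [hf 0 v (by simpa using hv)]
    simp [f, sh]

/-- If every vector is within a fixed distance of the kernel, the kernel spans. -/
theorem span_eq_top_of_bounded [FiniteDimensional ℝ V] (Λ : Submodule ℤ V) (C : ℝ)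
    (h : ∀ v : V, ∃ k ∈ Λ, ‖v - k‖ ≤ C) : Submodule.span ℝ (Λ : Set V) = ⊤ := by
  refine Submodule.eq_top_iff'.mpr fun v => ?_
  set W := Submodule.span ℝ (Λ : Set V)
  choose k hk hkC using fun n : ℕ => h (((n : ℝ) + 1) • v)
  have ht : Tendsto (fun n : ℕ => ((n : ℝ) + 1)⁻¹ • k n) atTop (𝓝 v) := by
    rw [tendsto_iff_norm_sub_tendsto_zero]
    refine squeeze_zero (fun _ => norm_nonneg _) (fun n => ?_)
      (g := fun n : ℕ => ((n : ℝ) + 1)⁻¹ * C) ?_
    · have hpos : (0 : ℝ) < (n : ℝ) + 1 := by positivity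
      calc ‖((n : ℝ) + 1)⁻¹ • k n - v‖
          = ‖((n : ℝ) + 1)⁻¹ • (k n - ((n : ℝ) + 1) • v)‖ := by
            rw [smul_sub, smul_smul, inv_mul_cancel₀ hpos.ne', one_smul]
        _ ≤ ((n : ℝ) + 1)⁻¹ * C := by
            rw [norm_smul, Real.norm_of_nonneg (by positivity), norm_sub_rev]
            gcongr
            exact hkC n
    · simpa using tendsto_one_div_add_atTop_nhds_zero_nat.mul_const C
  exact W.closed_of_finiteDimensional.mem_of_tendsto ht
    (Eventually.of_forall fun n => W.smul_mem _ (Submodule.subset_span (hk n)))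

/-- The kernel of `Φ` as a `ℤ`-submodule. -/
def kerLattice (Φ : V →+ G) : Submodule ℤ V := AddSubgroup.toIntSubmodule Φ.ker

omit [NormedSpace ℝ V] in
theorem mem_kerLattice {Φ : V →+ G} {v : V} : v ∈ kerLattice Φ ↔ Φ v = 0 := Iff.rfl

/-- A torus of real dimension `d` has `n ^ d` points killed by `n`. -/
theorem natCard_torsion_of_lattice [FiniteDimensional ℝ V] (Φ : V →+ G)
    (hsurj : Function.Surjective Φ) (hdisc : ∀ᶠ v in 𝓝 0, Φ v = 0 → v = 0) (C : ℝ)
    (hbd : ∀ x : G, ∃ v, ‖v‖ ≤ C ∧ Φ v = x) {n : ℕ} (hn : 0 < n) :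
    Nat.card {x : G // n • x = 0} = n ^ Module.finrank ℝ V := by
  set Λ := kerLattice Φ
  have : DiscreteTopology Λ := by
    obtain ⟨r, hr, hball⟩ := Metric.eventually_nhds_iff_ball.mp hdisc
    rw [discreteTopology_iff_isOpen_singleton]
    rintro ⟨a, ha⟩
    rw [Metric.isOpen_iff]
    intro b hb
    rw [Set.mem_singleton_iff] at hb
    subst hb
    refine ⟨r, hr, fun b' hb' => ?_⟩
    have hz : (b' : V) - a = 0 := by
      refine hball _ (by rw [Metric.mem_ball, dist_zero_right, ← dist_eq_norm]; exact hb') ?_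
      rw [map_sub, mem_kerLattice.mp b'.2, mem_kerLattice.mp ha, sub_zero]
    exact Subtype.ext (sub_eq_zero.mp hz)
  have : IsZLattice ℝ Λ := ⟨span_eq_top_of_bounded Λ C fun v => by
    obtain ⟨w, hw, hwv⟩ := hbd (Φ v)
    exact ⟨v - w, by rw [mem_kerLattice, map_sub, hwv, sub_self], by rwa [sub_sub_cancel]⟩⟩
  have : Module.Free ℤ Λ := ZLattice.module_free ℝ Λ
  have : Module.Finite ℤ Λ := ZLattice.module_finite ℝ Λ
  let bZ := Module.Free.chooseBasis ℤ Λ
  let b := bZ.ofZLatticeBasis ℝ Λ
  have : NeZero n := ⟨hn.ne'⟩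
  have hnR : (n : ℝ) ≠ 0 := by exact_mod_cast hn.ne'
  let vec : (Module.Free.ChooseBasisIndex ℤ Λ → ℝ) → V := fun c => ∑ i, c i • b i
  have hint : ∀ c : Module.Free.ChooseBasisIndex ℤ Λ → ℤ, Φ (vec fun i => (c i : ℝ)) = 0 := by
    intro c
    have : (vec fun i => (c i : ℝ)) = ((∑ i, c i • bZ i : Λ) : V) := by
      simp [vec, b, Int.cast_smul_eq_zsmul]
    rw [this]
    exact mem_kerLattice.mp (∑ i, c i • bZ i).2
  have hker : ∀ c, Φ (vec c) = 0 → ∀ i, ∃ k : ℤ, c i = k := by
    intro c hc i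
    let y : Λ := ⟨vec c, hc⟩
    refine ⟨bZ.repr y i, ?_⟩
    have h1 : vec c = vec fun i => (bZ.repr y i : ℝ) := by
      calc vec c = Subtype.val (∑ i, bZ.repr y i • bZ i : Λ) := by rw [bZ.sum_repr]
        _ = _ := by
          rw [Submodule.coe_sum]
          simp [vec, b, Int.cast_smul_eq_zsmul]
    have h2 := Fintype.linearIndependent_iffₛ.mp b.linearIndependent _ _ h1
    exact h2 i
  let ψ : (Module.Free.ChooseBasisIndex ℤ Λ → ZMod n) → {x : G // n • x = 0} := fun c =>
    ⟨Φ (vec fun i => ((c i).val : ℝ) / n), by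
      rw [← map_nsmul]
      have : n • (vec fun i => ((c i).val : ℝ) / n) = vec fun i => (((c i).val : ℤ) : ℝ) := by
        simp only [vec, Finset.smul_sum]
        refine Finset.sum_congr rfl fun i _ => ?_
        rw [← Nat.cast_smul_eq_nsmul ℝ, smul_smul]
        congr 1
        push_cast
        field_simp
      rw [this]
      exact hint _⟩
  have hbij : Function.Bijective ψ := by
    constructor
    · intro c c' e
      have e' : Φ (vec fun i => (((c i).val : ℝ) - (c' i).val) / n) = 0 := by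
        have : (vec fun i => (((c i).val : ℝ) - (c' i).val) / n) =
            (vec fun i => ((c i).val : ℝ) / n) - vec fun i => ((c' i).val : ℝ) / n := by
          simp only [vec, ← Finset.sum_sub_distrib, ← sub_smul, sub_div]
        rw [this, map_sub, sub_eq_zero]
        exact congrArg Subtype.val e
      funext i
      obtain ⟨k, hk⟩ := hker _ e' i
      rw [div_eq_iff hnR] at hk
      have hk' : ((c i).val : ℤ) - (c' i).val = k * n := by exact_mod_cast hk
      have := congrArg (fun z : ℤ => (z : ZMod n)) hk'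
      simpa [sub_eq_zero] using this
    · rintro ⟨x, hx⟩
      obtain ⟨v, rfl⟩ := hsurj x
      rw [← map_nsmul] at hx
      set y : Λ := ⟨n • v, hx⟩
      refine ⟨fun i => ((bZ.repr y i : ℤ) : ZMod n), Subtype.ext ?_⟩
      show Φ _ = Φ v
      have hv : v = vec fun i => (bZ.repr y i : ℝ) / n := by
        have h1 : n • v = vec fun i => (bZ.repr y i : ℝ) := by
          calc n • v = Subtype.val (∑ i, bZ.repr y i • bZ i : Λ) := by rw [bZ.sum_repr]
            _ = _ := by
              rw [Submodule.coe_sum]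
              simp [vec, b, Int.cast_smul_eq_zsmul]
        have h2 : vec (fun i => (bZ.repr y i : ℝ) / n) =
            (n : ℝ)⁻¹ • vec fun i => (bZ.repr y i : ℝ) := by
          simp only [vec, Finset.smul_sum, smul_smul]
          exact Finset.sum_congr rfl fun i _ => by rw [div_eq_inv_mul]
        rw [h2, ← h1, ← Nat.cast_smul_eq_nsmul ℝ, smul_smul, inv_mul_cancel₀ hnR, one_smul]
      conv_rhs => rw [hv]
      rw [← sub_eq_zero, ← map_sub]
      have : ∀ i, ∃ k : ℤ,
          ((((bZ.repr y i : ℤ) : ZMod n).val : ℤ) - bZ.repr y i) = k * n := by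
        intro i
        rw [ZMod.val_intCast]
        refine ⟨-(bZ.repr y i / n), ?_⟩
        rw [Int.emod_def]
        ring
      choose k hk using this
      have hkey : (vec fun i => ((((bZ.repr y i : ℤ) : ZMod n).val : ℕ) : ℝ) / n) -
          (vec fun i => (bZ.repr y i : ℝ) / n) = vec fun i => (k i : ℝ) := by
        simp only [vec, ← Finset.sum_sub_distrib, ← sub_smul]
        refine Finset.sum_congr rfl fun i _ => ?_
        congr 1
        rw [← sub_div, div_eq_iff hnR]
        exact_mod_cast hk i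
      rw [hkey]
      exact hint k
  rw [← Nat.card_eq_of_bijective ψ hbij, Nat.card_eq_fintype_card, Fintype.card_fun, ZMod.card,
    Module.finrank_eq_card_basis b]

end Fermat.Agent.AJ
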