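import Fermat.Agent.AJ.Ramified
import Mathlib.GroupTheory.CosetCover

/-!
# Members of a linear system with prescribed behaviour
-/

set_option autoImplicit false

noncomputable section

open AlgebraicCurve

namespace Fermat.Agent.AJ

variable {K F : Type*} [Field K] [Field F] [Algebra K F] [IsAlgClosed K]
  [IsCurveOver K F]

omit [IsCurveOver K F] in
theorem exists_mem_notMem {ι : Type*} (T : Finset ι) (W : Submodule K F) (U : ι → Submodule K F)
    (h : ∀ i ∈ T, ¬W ≤ U i) : ∃ f ∈ W, ∀ i ∈ T, f ∉ U i := by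
  classical
  have hne := Subspace.biUnion_ne_univ_of_top_notMem (k := K) (E := W)
    (s := T.image fun i => (U i).comap W.subtype) (by
      simp only [Finset.mem_image, not_exists, not_and]
      intro i hi e
      exact h i hi fun x hx => by
        have : (⟨x, hx⟩ : W) ∈ (U i).comap W.subtype := by rw [e]; trivial
        exact this)
  rw [Set.ne_univ_iff_exists_notMem] at hne
  obtain ⟨⟨f, hf⟩, hf'⟩ := hne
  refine ⟨f, hf, fun i hi hmem => hf' ?_⟩
  simp only [Set.mem_iUnion, exists_prop, Finset.mem_image, SetLike.mem_coe]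
  exact ⟨_, ⟨i, hi, rfl⟩, hmem⟩

omit [IsAlgClosed K] [IsCurveOver K F] in
theorem mem_L_sub_single {D : Divisor K F} {f : F} (hf : f ≠ 0) (hD : f ∈ riemannRochSpace D)
    {v : Place K F} :
    f ∈ riemannRochSpace (D - Finsupp.single v 1) ↔ 1 ≤ v.ord f + D v := by
  classical
  constructor
  · intro h
    have := (mem_riemannRochSpace_iff.mp h v).resolve_left hf
    simp only [Finsupp.coe_sub, Pi.sub_apply, Finsupp.single_eq_same] at this
    omega
  · intro h
    refine mem_riemannRochSpace_iff.mpr fun w => Or.inr ?_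
    have := (mem_riemannRochSpace_iff.mp hD w).resolve_left hf
    rcases eq_or_ne w v with rfl | hw
    · simp only [Finsupp.coe_sub, Pi.sub_apply, Finsupp.single_eq_same]
      omega
    · simpa [Finsupp.single_eq_of_ne hw] using this

/-- An element of `L(D)` attaining the bound at finitely many given places. -/
theorem exists_exact {c : ℤ}
    (hc : ∀ D : Divisor K F, c ≤ Divisor.degree D →
      (Module.finrank K (riemannRochSpace D) : ℤ) = Divisor.degree D + 1 - genusFF K F ∧
        repartitionsOf D ⊔ principalRepartitions K F = ⊤)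
    (hfin : ∀ D : Divisor K F, Module.Finite K (riemannRochSpace D))
    (D : Divisor K F) (hD : c + 1 ≤ Divisor.degree D) (T : Finset (Place K F)) (hT : T.Nonempty) :
    ∃ f ∈ riemannRochSpace D, f ≠ 0 ∧ ∀ v ∈ T, v.ord f = -D v := by
  have hlt : ∀ v ∈ T, ¬riemannRochSpace D ≤ riemannRochSpace (D - Finsupp.single v 1) := by
    intro v _ hle
    have h1 := (hc D (by omega)).1
    have h2 := (hc (D - Finsupp.single v 1) (by rw [map_sub, degree_single']; omega)).1
    have := hfin (D - Finsupp.single v 1)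
    have h3 := Submodule.finrank_mono hle
    rw [map_sub, degree_single'] at h2
    omega
  obtain ⟨f, hfD, hf⟩ := exists_mem_notMem T _ _ hlt
  obtain ⟨v₀, hv₀⟩ := hT
  have hf0 : f ≠ 0 := fun h => hf v₀ hv₀ (by rw [h]; exact zero_mem _)
  refine ⟨f, hfD, hf0, fun v hv => ?_⟩
  have h1 := hf v hv
  rw [mem_L_sub_single hf0 hfD] at h1
  have h2 := (mem_riemannRochSpace_iff.mp hfD v).resolve_left hf0
  omega

omit [IsAlgClosed K] [IsCurveOver K F] in
theorem mem_of_mem_L {D : Divisor K F} {f : F} (hf : f ∈ riemannRochSpace D) {v : Place K F}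
    (hv : D v ≤ 0) : f ∈ v.toValuationSubring :=
  mem_iff_ord_nonneg.mpr <| (mem_riemannRochSpace_iff.mp hf v).imp_right fun h => by omega

/-- Functions in `L(D)` take arbitrary values at finitely many places, if `deg D` is large. -/
theorem exists_values {c : ℤ}
    (hc : ∀ D : Divisor K F, c ≤ Divisor.degree D →
      (Module.finrank K (riemannRochSpace D) : ℤ) = Divisor.degree D + 1 - genusFF K F ∧
        repartitionsOf D ⊔ principalRepartitions K F = ⊤)
    (hfin : ∀ D : Divisor K F, Module.Finite K (riemannRochSpace D))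
    (D : Divisor K F) (T : Finset (Place K F)) (hT : ∀ v ∈ T, D v = 0)
    (hD : c + T.card ≤ Divisor.degree D) (a : Place K F → K) :
    ∃ f ∈ riemannRochSpace D, ∀ v ∈ T, val v f = a v := by
  classical
  have := hfin D
  have hreg : ∀ (f : riemannRochSpace D) (v : T), (f : F) ∈ v.1.toValuationSubring := fun f v =>
    mem_of_mem_L f.2 (hT _ v.2).le
  let E : riemannRochSpace D →ₗ[K] (T → K) :=
    { toFun := fun f v => val v.1 (f : F)
      map_add' := fun f g => funext fun v => val_add (hreg f v) (hreg g v)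
      map_smul' := fun r f => funext fun v => val_smul r (hreg f v) }
  have hker : LinearMap.ker E ≤
      (riemannRochSpace (D - pts T)).comap (riemannRochSpace D).subtype := by
    intro f hf
    refine mem_riemannRochSpace_iff.mpr fun w => ?_
    rcases eq_or_ne (f : F) 0 with h | h
    · exact Or.inl h
    right
    have hw := (mem_riemannRochSpace_iff.mp f.2 w).resolve_left h
    simp only [Submodule.subtype_apply, Finsupp.coe_sub, Pi.sub_apply]
    by_cases hwT : w ∈ T
    · rw [pts_apply_mem hwT, hT w hwT]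
      have := congrFun (LinearMap.mem_ker.mp hf) ⟨w, hwT⟩
      have := ((val_eq_zero_iff (hreg f ⟨w, hwT⟩)).mp this).resolve_left h
      change 0 < w.ord (f : F) at this
      omega
    · rw [pts_apply_notMem hwT]
      omega
  have := hfin (D - pts T)
  have hle : D - pts T ≤ D := sub_le_self _ (pts_nonneg T)
  have h1 := (hc D (by omega)).1
  have h2 := (hc (D - pts T) (by rw [map_sub, degree_pts]; omega)).1
  have h3 : Module.finrank K (LinearMap.ker E) ≤ Module.finrank K (riemannRochSpace (D - pts T)) :=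
    (Submodule.finrank_mono hker).trans
      (Submodule.comapSubtypeEquivOfLe (FF.riemannRochSpace_mono hle)).finrank_eq.le
  have h4 := E.finrank_range_add_finrank_ker
  rw [map_sub, degree_pts] at h2
  have htop : LinearMap.range E = ⊤ := by
    refine Submodule.eq_top_of_finrank_eq (le_antisymm (Submodule.finrank_le _) ?_)
    rw [Module.finrank_fintype_fun_eq_card, Fintype.card_coe]
    omega
  obtain ⟨f, hf⟩ := LinearMap.range_eq_top.mp htop fun v => a v.1
  exact ⟨f, f.2, fun v hv => congrFun hf ⟨v, hv⟩⟩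

variable [CharZero K] [FF.IsFunctionField K F]

/-- `h` is a member of `|m R|` whose zero set `Z` consists of `m` simple zeros. -/
structure IsSimpleDiv (R : Place K F) (h : F) (Z : Finset (Place K F)) : Prop where
  ne_zero : h ≠ 0
  notMem : R ∉ Z
  ord_eq_one : ∀ v ∈ Z, v.ord h = 1
  ord_eq_zero : ∀ v ∉ Z, v ≠ R → v.ord h = 0
  ord_pole : R.ord h = -(Z.card : ℤ)

theorem exists_isSimpleDiv (hR : Riemann K F) (R : Place K F) (S : Finset (Place K F))
    (hS : R ∉ S) :
    ∃ N : ℕ, ∀ m : ℕ, N ≤ m → ∃ (h : F) (Z : Finset (Place K F)),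
      S ⊆ Z ∧ Z.card = m ∧ IsSimpleDiv R h Z := by
  classical
  obtain ⟨c, hc⟩ := hR.large
  refine ⟨(c + 1).toNat + S.card + 1, fun m hm => ?_⟩
  set D : Divisor K F := Finsupp.single R (m : ℤ) - pts S with hDdef
  have hdeg : Divisor.degree D = (m : ℤ) - S.card := by
    rw [hDdef, map_sub, degree_single', degree_pts]
  have hDR : D R = m := by simp [hDdef, pts_apply_notMem hS]
  have hDS : ∀ v ∈ S, D v = -1 := fun v hv => by
    have : v ≠ R := fun e => hS (e ▸ hv)
    simp [hDdef, pts_apply_mem hv, Finsupp.single_eq_of_ne this]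
  have hD0 : ∀ v, v ≠ R → v ∉ S → D v = 0 := fun v h1 h2 => by
    simp [hDdef, pts_apply_notMem h2, Finsupp.single_eq_of_ne h1]
  set T₀ := insert R S
  obtain ⟨h₁, h₁D, h₁0, h₁T⟩ := exists_exact hc hR.finite_L D (by omega) T₀
    (Finset.insert_nonempty _ _)
  set Zs := (FF.finite_setOf_ord_ne_zero (K := K) h₁0).toFinset \ T₀ with hZsdef
  obtain ⟨h₂, h₂D, h₂0, h₂T⟩ := exists_exact hc hR.finite_L D (by omega) (T₀ ∪ Zs)
    ((Finset.insert_nonempty _ _).mono Finset.subset_union_left)
  have hreg : ∀ f ∈ riemannRochSpace D, ∀ v ∉ T₀, f ∈ v.toValuationSubring := fun f hf v hv => by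
    simp only [T₀, Finset.mem_insert, not_or] at hv
    exact mem_of_mem_L hf (hD0 v hv.1 hv.2).le
  have hDT₀ : ∀ v ∉ T₀, D v = 0 := fun v hv => by
    simp only [T₀, Finset.mem_insert, not_or] at hv
    exact hD0 v hv.1 hv.2
  have hmemZs : ∀ v, v ∉ T₀ → v.ord h₁ ≠ 0 → v ∈ Zs := fun v h1 h2 => by
    simp [hZsdef, h1, h2]
  obtain ⟨v₁, hv₁⟩ : Zs.Nonempty := by
    rw [Finset.nonempty_iff_ne_empty]
    intro he
    obtain ⟨E, hE, hE0⟩ := HasPrincipalDivisors.exists_divisor (K := K) h₁ h₁0
    have : E = -D := by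
      ext v
      rw [hE v, Finsupp.neg_apply]
      by_cases hv : v ∈ T₀
      · exact h₁T v hv
      · rw [hDT₀ v hv, neg_zero]
        by_contra h0
        simpa [he] using hmemZs v hv h0
    rw [this, map_neg, hdeg] at hE0
    omega
  set r := h₁ / h₂ with hr
  have hr0 : r ≠ 0 := div_ne_zero h₁0 h₂0
  have hv₁' : v₁ ∉ T₀ ∧ v₁.ord h₁ ≠ 0 := by
    simp only [hZsdef, Finset.mem_sdiff, Set.Finite.mem_toFinset, Set.mem_ofPred_eq] at hv₁
    exact ⟨hv₁.2, hv₁.1⟩
  have hrt : Transcendental K r := by
    refine FF.transcendental_of_ord_ne_zero v₁ ?_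
    rw [hr, ord_div h₁0 h₂0, h₂T v₁ (Finset.mem_union_right _ hv₁), hDT₀ v₁ hv₁'.1]
    simpa using hv₁'.2
  set bad : Finset K := insert 0 (T₀.image (fun v => -val v r) ∪
    (finite_ramified hrt).toFinset.image fun v => -val v r)
  obtain ⟨t, ht⟩ := Infinite.exists_notMem_finset bad
  simp only [bad, Finset.mem_insert, Finset.mem_union, Finset.mem_image, Set.Finite.mem_toFinset,
    not_or, not_exists, not_and] at ht
  obtain ⟨ht0, htT, htram⟩ := ht
  set h := h₁ + t • h₂ with hh
  have hhD : h ∈ riemannRochSpace D := add_mem h₁D (Submodule.smul_mem _ t h₂D)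
  have hrt' : r + algebraMap K F t ≠ 0 := fun e =>
    hrt (by rw [eq_neg_of_add_eq_zero_left e]; exact (isAlgebraic_algebraMap t).neg)
  have hfac : h = h₂ * (r + algebraMap K F t) := by
    rw [hh, hr, Algebra.smul_def]
    field_simp
  have hh0 : h ≠ 0 := hfac ▸ mul_ne_zero h₂0 hrt'
  have hT₀ : ∀ v ∈ T₀, v.ord h = -D v := by
    intro v hv
    rw [hfac, v.ord_mul h₂0 hrt', h₂T v (Finset.mem_union_left _ hv)]
    have hordr : v.ord r = 0 := by
      rw [hr, ord_div h₁0 h₂0, h₁T v hv, h₂T v (Finset.mem_union_left _ hv), sub_self]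
    have hmem : r ∈ v.toValuationSubring := mem_of_ord_nonneg hordr.ge
    have hval : val v (r + algebraMap K F t) ≠ 0 := by
      rw [val_add hmem (v.algebraMap_mem' t), val_algebraMap]
      exact fun e => htT v hv (neg_eq_of_add_eq_zero_right e)
    rw [((val_ne_zero_iff (add_mem hmem (v.algebraMap_mem' t))).mp hval).2, add_zero]
  have hsimple : ∀ v ∉ T₀, v.ord h ≠ 0 → v.ord h = 1 := by
    intro v hv hne
    have h1m := hreg _ h₁D v hv
    have h2m := hreg _ h₂D v hv
    have hval : val v h = 0 := (val_eq_zero_iff (hreg _ hhD v hv)).mpr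
      (Or.inr (by have := ord_nonneg_of_mem (hreg _ hhD v hv); omega))
    rw [hh, val_add h1m (smul_mem_toValuationSubring t h2m), val_smul t h2m] at hval
    have h2v : val v h₂ ≠ 0 := by
      intro h2z
      have h1z : val v h₁ = 0 := by rw [h2z, mul_zero, add_zero] at hval; exact hval
      have hz1 := ((val_eq_zero_iff h1m).mp h1z).resolve_left h₁0
      have hz2 := ((val_eq_zero_iff h2m).mp h2z).resolve_left h₂0
      have := h₂T v (Finset.mem_union_right _ (hmemZs v hv (by omega)))
      rw [hDT₀ v hv] at this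
      omega
    have h2o := ((val_ne_zero_iff h2m).mp h2v).2
    have hmem : r ∈ v.toValuationSubring := by
      rw [hr, div_eq_mul_inv]
      exact mul_mem h1m (mem_inv_of_val_ne_zero h2m h2v)
    have hrv : val v r = -t := by
      rw [hr, val_div h1m h2m h2v, eq_neg_of_add_eq_zero_left hval, neg_div,
        mul_div_cancel_right₀ _ h2v]
    rw [hfac, v.ord_mul h₂0 hrt', h2o, zero_add]
    by_contra hram
    refine htram v ⟨hmem, ?_⟩ (by rw [hrv, neg_neg])
    rwa [hrv, map_neg, sub_neg_eq_add]
  set Z := S ∪ ((FF.finite_setOf_ord_ne_zero (K := K) hh0).toFinset \ T₀) with hZdef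
  have hRZ : R ∉ Z := by simp [hZdef, hS, T₀]
  have hZ1 : ∀ v ∈ Z, v.ord h = 1 := by
    intro v hv
    simp only [hZdef, Finset.mem_union, Finset.mem_sdiff, Set.Finite.mem_toFinset,
      Set.mem_ofPred_eq] at hv
    rcases hv with hv | ⟨h1, h2⟩
    · rw [hT₀ v (Finset.mem_insert_of_mem hv), hDS v hv, neg_neg]
    · exact hsimple v h2 h1
  have hZ0 : ∀ v ∉ Z, v ≠ R → v.ord h = 0 := by
    intro v hv hvR
    simp only [hZdef, Finset.mem_union, Finset.mem_sdiff, Set.Finite.mem_toFinset,
      Set.mem_ofPred_eq, not_or, not_and, not_not, T₀, Finset.mem_insert] at hv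
    by_contra hne
    exact hv.1 (hv.2 hne hvR)
  have hpole : R.ord h = -(m : ℤ) := by rw [hT₀ R (Finset.mem_insert_self _ _), hDR]
  have hcard : Z.card = m := by
    obtain ⟨E, hE, hE0⟩ := HasPrincipalDivisors.exists_divisor (K := K) h hh0
    have : E = pts Z - Finsupp.single R (m : ℤ) := by
      ext v
      rw [hE v, Finsupp.sub_apply]
      rcases eq_or_ne v R with rfl | hvR
      · rw [Finsupp.single_eq_same, hpole, pts_apply_notMem hRZ, zero_sub]
      rw [Finsupp.single_eq_of_ne hvR, sub_zero]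
      by_cases hv : v ∈ Z
      · rw [hZ1 v hv, pts_apply_mem hv]
      · rw [hZ0 v hv hvR, pts_apply_notMem hv]
    rw [this, map_sub, degree_pts, degree_single'] at hE0
    omega
  exact ⟨h, Z, Finset.subset_union_left, hcard,
    ⟨hh0, hRZ, hZ1, hZ0, by rw [hcard]; exact hpole⟩⟩

end Fermat.Agent.AJ
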