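import Fermat.Agent.AJ.Atlas
import Mathlib.Analysis.Calculus.FDeriv.Pi
import Mathlib.Analysis.Calculus.MeanValue

/-!
# Moving the zeros of a function

If `h` has simple zeros `Z`, then moving the points of `Z ∖ J` freely determines a movement of the
points of `J` such that the class and the sum of the primitives stay zero.
-/

set_option autoImplicit false

noncomputable section

open AlgebraicCurve Filter Topology

namespace Fermat.Agent.AJ

variable {F : Type*} [Field F] [Algebra ℂ F] [IsCurveOver ℂ F] [FF.IsFunctionField ℂ F]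

attribute [local instance] placeTopology

variable (A : Atlas F)

omit [IsCurveOver ℂ F] [FF.IsFunctionField ℂ F] in
theorem mem_L_single_iff {R : Place ℂ F} {m : ℤ} {f : F} (hf : f ≠ 0) :
    f ∈ riemannRochSpace (Finsupp.single R m) ↔
      -m ≤ R.ord f ∧ ∀ v, v ≠ R → 0 ≤ v.ord f := by
  classical
  rw [mem_riemannRochSpace_iff]
  constructor
  · intro h
    refine ⟨by simpa using (h R).resolve_left hf, fun v hv => ?_⟩
    simpa [Finsupp.single_eq_of_ne hv] using (h v).resolve_left hf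
  · rintro ⟨h1, h2⟩ v
    right
    rcases eq_or_ne v R with rfl | hv
    · simpa using h1
    · simpa [Finsupp.single_eq_of_ne hv] using h2 v hv

omit [FF.IsFunctionField ℂ F] in
/-- The derivative of `f` along a chart at a point where it vanishes. -/
theorem hasDerivAt_val {P : Place ℂ F} {s₀ : ℂ} {f : F}
    (hσ : ContinuousAt (A.σ P) s₀)
    (hcoord : ∀ᶠ s in 𝓝 s₀, A.t P ∈ (A.σ P s).toValuationSubring ∧ val (A.σ P s) (A.t P) = s ∧
      (A.σ P s).ord (A.t P - algebraMap ℂ F s) = 1)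
    (hf : f ∈ (A.σ P s₀).toValuationSubring) (h0 : val (A.σ P s₀) f = 0) :
    f / (A.t P - algebraMap ℂ F s₀) ∈ (A.σ P s₀).toValuationSubring ∧
    HasDerivAt (fun s => val (A.σ P s) f)
      (val (A.σ P s₀) (f / (A.t P - algebraMap ℂ F s₀))) s₀ := by
  set τ := A.t P - algebraMap ℂ F s₀ with hτ
  obtain ⟨ht, -, ho⟩ := hcoord.self_of_nhds
  have hτ0 : τ ≠ 0 := fun e => by simp [← hτ, e] at ho
  have hu : f / τ ∈ (A.σ P s₀).toValuationSubring := by
    rcases (val_eq_zero_iff hf).mp h0 with h | h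
    · rw [h, zero_div]; exact zero_mem _
    · refine mem_of_ord_nonneg ?_
      rw [ord_div (fun e => by simp [e] at h) hτ0]
      rw [← hτ] at ho
      omega
  refine ⟨hu, hasDerivAt_iff_tendsto_slope.mpr ?_⟩
  refine Tendsto.congr' ?_ (((continuousAt_val hu).comp hσ).tendsto.mono_left nhdsWithin_le_nhds)
  filter_upwards [self_mem_nhdsWithin, mem_nhdsWithin_of_mem_nhds hcoord,
    mem_nhdsWithin_of_mem_nhds (hσ.preimage_mem_nhds ((isOpen_regular _).mem_nhds hu))]
    with s hs hs' hs''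
  obtain ⟨hts, hvs, -⟩ := hs'
  have hτs : τ ∈ (A.σ P s).toValuationSubring := sub_mem hts ((A.σ P s).algebraMap_mem' _)
  have hvτ : val (A.σ P s) τ = s - s₀ := by
    rw [hτ, val_sub hts ((A.σ P s).algebraMap_mem' _), hvs, val_algebraMap]
  have hne : s - s₀ ≠ 0 := sub_ne_zero.mpr hs
  simp only [Function.comp_apply, slope_def_field, h0, sub_zero]
  rw [show val (A.σ P s) f = val (A.σ P s) (f / τ * τ) by rw [div_mul_cancel₀ f hτ0],
    val_mul hs'' hτs, hvτ, mul_div_cancel_right₀ _ hne]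

/-- Moving the zeros of `h`: for every small movement `z` of the zeros outside `J` there is a
movement `r z` of those in `J`, with vanishing class and vanishing sum of primitives. -/
theorem exists_move_zeros [DecidableEq (Place ℂ F)] (hR : Riemann ℂ F) {c : ℤ}
    (hc : ∀ D : Divisor ℂ F, c ≤ Divisor.degree D →
      (Module.finrank ℂ (riemannRochSpace D) : ℤ) = Divisor.degree D + 1 - genusFF ℂ F ∧
        repartitionsOf D ⊔ principalRepartitions ℂ F = ⊤)
    {R : Place ℂ F} {h : F} {Z J : Finset (Place ℂ F)} (hh : IsSimpleDiv R h Z)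
    (hm : c ≤ Z.card) (hJZ : J ⊆ Z) (hJcard : J.card = genusFF ℂ F)
    (hJ : LinearIndepOn ℂ (fun P : Place ℂ F => cls P (A.t P)⁻¹) (J : Set (Place ℂ F))) :
    ∃ r : (↥(Z \ J) → ℂ) → (↥J → ℂ), Tendsto r (𝓝 0) (𝓝 0) ∧ ∀ᶠ z in 𝓝 0,
      (∑ i, A.Ψ i.1 (z i) + ∑ j, A.Ψ j.1 (r z j) = 0) ∧
      (∑ i, A.α i.1 (z i) + ∑ j, A.α j.1 (r z j) = 0) := by
  classical
  set I := Z \ J with hIdef
  have hIZ : I ⊆ Z := Finset.sdiff_subset
  have hZR : ∀ v ∈ Z, v ≠ R := fun v hv e => hh.notMem (e ▸ hv)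
  set D : Divisor ℂ F := Finsupp.single R (Z.card : ℤ) with hDdef
  have hDv : ∀ v, v ≠ R → D v = 0 := fun v hv => by simp [hDdef, Finsupp.single_eq_of_ne hv]
  have hregD : ∀ f ∈ riemannRochSpace D, ∀ v, v ≠ R → f ∈ v.toValuationSubring :=
    fun f hf v hv => mem_of_mem_L hf (hDv v hv).le
  have hne0 := hh.ne_zero
  -- evaluation at the free points is onto
  have hbasis : ∀ i : I, ∃ b ∈ riemannRochSpace D, ∀ j : I,
      val j.1 b = if j = i then 1 else 0 := by
    have := hR.finite_L D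
    let E : riemannRochSpace D →ₗ[ℂ] (I → ℂ) :=
      { toFun := fun f v => val v.1 (f : F)
        map_add' := fun f g => funext fun v =>
          val_add (hregD _ f.2 _ (hZR _ (hIZ v.2))) (hregD _ g.2 _ (hZR _ (hIZ v.2)))
        map_smul' := fun a f => funext fun v => val_smul a (hregD _ f.2 _ (hZR _ (hIZ v.2))) }
    have hker : LinearMap.ker E ≤ Submodule.span ℂ {⟨h, hh.mem_L⟩} := by
      intro f hf
      obtain ⟨P₀⟩ : Nonempty (Place ℂ F) := ⟨R⟩
      have hfL : (f : F) / h ∈ riemannRochSpace (pts J) := by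
        refine mem_riemannRochSpace_iff.mpr fun v => ?_
        rcases eq_or_ne (f : F) 0 with h0 | h0
        · left; rw [h0, zero_div]
        right
        rw [ord_div h0 hne0]
        obtain ⟨hfR, hfv⟩ := (mem_L_single_iff h0).mp f.2
        rcases eq_or_ne v R with rfl | hv
        · rw [pts_apply_notMem fun hvJ => hh.notMem (hJZ hvJ), hh.ord_pole]
          omega
        have := hfv v hv
        by_cases hvJ : v ∈ J
        · rw [pts_apply_mem hvJ, hh.ord_eq_one v (hJZ hvJ)]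
          omega
        rw [pts_apply_notMem hvJ]
        by_cases hvZ : v ∈ Z
        · rw [hh.ord_eq_one v hvZ]
          have hvI : v ∈ I := Finset.mem_sdiff.mpr ⟨hvZ, hvJ⟩
          have := congrFun (LinearMap.mem_ker.mp hf) ⟨v, hvI⟩
          have := ((val_eq_zero_iff (hregD _ f.2 v hv)).mp this).resolve_left h0
          omega
        · rw [hh.ord_eq_zero v hvZ hv]
          omega
      have he := eq_algebraMap_of_mem_L_pts A.t (fun v _ => (A.coord v).2.2) hJ hfL P₀
      rw [Submodule.mem_span_singleton]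
      refine ⟨val P₀ ((f : F) / h), Subtype.ext ?_⟩
      show val P₀ ((f : F) / h) • h = f
      rw [Algebra.smul_def, ← he, div_mul_cancel₀ _ hne0]
    have h1 := (hc D (by rw [hDdef, degree_single']; omega)).1
    rw [hDdef, degree_single', ← hDdef] at h1
    have h3 : Module.finrank ℂ (LinearMap.ker E) ≤ 1 :=
      (Submodule.finrank_mono hker).trans
        ((finrank_span_le_card _).trans (by simp))
    have h4 := E.finrank_range_add_finrank_ker
    have h5 : I.card = Z.card - J.card := Finset.card_sdiff_of_subset hJZ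
    have h6 := Finset.card_le_card hJZ
    have htop : LinearMap.range E = ⊤ := by
      refine Submodule.eq_top_of_finrank_eq (le_antisymm (Submodule.finrank_le _) ?_)
      rw [Module.finrank_fintype_fun_eq_card, Fintype.card_coe]
      omega
    intro i
    obtain ⟨f, hf⟩ := LinearMap.range_eq_top.mp htop fun j => if j = i then 1 else 0
    exact ⟨f, f.2, fun j => congrFun hf j⟩
  choose b hbD hbv using hbasis
  let fw : (I → ℂ) → F := fun w => h + ∑ i, w i • b i
  have hfwD : ∀ w, fw w ∈ riemannRochSpace D := fun w =>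
    add_mem hh.mem_L (sum_mem fun i _ => Submodule.smul_mem _ _ (hbD i))
  let Fn : Place ℂ F → (I → ℂ) × ℂ → ℂ := fun Q p =>
    val (A.σ Q p.2) h + ∑ i, p.1 i * val (A.σ Q p.2) (b i)
  have hFn : ∀ Q w s, A.σ Q s ≠ R → Fn Q (w, s) = val (A.σ Q s) (fw w) := fun Q w s hs => by
    rw [val_add (hregD _ hh.mem_L _ hs)
      (sum_mem fun i _ => smul_mem_toValuationSubring _ (hregD _ (hbD i) _ hs)),
      val_sum _ _ fun i _ => smul_mem_toValuationSubring _ (hregD _ (hbD i) _ hs)]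
    simp only [Fn, val_smul _ (hregD _ (hbD _) _ hs)]
  set d : Place ℂ F → ℂ := fun Q => val Q (h / A.t Q) with hd
  have hroot : ∀ Q ∈ Z, AnalyticAt ℂ (Fn Q) (0, 0) ∧ Fn Q (0, 0) = 0 ∧
      HasDerivAt (fun s => Fn Q (0, s)) (d Q) 0 ∧ d Q ≠ 0 := by
    intro Q hQ
    have hQR := hZR Q hQ
    have hσ0 := (A.isChart Q).map_zero
    have han : ∀ f ∈ riemannRochSpace D,
        AnalyticAt ℂ (fun s => val (A.σ Q s) f) 0 := fun f hf =>
      (A.isChart Q).analytic f (hregD f hf Q hQR)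
    have hz : val Q h = 0 := (val_eq_zero_iff (hregD _ hh.mem_L Q hQR)).mpr
      (Or.inr (by rw [hh.ord_eq_one Q hQ]; norm_num))
    refine ⟨?_, ?_, ?_, ?_⟩
    · refine ((han h hh.mem_L).fun_comp_of_eq (analyticAt_snd (p := ((0 : I → ℂ), (0 : ℂ)))) rfl).add
        (Finset.analyticAt_fun_sum _ fun i _ => AnalyticAt.mul ?_
          ((han _ (hbD i)).fun_comp_of_eq (analyticAt_snd (p := ((0 : I → ℂ), (0 : ℂ)))) rfl))
      exact ((ContinuousLinearMap.proj (R := ℂ) (φ := fun _ : I => ℂ) i).analyticAt _).fun_comp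
        analyticAt_fst
    · simp [Fn, hσ0, hz]
    · have h1 := (hasDerivAt_val A (P := Q) (s₀ := 0) (f := h)
        (A.isChart Q).eventually_continuousAt.self_of_nhds
        (A.isChart Q).coord (by rw [hσ0]; exact hregD _ hh.mem_L Q hQR) (by rw [hσ0]; exact hz)).2
      simpa [Fn, hσ0, hd] using h1
    · obtain ⟨-, -, ho⟩ := A.coord Q
      have ht0 : A.t Q ≠ 0 := fun e => by simp [e] at ho
      have hord : Q.ord (h / A.t Q) = 0 := by
        rw [ord_div hne0 ht0, hh.ord_eq_one Q hQ, ho, sub_self]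
      exact (val_ne_zero_iff (mem_of_ord_nonneg hord.ge)).mpr ⟨div_ne_zero hne0 ht0, hord⟩
  have hzero : ∀ Q ∈ Z, ∃ zQ : (I → ℂ) → ℂ, zQ 0 = 0 ∧ AnalyticAt ℂ zQ 0 ∧
      ∀ᶠ w in 𝓝 0, Fn Q (w, zQ w) = 0 := by
    intro Q hQ
    obtain ⟨h1, h2, h3, h4⟩ := hroot Q hQ
    obtain ⟨zQ, hz0, hzan, hzev⟩ := exists_implicit_root h1 h2 h3 h4
    refine ⟨zQ, hz0, hzan, ?_⟩
    have ht : Tendsto (fun w => (w, zQ w)) (𝓝 0) (𝓝 ((0 : I → ℂ), (0 : ℂ))) := by
      have := (tendsto_id (x := 𝓝 (0 : I → ℂ))).prodMk_nhds hzan.continuousAt.tendsto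
      rwa [hz0] at this
    filter_upwards [ht.eventually hzev] with w hw using hw.mpr rfl
  choose! zz hz0 hzan hzev using hzero
  have ht0 : ∀ Q ∈ Z, Tendsto (zz Q) (𝓝 0) (𝓝 0) := fun Q hQ => by
    have := (hzan Q hQ).continuousAt.tendsto
    rwa [hz0 Q hQ] at this
  have htσ : ∀ Q ∈ Z, Tendsto (fun w => A.σ Q (zz Q w)) (𝓝 0) (𝓝 Q) := fun Q hQ =>
    (A.isChart Q).tendsto.comp (ht0 Q hQ)
  have : T2Space (Place ℂ F) := t2Space_place
  have hdist : ∀ᶠ w in 𝓝 (0 : I → ℂ), (∀ Q ∈ Z, A.σ Q (zz Q w) ≠ R) ∧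
      Set.InjOn (fun Q => A.σ Q (zz Q w)) (Z : Set (Place ℂ F)) := by
    refine Eventually.and ((eventually_all_finset _).mpr fun Q hQ =>
      (htσ Q hQ).eventually_ne (hZR Q hQ)) ?_
    have : ∀ᶠ w in 𝓝 (0 : I → ℂ), ∀ p ∈ Z ×ˢ Z, p.1 ≠ p.2 →
        A.σ p.1 (zz p.1 w) ≠ A.σ p.2 (zz p.2 w) := by
      rw [eventually_all_finset]
      rintro ⟨v, w⟩ hp
      obtain ⟨hv, hw⟩ := Finset.mem_product.mp hp
      by_cases hvw : v = w
      · exact Eventually.of_forall fun _ h' => (h' hvw).elim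
      obtain ⟨U, V, hU, hV, hvU, hwV, hUV⟩ := t2_separation hvw
      filter_upwards [(htσ v hv).eventually (hU.mem_nhds hvU),
        (htσ w hw).eventually (hV.mem_nhds hwV)] with u h1 h2 _ e
      exact hUV.le_bot ⟨h1, show A.σ v (zz v u) ∈ V from e ▸ h2⟩
    filter_upwards [this] with u hu v hv w hw e
    by_contra hvw
    exact hu (v, w) (Finset.mk_mem_product hv hw) hvw e
  obtain ⟨ε, hε, hgood⟩ : ∃ ε > 0, ∀ w ∈ Metric.ball (0 : I → ℂ) ε,
      (((∀ Q ∈ Z, A.σ Q (zz Q w) ≠ R) ∧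
        Set.InjOn (fun Q => A.σ Q (zz Q w)) (Z : Set (Place ℂ F))) ∧
      ∀ Q ∈ Z, (∀ᶠ w' in 𝓝 w, Fn Q (w', zz Q w') = 0) ∧
        (∀ᶠ s in 𝓝 (zz Q w), A.t Q ∈ (A.σ Q s).toValuationSubring ∧
          val (A.σ Q s) (A.t Q) = s ∧ (A.σ Q s).ord (A.t Q - algebraMap ℂ F s) = 1) ∧
        ContinuousAt (A.σ Q) (zz Q w) ∧ AnalyticAt ℂ (zz Q) w ∧
        AnalyticAt ℂ (Fn Q) (w, zz Q w) ∧
        HasDerivAt (A.Ψ Q) (A.L (cls (A.σ Q (zz Q w))
          (A.t Q - algebraMap ℂ F (zz Q w))⁻¹)) (zz Q w)) := by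
    rw [← Metric.eventually_nhds_iff_ball]
    refine hdist.and ((eventually_all_finset _).mpr fun Q hQ => ?_)
    have ht : Tendsto (fun w => (w, zz Q w)) (𝓝 0) (𝓝 ((0 : I → ℂ), (0 : ℂ))) :=
      tendsto_id.prodMk_nhds (ht0 Q hQ)
    filter_upwards [(hzev Q hQ).eventually_nhds,
      (ht0 Q hQ).eventually (A.isChart Q).coord.eventually_nhds,
      (ht0 Q hQ).eventually (A.isChart Q).eventually_continuousAt,
      (hzan Q hQ).eventually_analyticAt,
      ht.eventually (hroot Q hQ).1.eventually_analyticAt,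
      (ht0 Q hQ).eventually (A.hasDerivAt_Ψ Q)] with w h1 h2 h3 h4 h5 h6
    exact ⟨h1, h2, h3, h4, h5, h6⟩
  have hcardle : ∀ w, (∀ Q ∈ Z, A.σ Q (zz Q w) ≠ R) →
      Set.InjOn (fun Q => A.σ Q (zz Q w)) (Z : Set (Place ℂ F)) →
      (∀ Q ∈ Z, Fn Q (w, zz Q w) = 0) → fw w ≠ 0 →
      (∀ Q ∈ Z, (A.σ Q (zz Q w)).ord (fw w) = 1) ∧ R.ord (fw w) = -(Z.card : ℤ) ∧
      ∀ v, v ≠ R → (∀ Q ∈ Z, v ≠ A.σ Q (zz Q w)) → v.ord (fw w) = 0 := by
    intro w hwR hinj hF hf0
    set S := Z.image fun Q => A.σ Q (zz Q w) with hS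
    have hcard : S.card = Z.card := Finset.card_image_of_injOn hinj
    have hSR : ∀ v ∈ S, v ≠ R := fun v hv => by
      obtain ⟨Q, hQ, rfl⟩ := Finset.mem_image.mp hv
      exact hwR Q hQ
    obtain ⟨-, h2⟩ := ord_add_eq_of_card hf0 (hfwD w) (S := S) fun v hv => by
      obtain ⟨Q, hQ, rfl⟩ := Finset.mem_image.mp hv
      have := hF Q hQ
      rw [hFn Q w _ (hwR Q hQ), val_eq_zero_iff (hregD _ (hfwD w) _ (hwR Q hQ))] at this
      rw [hDv _ (hwR Q hQ), add_zero]
      exact Int.add_one_le_iff.mpr (this.resolve_left hf0)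
    obtain ⟨h3, h4⟩ := h2 (by rw [hDdef, degree_single', hcard])
    refine ⟨fun Q hQ => ?_, ?_, fun v hv hvS => ?_⟩
    · have := h3 _ (Finset.mem_image_of_mem _ hQ)
      rwa [hDv _ (hwR Q hQ), add_zero] at this
    · have := h4 R fun hR' => hSR R hR' rfl
      rw [hDdef, Finsupp.single_eq_same] at this
      omega
    · have := h4 v fun hv' => by
        obtain ⟨Q, hQ, e⟩ := Finset.mem_image.mp hv'
        exact hvS Q hQ e.symm
      rwa [hDv v hv, add_zero] at this
  have hf0 : ∀ᶠ w in 𝓝 (0 : I → ℂ), fw w ≠ 0 := by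
    by_cases hI : Nonempty I
    · obtain ⟨i₀⟩ := hI
      obtain ⟨Pz, hPz⟩ : ∃ P : Place ℂ F, P = A.σ i₀.1 0 := ⟨_, rfl⟩
      obtain ⟨h1, h2, h3, h4⟩ := hroot i₀.1 (hIZ i₀.2)
      obtain ⟨s, hsd, hsR⟩ : ∃ s, Fn i₀.1 (0, s) ≠ 0 ∧ A.σ i₀.1 s ≠ R := by
        have e1 := (h3.eventually_ne h4 : ∀ᶠ s in 𝓝[≠] (0 : ℂ), Fn i₀.1 (0, s) ≠ 0)
        have e2 := ((A.isChart i₀.1).tendsto.eventually_ne (hZR _ (hIZ i₀.2))).filter_mono
          (nhdsWithin_le_nhds (s := {(0 : ℂ)}ᶜ))
        exact (e1.and e2).exists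
      have hcont : Continuous fun w : I → ℂ => Fn i₀.1 (w, s) := by
        simp only [Fn]; fun_prop
      filter_upwards [hcont.continuousAt.eventually_ne hsd] with w hw h0
      rw [hFn _ _ _ hsR, h0, val_zero] at hw
      exact hw rfl
    · refine Eventually.of_forall fun w => ?_
      have : IsEmpty I := not_nonempty_iff.mp hI
      simpa [fw] using hne0
  obtain ⟨δ, hδ, hδε, hδf⟩ : ∃ δ > 0, δ ≤ ε ∧ ∀ w ∈ Metric.ball (0 : I → ℂ) δ, fw w ≠ 0 := by
    obtain ⟨δ, hδ, h'⟩ := Metric.eventually_nhds_iff_ball.mp hf0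
    exact ⟨min δ ε, lt_min hδ hε, min_le_right _ _,
      fun w hw => h' w (Metric.ball_subset_ball (min_le_left _ _) hw)⟩
  have hball : ∀ w ∈ Metric.ball (0 : I → ℂ) δ, w ∈ Metric.ball (0 : I → ℂ) ε :=
    fun w hw => Metric.ball_subset_ball hδε hw
  -- derivative of the motion
  let dz : (I → ℂ) → Place ℂ F → (I → ℂ) →L[ℂ] ℂ := fun w Q => fderiv ℂ (zz Q) w
  have hmotion : ∀ w ∈ Metric.ball (0 : I → ℂ) ε, ∀ Q ∈ Z, ∀ e : I → ℂ,
      val (A.σ Q (zz Q w)) (fw w / (A.t Q - algebraMap ℂ F (zz Q w))) * dz w Q e +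
        val (A.σ Q (zz Q w)) (∑ i, e i • b i) = 0 := by
    intro w hw Q hQ e
    obtain ⟨⟨hwR, -⟩, hall⟩ := hgood w hw
    obtain ⟨hev, hcoord, hcont, hzanw, hFanw, -⟩ := hall Q hQ
    have hσR := hwR Q hQ
    set z := zz Q w
    set Lf := fderiv ℂ (Fn Q) (w, z)
    have hLf : HasFDerivAt (Fn Q) Lf (w, z) := hFanw.differentiableAt.hasFDerivAt
    have hz' : HasFDerivAt (zz Q) (dz w Q) w := hzanw.differentiableAt.hasFDerivAt
    have hcomp : HasFDerivAt (fun w' => Fn Q (w', zz Q w'))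
        (Lf.comp ((ContinuousLinearMap.id ℂ (I → ℂ)).prod (dz w Q))) w :=
      hLf.comp w ((hasFDerivAt_id w).prodMk hz')
    have hzero' : HasFDerivAt (fun w' => Fn Q (w', zz Q w')) (0 : (I → ℂ) →L[ℂ] ℂ) w :=
      (hasFDerivAt_const (0 : ℂ) w).congr_of_eventuallyEq hev
    have he := DFunLike.congr_fun (hcomp.unique hzero') e
    simp only [ContinuousLinearMap.comp_apply, ContinuousLinearMap.prod_apply,
      ContinuousLinearMap.id_apply, zero_apply] at he
    rw [show (e, dz w Q e) = (e, (0 : ℂ)) + (dz w Q e) • ((0 : I → ℂ), (1 : ℂ)) by simp,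
      map_add, map_smul, smul_eq_mul] at he
    have hFn0 : Fn Q (w, z) = 0 := hev.self_of_nhds
    have hL01 : Lf ((0 : I → ℂ), (1 : ℂ)) =
        val (A.σ Q z) (fw w / (A.t Q - algebraMap ℂ F z)) := by
      have h1 : HasDerivAt (fun s => Fn Q (w, s)) (Lf ((0 : I → ℂ), (1 : ℂ))) z :=
        hLf.comp_hasDerivAt z ((hasDerivAt_const z w).prodMk (hasDerivAt_id z))
      obtain ⟨-, h2⟩ := hasDerivAt_val A (P := Q) (s₀ := z) (f := fw w) hcont hcoord
        (hregD _ (hfwD w) _ hσR) (by rw [← hFn Q w z hσR, hFn0])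
      refine h1.unique (h2.congr_of_eventuallyEq ?_)
      filter_upwards [hcont.eventually_ne hσR] with s hs using hFn Q w s hs
    have hLe : Lf (e, (0 : ℂ)) = val (A.σ Q z) (∑ i, e i • b i) := by
      have h1 : HasDerivAt (fun u : ℂ => Fn Q (w + u • e, z)) (Lf (e, (0 : ℂ))) 0 := by
        have h' : HasDerivAt (fun u : ℂ => ((w + u • e, z) : (I → ℂ) × ℂ)) (e, (0 : ℂ)) 0 := by
          have := ((hasDerivAt_id (0 : ℂ)).smul_const e).const_add w
          simpa using this.prodMk (hasDerivAt_const (0 : ℂ) z)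
        exact (by simpa using hLf : HasFDerivAt (Fn Q) Lf
          ((fun u : ℂ => ((w + u • e, z) : (I → ℂ) × ℂ)) 0)).comp_hasDerivAt 0 h'
      have h2 : HasDerivAt (fun u : ℂ => Fn Q (w + u • e, z))
          (∑ i, e i * val (A.σ Q z) (b i)) 0 := by
        have : (fun u : ℂ => Fn Q (w + u • e, z)) = fun u =>
            Fn Q (w, z) + u * ∑ i, e i * val (A.σ Q z) (b i) := by
          funext u
          simp only [Fn, Pi.add_apply, Pi.smul_apply, smul_eq_mul, add_mul,
            Finset.sum_add_distrib, Finset.mul_sum]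
          ring_nf
        rw [this]
        simpa using ((hasDerivAt_id (0 : ℂ)).mul_const
          (∑ i, e i * val (A.σ Q z) (b i))).const_add (Fn Q (w, z))
      rw [h1.unique h2, val_sum _ _ fun i _ =>
        smul_mem_toValuationSubring _ (hregD _ (hbD i) _ hσR)]
      exact Finset.sum_congr rfl fun i _ => (val_smul _ (hregD _ (hbD i) _ hσR)).symm
    rw [hL01, hLe] at he
    linear_combination he
  -- the sum of the primitives is constant
  have hΨ : ∀ w ∈ Metric.ball (0 : I → ℂ) δ, ∑ Q ∈ Z, A.Ψ Q (zz Q w) = 0 := by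
    let Lw : (I → ℂ) → (I → ℂ) →L[ℂ] (Fin (genusFF ℂ F) → ℂ) := fun w =>
      ∑ Q ∈ Z, (dz w Q).smulRight
        (A.L (cls (A.σ Q (zz Q w)) (A.t Q - algebraMap ℂ F (zz Q w))⁻¹))
    have hderiv : ∀ w ∈ Metric.ball (0 : I → ℂ) δ,
        HasFDerivAt (fun w => ∑ Q ∈ Z, A.Ψ Q (zz Q w)) (Lw w) w := by
      intro w hw
      refine HasFDerivAt.fun_sum fun Q hQ => ?_
      obtain ⟨-, -, -, hzanw, -, hΨd⟩ := (hgood w (hball w hw)).2 Q hQ
      refine (hΨd.hasFDerivAt.comp w hzanw.differentiableAt.hasFDerivAt).congr_fderiv ?_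
      ext e
      simp [dz]
    have hLw : ∀ w ∈ Metric.ball (0 : I → ℂ) δ, Lw w = 0 := by
      intro w hw
      refine ContinuousLinearMap.ext fun e => ?_
      obtain ⟨⟨hwR, hinj⟩, hall⟩ := hgood w (hball w hw)
      obtain ⟨h1, h2, h3⟩ := hcardle w hwR hinj (fun Q hQ => (hall Q hQ).1.self_of_nhds)
        (hδf w hw)
      set num := ∑ i, e i • b i with hnum
      have hnumD : num ∈ riemannRochSpace D := sum_mem fun i _ => Submodule.smul_mem _ _ (hbD i)
      have hfwne := hδf w hw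
      have key : ∀ Q ∈ Z, cls (A.σ Q (zz Q w)) (num / fw w) =
          (-(dz w Q e)) • cls (A.σ Q (zz Q w)) (A.t Q - algebraMap ℂ F (zz Q w))⁻¹ := by
        intro Q hQ
        set v := A.σ Q (zz Q w)
        set τ := A.t Q - algebraMap ℂ F (zz Q w)
        have hτ : v.ord τ = 1 := ((hall Q hQ).2.1.self_of_nhds).2.2
        have hτ0 : τ ≠ 0 := fun e' => by simp [e'] at hτ
        have hnm := hregD _ hnumD v (hwR Q hQ)
        have hu : v.ord (fw w / τ) = 0 := by rw [ord_div hfwne hτ0, h1 Q hQ, hτ, sub_self]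
        have hum : fw w / τ ∈ v.toValuationSubring := mem_of_ord_nonneg hu.ge
        have huv : val v (fw w / τ) ≠ 0 :=
          (val_ne_zero_iff hum).mpr ⟨div_ne_zero hfwne hτ0, hu⟩
        have hprod : num / fw w * τ = num * (fw w / τ)⁻¹ := by field_simp
        have hmem : num / fw w * τ ∈ v.toValuationSubring :=
          hprod ▸ mul_mem hnm (mem_inv_of_val_ne_zero hum huv)
        rw [cls_eq_smul hτ hmem]
        congr 1
        rw [hprod, val_mul hnm (mem_inv_of_val_ne_zero hum huv), val_inv hum huv,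
          mul_inv_eq_iff_eq_mul₀ huv]
        have := hmotion w (hball w hw) Q hQ e
        linear_combination this
      have hsum : ∑ v ∈ Z.image (fun Q => A.σ Q (zz Q w)), cls v (num / fw w) = 0 := by
        refine sum_cls_eq_zero fun v hv => ?_
        simp only [Finset.mem_image, not_exists, not_and] at hv
        rcases eq_or_ne num 0 with h0 | h0
        · rw [h0, zero_div]; exact zero_mem _
        refine mem_of_ord_nonneg ?_
        rw [ord_div h0 hfwne]
        obtain ⟨hnR, hnv⟩ := (mem_L_single_iff h0).mp hnumD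
        rcases eq_or_ne v R with rfl | hvR
        · rw [h2]; omega
        · rw [h3 v hvR fun Q hQ e' => hv Q hQ e'.symm]
          linarith [hnv v hvR]
      rw [Finset.sum_image hinj, Finset.sum_congr rfl key] at hsum
      simp only [Lw, FunLike.coe_sum, Finset.sum_apply,
        ContinuousLinearMap.smulRight_apply, zero_apply]
      simp only [neg_smul, Finset.sum_neg_distrib, neg_eq_zero] at hsum
      have h4 := congrArg A.L hsum
      simp only [map_sum, map_smul, map_zero] at h4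
      exact h4
    intro w hw
    have := Metric.isOpen_ball.eqOn_of_fderiv_eq (𝕜 := ℂ)
      (s := Metric.ball (0 : I → ℂ) δ) (f := fun w => ∑ Q ∈ Z, A.Ψ Q (zz Q w))
      (g := fun _ => 0) (convex_ball _ _).isPreconnected
      (fun w hw => (hderiv w hw).differentiableAt.differentiableWithinAt)
      (differentiableOn_const 0)
      (fun w hw => by rw [(hderiv w hw).fderiv, hLw w hw]; simp)
      (Metric.mem_ball_self hδ)
      (Finset.sum_eq_zero fun Q hQ => by rw [hz0 Q hQ, A.Ψ_zero])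
    exact this hw
  -- the class is constant
  have hα : ∀ w ∈ Metric.ball (0 : I → ℂ) δ, ∑ Q ∈ Z, A.α Q (zz Q w) = 0 := by
    intro w hw
    obtain ⟨⟨hwR, hinj⟩, hall⟩ := hgood w (hball w hw)
    obtain ⟨h1, h2, h3⟩ := hcardle w hwR hinj (fun Q hQ => (hall Q hQ).1.self_of_nhds)
      (hδf w hw)
    simp only [Atlas.α, ← map_sum]
    refine (A.toPic0_eq_zero_iff ?_).mpr ⟨fw w / h, div_ne_zero (hδf w hw) hne0, fun v => ?_⟩
    · simp [map_sum, deg_eq_one]
    rw [ord_div (hδf w hw) hne0, Finset.sum_sub_distrib,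
      show (∑ Q ∈ Z, Finsupp.single (A.σ Q (zz Q w)) (1 : ℤ)) =
        pts (Z.image fun Q => A.σ Q (zz Q w)) by rw [pts, Finset.sum_image hinj],
      show (∑ Q ∈ Z, Finsupp.single Q (1 : ℤ)) = pts Z from rfl, Finsupp.sub_apply]
    rcases eq_or_ne v R with rfl | hvR
    · rw [pts_apply_notMem (fun hv => by
        obtain ⟨Q, hQ, e⟩ := Finset.mem_image.mp hv
        exact hwR Q hQ e), pts_apply_notMem hh.notMem, h2, hh.ord_pole]
      ring
    have e1 : pts (Z.image fun Q => A.σ Q (zz Q w)) v = v.ord (fw w) := by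
      by_cases hv : v ∈ Z.image fun Q => A.σ Q (zz Q w)
      · obtain ⟨Q, hQ, rfl⟩ := Finset.mem_image.mp hv
        rw [pts_apply_mem hv, h1 Q hQ]
      · rw [pts_apply_notMem hv, h3 v hvR fun Q hQ e => hv (Finset.mem_image.mpr ⟨Q, hQ, e.symm⟩)]
    have e2 : pts Z v = v.ord h := by
      by_cases hv : v ∈ Z
      · rw [pts_apply_mem hv, hh.ord_eq_one v hv]
      · rw [pts_apply_notMem hv, hh.ord_eq_zero v hv hvR]
    rw [e1, e2]
  -- the free coordinates are independent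
  let zI : (I → ℂ) → I → ℂ := fun w i => zz i.1 w
  let T : (I → ℂ) →L[ℂ] (I → ℂ) := ContinuousLinearMap.pi fun i => dz 0 i.1
  have hzI : HasStrictFDerivAt zI T 0 :=
    hasStrictFDerivAt_pi.mpr fun i => (hzan _ (hIZ i.2)).hasStrictFDerivAt
  have hTinj : Function.Injective T := by
    rw [injective_iff_map_eq_zero]
    intro e he
    funext i
    have h1 := hmotion 0 (Metric.mem_ball_self hε) i.1 (hIZ i.2) e
    have h2 : dz 0 i.1 e = 0 := congrFun he i
    rw [h2, mul_zero, zero_add, hz0 _ (hIZ i.2), (A.isChart i.1).map_zero,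
      val_sum _ _ fun j _ =>
        smul_mem_toValuationSubring _ (hregD _ (hbD j) _ (hZR _ (hIZ i.2)))] at h1
    simpa [val_smul _ (hregD _ (hbD _) _ (hZR _ (hIZ i.2))), hbv] using h1
  let Te : (I → ℂ) ≃L[ℂ] (I → ℂ) :=
    (LinearEquiv.ofInjectiveEndo T.toLinearMap hTinj).toContinuousLinearEquiv
  have hstrict : HasStrictFDerivAt zI (Te : (I → ℂ) →L[ℂ] (I → ℂ)) 0 := by
    have hTe : (Te : (I → ℂ) →L[ℂ] (I → ℂ)) = T := by
      ext e : 1
      simp [Te]
    rwa [hTe]
  set inv := hstrict.localInverse zI Te 0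
  have hzI0 : zI 0 = 0 := funext fun i => hz0 _ (hIZ i.2)
  have hinv : Tendsto inv (𝓝 0) (𝓝 0) := by
    have := hstrict.localInverse_tendsto
    rwa [hzI0] at this
  have hright : ∀ᶠ z in 𝓝 (0 : I → ℂ), zI (inv z) = z := by
    have := hstrict.eventually_right_inverse
    rwa [hzI0] at this
  refine ⟨fun z j => zz j.1 (inv z), ?_, ?_⟩
  · rw [tendsto_pi_nhds]
    exact fun j => (ht0 _ (hJZ j.2)).comp hinv
  · filter_upwards [hright, hinv.eventually (Metric.ball_mem_nhds 0 hδ)] with z hz hzb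
    have hsplit : ∀ {β : Type} [AddCommMonoid β] (G : Place ℂ F → β),
        ∑ Q ∈ Z, G Q = ∑ i : I, G i.1 + ∑ j : J, G j.1 := fun {β} _ G => by
      rw [← Finset.sum_sdiff hJZ, Finset.sum_coe_sort I G, Finset.sum_coe_sort J G]
    constructor
    · have h1 := hΨ _ hzb
      rw [hsplit] at h1
      refine Eq.trans ?_ h1
      congr 1
      refine Finset.sum_congr rfl fun i _ => ?_
      show A.Ψ i.1 (z i) = A.Ψ i.1 (zI (inv z) i)
      rw [hz]
    · have h1 := hα _ hzb
      rw [← Finset.sum_sdiff hJZ, ← Finset.sum_coe_sort, ← Finset.sum_coe_sort J] at h1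
      convert h1 using 2
      exact Finset.sum_congr rfl fun i _ => by rw [← congrFun hz i]

end Fermat.Agent.AJ
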