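import Fermat.Agent.AJ.ConstField
import Fermat.Agent.FF.Curve
import Fermat.Agent.FF.ConstExt.Basic
import Mathlib.LinearAlgebra.DirectSum.Finsupp

/-!
# A countable model of a function field, and its extension to `ℂ`
-/

set_option autoImplicit false

noncomputable section

open AlgebraicCurve IntermediateField Polynomial TensorProduct

namespace Fermat.Agent.AJ

open FF.ConstExt (IsConstExt mulMap)

universe u

variable {K : Type u} {F : Type*} [Field K] [Field F] [Algebra K F]

theorem mulMap_injective_of_independent {K₀ F₀ : Type*} [Field K₀] [Field F₀] [Algebra K₀ K]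
    [Algebra K₀ F₀] [Algebra K₀ F] [Algebra F₀ F] [IsScalarTower K₀ K F] [IsScalarTower K₀ F₀ F]
    (h : ∀ {ι : Type u} (s : Finset ι) (c : ι → K), LinearIndependent K₀ c →
      ∀ f : ι → F₀, ∑ i ∈ s, algebraMap K F (c i) * algebraMap F₀ F (f i) = 0 → ∀ i ∈ s, f i = 0) :
    Function.Injective (mulMap K₀ K F₀ F) := by
  classical
  rw [injective_iff_map_eq_zero]
  intro z hz
  set b := Module.Free.chooseBasis K₀ K
  let e := (TensorProduct.congr b.repr (LinearEquiv.refl K₀ F₀)).trans
    (TensorProduct.finsuppScalarLeft K₀ F₀ _)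
  have hz' : z = ∑ i ∈ (e z).support, b i ⊗ₜ[K₀] e z i := by
    conv_lhs => rw [← e.symm_apply_apply z, ← (e z).sum_single, Finsupp.sum, map_sum]
    refine Finset.sum_congr rfl fun i _ => ?_
    simp [e, TensorProduct.finsuppScalarLeft_symm_apply_single]
  rw [hz', map_sum] at hz
  simp only [FF.ConstExt.mulMap_tmul] at hz
  have h0 := h _ _ b.linearIndependent _ hz
  rw [hz']
  exact Finset.sum_eq_zero fun i hi => by rw [h0 i hi, TensorProduct.tmul_zero]

variable [IsAlgClosed K] [CharZero K] [FF.IsFunctionField K F]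

variable (K F) in
/-- A finite set of functions lives on a model over a countable algebraically closed field. -/
theorem exists_model (T : Finset F) :
    ∃ K₀ : IntermediateField ℚ K, Countable K₀ ∧ IsAlgClosed K₀ ∧
      ∃ F₀ : IntermediateField K₀ F, (∀ f ∈ T, f ∈ F₀) ∧ FF.IsFunctionField K₀ F₀ ∧
        IsConstExt K₀ K F₀ F := by
  classical
  obtain ⟨x, hx, hfin⟩ := FF.IsFunctionField.exists_transcendental (K := K) (F := F)
  have : CharZero K⟮x⟯ := charZero_of_injective_algebraMap (algebraMap K K⟮x⟯).injective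
  obtain ⟨y, hy⟩ := Field.exists_primitive_element K⟮x⟯ F
  have hint : IsIntegral K⟮x⟯ y := Algebra.IsIntegral.isIntegral y
  set G := minpoly K⟮x⟯ y
  have hrat : ∀ g : K⟮x⟯, ∃ r s : K[X], (g : F) = aeval x r / aeval x s := fun g =>
    (mem_adjoin_simple_iff (F := K) (g : F)).mp g.2
  choose num den hnd using hrat
  have hpol : ∀ f : F, ∃ P : K⟮x⟯[X], aeval y P = f := by
    intro f
    have : f ∈ (K⟮x⟯⟮y⟯).toSubalgebra := by rw [hy]; trivial
    rwa [adjoin_simple_toSubalgebra_of_isAlgebraic hint.isAlgebraic,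
      Algebra.adjoin_singleton_eq_range_aeval] at this
  choose pol hpol using hpol
  set gs : Finset K⟮x⟯ := G.coeffs ∪ T.biUnion fun f => (pol f).coeffs
  set C₀ : Finset K := gs.biUnion fun g => (num g).coeffs ∪ (den g).coeffs
  obtain ⟨K₀, hcount, hclosed, hC₀⟩ := exists_countable_algClosed C₀
  refine ⟨K₀, hcount, hclosed, ?_⟩
  have hx₀ : Transcendental K₀ x := fun h => hx (h.tower_top K)
  set M : IntermediateField K₀ F := K₀⟮x⟯
  have haev : ∀ p : K[X], (∀ i ∈ p.support, p.coeff i ∈ K₀) → aeval x p ∈ M := by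
    intro p hp
    rw [aeval_eq_sum_range]
    refine sum_mem fun i _ => ?_
    by_cases hi : i ∈ p.support
    · rw [Algebra.smul_def, show algebraMap K F (p.coeff i) =
        algebraMap K₀ F ⟨p.coeff i, hp i hi⟩ from rfl]
      exact mul_mem (M.algebraMap_mem _) (pow_mem (mem_adjoin_simple_self _ x) _)
    · rw [notMem_support_iff.mp hi, zero_smul]
      exact zero_mem _
  have hgsM : ∀ g ∈ gs, (g : F) ∈ M := by
    intro g hg
    rw [hnd g]
    refine div_mem (haev _ fun i hi => hC₀ _ ?_) (haev _ fun i hi => hC₀ _ ?_)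
    · exact Finset.mem_biUnion.mpr ⟨g, hg, Finset.mem_union_left _
        (coeff_mem_coeffs (mem_support_iff.mp hi))⟩
    · exact Finset.mem_biUnion.mpr ⟨g, hg, Finset.mem_union_right _
        (coeff_mem_coeffs (mem_support_iff.mp hi))⟩
  have hlift : ∀ P : K⟮x⟯[X], P.coeffs ⊆ gs →
      P.map (algebraMap K⟮x⟯ F) ∈ lifts (algebraMap M F) := by
    intro P hP
    rw [lifts_iff_coeff_lifts]
    intro i
    rw [coeff_map]
    by_cases hi : P.coeff i = 0
    · exact ⟨0, by simp [hi]⟩
    · exact ⟨⟨_, hgsM _ (hP (coeff_mem_coeffs hi))⟩, rfl⟩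
  obtain ⟨G₀, hG₀map, hG₀deg, hG₀m⟩ := lifts_and_natDegree_eq_and_monic
    (hlift G Finset.subset_union_left) ((minpoly.monic hint).map _)
  have hG₀y : aeval y G₀ = 0 := by
    rw [aeval_def, eval₂_eq_eval_map, hG₀map, ← eval₂_eq_eval_map, ← aeval_def]
    exact minpoly.aeval _ y
  have hd : G₀.natDegree = G.natDegree := by rw [hG₀deg, natDegree_map]
  set F₀ : IntermediateField K₀ F := adjoin K₀ {x, y}
  have hxF₀ : x ∈ F₀ := subset_adjoin K₀ _ (Set.mem_insert x _)
  have hyF₀ : y ∈ F₀ := subset_adjoin K₀ _ (Set.mem_insert_of_mem _ rfl)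
  have hMF₀ : M ≤ F₀ := adjoin_simple_le_iff.mpr hxF₀
  have hTF₀ : ∀ f ∈ T, f ∈ F₀ := by
    intro f hf
    obtain ⟨P, hP⟩ := hlift (pol f)
      ((Finset.subset_biUnion_of_mem (fun f => (pol f).coeffs) hf).trans Finset.subset_union_right)
    rw [coe_mapRingHom] at hP
    rw [← hpol f, aeval_def, eval₂_eq_eval_map, ← hP, ← eval₂_eq_eval_map, eval₂_eq_sum_range]
    exact sum_mem fun i _ => mul_mem (hMF₀ (P.coeff i).2) (pow_mem hyF₀ _)
  refine ⟨F₀, hTF₀, ?_, ?_⟩
  · refine FF.IsFunctionField.of_adjoin (Set.toFinite _) hxF₀ hx₀ ?_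
    rintro z (rfl | rfl)
    · exact isAlgebraic_algebraMap (⟨z, mem_adjoin_simple_self K₀ z⟩ : K₀⟮z⟯)
    · exact ⟨G₀, hG₀m.ne_zero, hG₀y⟩
  -- representation of the elements of `F₀`
  have hrepr : ∀ f : F₀, ∃ (Q : K₀[X]) (P : Fin G.natDegree → K₀[X]), Q ≠ 0 ∧
      aeval x Q * (f : F) = ∑ i, aeval x (P i) * y ^ (i : ℕ) := by
    intro f
    have hf : (f : F) ∈ (M⟮y⟯).restrictScalars K₀ := by
      have : F₀ = (M⟮y⟯).restrictScalars K₀ := (adjoin_simple_adjoin_simple K₀ x y).symm
      exact this ▸ f.2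
    have hf' : (f : F) ∈ (M⟮y⟯).toSubalgebra := hf
    rw [adjoin_simple_toSubalgebra_of_isAlgebraic ⟨G₀, hG₀m.ne_zero, hG₀y⟩,
      Algebra.adjoin_singleton_eq_range_aeval] at hf'
    obtain ⟨P, hP⟩ := hf'
    set P' := P %ₘ G₀
    have hP' : aeval y P' = (f : F) := by
      rw [show P' = P - G₀ * (P /ₘ G₀) from modByMonic_eq_sub_mul_div P G₀, map_sub, map_mul,
        hG₀y, zero_mul, sub_zero]
      exact hP
    have hdeg : 0 < G.natDegree := minpoly.natDegree_pos hint
    have hlt : P'.natDegree < G.natDegree := by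
      rw [← hd]
      exact natDegree_modByMonic_lt _ hG₀m fun h => by rw [h, natDegree_one] at hd; omega
    have hrat' : ∀ m : M, ∃ r s : K₀[X], s ≠ 0 ∧ (m : F) = aeval x r / aeval x s := by
      intro m
      obtain ⟨r, s, hrs⟩ := (mem_adjoin_simple_iff (F := K₀) (m : F)).mp m.2
      rcases eq_or_ne s 0 with rfl | hs
      · exact ⟨0, 1, one_ne_zero, by simp [hrs]⟩
      · exact ⟨r, s, hs, hrs⟩
    choose r s hs hrs using hrat'
    refine ⟨∏ i : Fin G.natDegree, s (P'.coeff i),
      fun i => r (P'.coeff i) * ∏ j ∈ Finset.univ.erase i, s (P'.coeff j),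
      Finset.prod_ne_zero_iff.mpr fun i _ => hs _, ?_⟩
    rw [← hP', aeval_eq_sum_range' hlt, Finset.mul_sum, ← Fin.sum_univ_eq_sum_range
      (fun i => aeval x (∏ j : Fin G.natDegree, s (P'.coeff j)) * (P'.coeff i • y ^ i))]
    refine Finset.sum_congr rfl fun i hi => ?_
    rw [Algebra.smul_def, ← Finset.mul_prod_erase _ _ hi, map_mul, map_mul,
      show algebraMap M F (P'.coeff i) = ((P'.coeff i : M) : F) from rfl, hrs]
    have : aeval x (s (P'.coeff i)) ≠ 0 := fun h => hs _ (transcendental_iff.mp hx₀ _ h)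
    field_simp
  refine ⟨mulMap_injective_of_independent ?_, ?_⟩
  · intro ι t c hc f hsum i₀ hi₀
    choose Q P hQ hQP using fun i => hrepr (f i)
    set Qt := fun i => ∏ j ∈ t.erase i, Q j
    have h1 : ∑ j : Fin G.natDegree, aeval x (∑ i ∈ t, C (c i) * (Qt i * P i j).map
        (algebraMap K₀ K)) * y ^ (j : ℕ) = 0 := by
      have h0 : aeval x (∏ j ∈ t, Q j) *
          ∑ i ∈ t, algebraMap K F (c i) * algebraMap F₀ F (f i) = 0 := by rw [hsum, mul_zero]
      rw [← h0, Finset.mul_sum]
      simp only [map_sum, map_mul, aeval_C, aeval_map_algebraMap, Finset.sum_mul]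
      rw [Finset.sum_comm]
      refine Finset.sum_congr rfl fun i hi => ?_
      rw [← Finset.mul_prod_erase _ _ hi, map_mul,
        show aeval x (Q i) * aeval x (∏ j ∈ t.erase i, Q j) *
          (algebraMap K F (c i) * algebraMap F₀ F (f i)) =
          algebraMap K F (c i) * (aeval x (Qt i) * (aeval x (Q i) * (f i : F))) by
            simp only [Qt]
            change _ * (_ * (f i : F)) = _
            ring,
        hQP i, Finset.mul_sum, Finset.mul_sum]
      exact Finset.sum_congr rfl fun j _ => by ring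
    have hpoly : ∀ j, (∑ i ∈ t, C (c i) * (Qt i * P i j).map (algebraMap K₀ K)) = 0 := by
      intro j
      have hli : LinearIndependent K⟮x⟯ fun j : Fin G.natDegree => y ^ (j : ℕ) :=
        linearIndependent_pow y
      set a : Fin G.natDegree → K⟮x⟯ := fun j =>
        ⟨aeval x (∑ i ∈ t, C (c i) * (Qt i * P i j).map (algebraMap K₀ K)),
          Algebra.adjoin_le_iff.mpr (Set.singleton_subset_iff.mpr (mem_adjoin_simple_self K x) :
            ({x} : Set F) ⊆ (K⟮x⟯.toSubalgebra : Set F)) (aeval_mem_adjoin_singleton K x)⟩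
      have := Fintype.linearIndependent_iff.mp hli a (by
        simp only [IntermediateField.smul_def, a, smul_eq_mul]
        exact h1) j
      exact transcendental_iff.mp hx _ (congrArg Subtype.val this)
    have hzero : ∀ j, Qt i₀ * P i₀ j = 0 := by
      intro j
      ext n : 1
      have h2 := congrArg (fun p => coeff p n) (hpoly j)
      simp only [finsetSum_coeff, coeff_C_mul, coeff_map, coeff_zero] at h2
      have := linearIndependent_iff'.mp hc t (fun i => (Qt i * P i j).coeff n) (by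
        rw [← h2]
        exact Finset.sum_congr rfl fun i _ => by rw [Algebra.smul_def, mul_comm]) i₀ hi₀
      simpa using this
    have hQt : Qt i₀ ≠ 0 := Finset.prod_ne_zero_iff.mpr fun j _ => hQ j
    have := hQP i₀
    simp only [fun j => (mul_eq_zero.mp (hzero j)).resolve_left hQt, map_zero, zero_mul,
      Finset.sum_const_zero, mul_eq_zero] at this
    exact Subtype.ext (this.resolve_left fun h => hQ i₀ (transcendental_iff.mp hx₀ _ h))
  · rw [← top_le_iff]
    intro f _
    have hxm : x ∈ adjoin K (Set.range (algebraMap F₀ F)) :=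
      subset_adjoin K _ ⟨(⟨x, hxF₀⟩ : F₀), rfl⟩
    have hym : y ∈ adjoin K (Set.range (algebraMap F₀ F)) :=
      subset_adjoin K _ ⟨(⟨y, hyF₀⟩ : F₀), rfl⟩
    have hle : K⟮x⟯ ≤ adjoin K (Set.range (algebraMap F₀ F)) := adjoin_simple_le_iff.mpr hxm
    rw [← hpol f, aeval_eq_sum_range]
    refine sum_mem fun i _ => ?_
    rw [Algebra.smul_def]
    exact mul_mem (hle ((pol f).coeff i).2) (pow_mem hym _)

end Fermat.Agent.AJ
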