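import Fermat.Agent.AJ.Setup

/-!
# A nonconstant function is unramified at all but finitely many places (characteristic zero)
-/

set_option autoImplicit false

noncomputable section

open AlgebraicCurve IntermediateField Polynomial

namespace Fermat.Agent.AJ

variable {K F : Type*} [Field K] [Field F] [Algebra K F] [IsAlgClosed K]
  [IsCurveOver K F]

theorem aeval_mem_and_val {v : Place K F} {r : F} (hr : r ∈ v.toValuationSubring) (p : K[X]) :
    aeval r p ∈ v.toValuationSubring ∧ val v (aeval r p) = p.eval (val v r) := by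
  have h := aeval_algHom_apply (valHom v) (⟨r, hr⟩ : v.toValuationSubring) p
  have e : ((aeval (⟨r, hr⟩ : v.toValuationSubring) p : v.toValuationSubring) : F) = aeval r p :=
    (aeval_algHom_apply (IsScalarTower.toAlgHom K v.toValuationSubring F)
      (x := (⟨r, hr⟩ : v.toValuationSubring)) p).symm
  refine ⟨e ▸ SetLike.coe_mem _, ?_⟩
  rw [coe_aeval_eq_eval] at h
  rw [← e]
  exact h.symm

section

variable (v : Place K F) (r y : F)

/-- The regular rational functions of `r` and `y`. -/
private def locGen : Subalgebra K F :=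
  Algebra.adjoin K ({f | f ∈ K⟮r⟯ ∧ f ∈ v.toValuationSubring} ∪ {y})

private def LocMem (w : F) : Prop :=
  ∃ b ∈ locGen v r y, ∃ s ∈ locGen v r y, val v s ≠ 0 ∧ w = b / s

private def LocGood (f : F) : Prop :=
  ∃ w, LocMem v r y w ∧
    f - algebraMap K F (val v f) = (r - algebraMap K F (val v r)) * w

variable {v r y}

omit [IsAlgClosed K] [IsCurveOver K F] in
private theorem mem_of_mem_locGen (hy : y ∈ v.toValuationSubring) {f : F}
    (hf : f ∈ locGen v r y) : f ∈ v.toValuationSubring := by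
  refine Algebra.adjoin_induction ?_ v.algebraMap_mem' (fun _ _ _ _ => add_mem)
    (fun _ _ _ _ => mul_mem) hf
  rintro x (hx | rfl)
  · exact hx.2
  · exact hy

omit [IsAlgClosed K] [IsCurveOver K F] in
private theorem gen_mem_locGen {f : F} (h1 : f ∈ K⟮r⟯) (h2 : f ∈ v.toValuationSubring) :
    f ∈ locGen v r y :=
  Algebra.subset_adjoin (R := K) (s := {f | f ∈ K⟮r⟯ ∧ f ∈ v.toValuationSubring} ∪ {y})
    (Or.inl ⟨h1, h2⟩)

omit [IsAlgClosed K] [IsCurveOver K F] in
private theorem y_mem_locGen : y ∈ locGen v r y :=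
  Algebra.subset_adjoin (R := K) (s := {f | f ∈ K⟮r⟯ ∧ f ∈ v.toValuationSubring} ∪ {y})
    (Or.inr rfl)

omit [IsAlgClosed K] [IsCurveOver K F] in
private theorem aeval_mem_locGen (hr : r ∈ v.toValuationSubring) (p : K[X]) :
    aeval r p ∈ locGen v r y :=
  Algebra.adjoin_singleton_le (gen_mem_locGen (mem_adjoin_simple_self K r) hr)
    (aeval_mem_adjoin_singleton K r)

private theorem locMem_of (f : F) (hf : f ∈ locGen v r y) : LocMem v r y f :=
  ⟨f, hf, 1, one_mem _, by simp [val_one], by simp⟩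

private theorem locMem_mul (hy : y ∈ v.toValuationSubring) {w w' : F} (h : LocMem v r y w)
    (h' : LocMem v r y w') : LocMem v r y (w * w') := by
  obtain ⟨b, hb, s, hs, hs0, rfl⟩ := h
  obtain ⟨b', hb', s', hs', hs0', rfl⟩ := h'
  exact ⟨b * b', mul_mem hb hb', s * s', mul_mem hs hs', by
    rw [val_mul (mem_of_mem_locGen hy hs) (mem_of_mem_locGen hy hs')]
    exact mul_ne_zero hs0 hs0', by rw [div_mul_div_comm]⟩

private theorem locMem_add (hy : y ∈ v.toValuationSubring) {w w' : F} (h : LocMem v r y w)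
    (h' : LocMem v r y w') : LocMem v r y (w + w') := by
  obtain ⟨b, hb, s, hs, hs0, rfl⟩ := h
  obtain ⟨b', hb', s', hs', hs0', rfl⟩ := h'
  refine ⟨b * s' + s * b', add_mem (mul_mem hb hs') (mul_mem hs hb'), s * s', mul_mem hs hs', ?_,
    ?_⟩
  · rw [val_mul (mem_of_mem_locGen hy hs) (mem_of_mem_locGen hy hs')]
    exact mul_ne_zero hs0 hs0'
  · rw [div_add_div _ _ ((val_ne_zero_iff (mem_of_mem_locGen hy hs)).mp hs0).1
      ((val_ne_zero_iff (mem_of_mem_locGen hy hs')).mp hs0').1]

private theorem mem_of_locMem (hy : y ∈ v.toValuationSubring) {w : F} (h : LocMem v r y w) :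
    w ∈ v.toValuationSubring := by
  obtain ⟨b, hb, s, hs, hs0, rfl⟩ := h
  rw [div_eq_mul_inv]
  exact mul_mem (mem_of_mem_locGen hy hb) (mem_inv_of_val_ne_zero (mem_of_mem_locGen hy hs) hs0)

private theorem locGood_aeval (hr : r ∈ v.toValuationSubring) (p : K[X]) :
    LocGood v r y (aeval r p) := by
  obtain ⟨q, hq⟩ := X_sub_C_dvd_sub_C_eval (a := val v r) (p := p)
  refine ⟨aeval r q, locMem_of _ (aeval_mem_locGen hr q), ?_⟩
  rw [(aeval_mem_and_val hr p).2]
  simpa using congrArg (aeval r) hq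

private theorem locGood_rational (hr : r ∈ v.toValuationSubring) (hy : y ∈ v.toValuationSubring)
    (hrt : Transcendental K r) {x : F} (hx : x ∈ K⟮r⟯) (hxO : x ∈ v.toValuationSubring) :
    LocGood v r y x := by
  rcases eq_or_ne x 0 with rfl | hx0
  · exact ⟨0, locMem_of 0 (zero_mem _), by simp [val_zero]⟩
  obtain ⟨p₀, q₀, hpq⟩ := (mem_adjoin_simple_iff (F := K) x).mp hx
  have hq₀ : q₀ ≠ 0 := by rintro rfl; simp [hx0] at hpq
  obtain ⟨q, p, c, hcop, rfl, rfl⟩ := UniqueFactorizationMonoid.exists_reduced_factors q₀ hq₀ p₀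
  have hc : c ≠ 0 := left_ne_zero_of_mul hq₀
  have hq : q ≠ 0 := right_ne_zero_of_mul hq₀
  have hc' : aeval r c ≠ 0 := fun h => hc (transcendental_iff.mp hrt c h)
  have hq' : aeval r q ≠ 0 := fun h => hq (transcendental_iff.mp hrt q h)
  rw [map_mul, map_mul, mul_div_mul_left _ _ hc'] at hpq
  have hqa : q.eval (val v r) ≠ 0 := by
    intro h0
    have hp0 : p.eval (val v r) = 0 := by
      rw [← (aeval_mem_and_val hr p).2, show aeval r p = x * aeval r q by
        rw [hpq]; field_simp, val_mul hxO (aeval_mem_and_val hr q).1,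
        (aeval_mem_and_val hr q).2, h0, mul_zero]
    exact not_isUnit_X_sub_C (val v r) (hcop (dvd_iff_isRoot.mpr h0) (dvd_iff_isRoot.mpr hp0))
  obtain ⟨w, hw, hwe⟩ := locGood_aeval (y := y) hr (p - C (val v x) * q)
  refine ⟨w * (aeval r q)⁻¹, locMem_mul hy hw ⟨1, one_mem _, _, aeval_mem_locGen hr q,
    by rwa [(aeval_mem_and_val hr q).2], by rw [one_div]⟩, ?_⟩
  have hval : val v (aeval r (p - C (val v x) * q)) = 0 := by
    rw [(aeval_mem_and_val hr _).2, eval_sub, eval_mul, eval_C, sub_eq_zero,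
      ← (aeval_mem_and_val hr p).2, ← (aeval_mem_and_val hr q).2,
      ← val_mul hxO (aeval_mem_and_val hr q).1, hpq]
    congr 1
    field_simp
  rw [hval, map_zero, sub_zero, map_sub, map_mul, aeval_C] at hwe
  rw [← mul_assoc, ← hwe]
  nth_rw 1 [hpq]
  field_simp

private theorem locGood_primitive (hr : r ∈ v.toValuationSubring) (hy : y ∈ v.toValuationSubring)
    (hrt : Transcendental K r)
    (hg : ∀ i, (((minpoly K⟮r⟯ y).coeff i : K⟮r⟯) : F) ∈ v.toValuationSubring)
    (hd : val v (aeval y (derivative (minpoly K⟮r⟯ y))) ≠ 0) : LocGood v r y y := by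
  set G := minpoly K⟮r⟯ y
  have hlift : G.map (algebraMap K⟮r⟯ F) ∈ lifts (algebraMap (locGen v r y) F) := by
    rw [lifts_iff_coeff_lifts]
    intro i
    rw [coeff_map]
    exact ⟨⟨_, gen_mem_locGen (G.coeff i).2 (hg i)⟩, rfl⟩
  obtain ⟨Q, hQ⟩ := hlift
  rw [coe_mapRingHom] at hQ
  let yB : locGen v r y := ⟨y, y_mem_locGen⟩
  let bB : locGen v r y := algebraMap K _ (val v y)
  have hQy : Q.eval yB = 0 := by
    apply Subtype.val_injective
    show algebraMap (locGen v r y) F (Q.eval yB) = 0
    rw [← eval_map_apply, hQ, ← minpoly.aeval K⟮r⟯ y, aeval_def, eval₂_eq_eval_map]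
    rfl
  have hQ'y : algebraMap (locGen v r y) F ((derivative Q).eval yB) = aeval y (derivative G) := by
    rw [← eval_map_apply, ← derivative_map, hQ, derivative_map, aeval_def, eval₂_eq_eval_map]
    rfl
  obtain ⟨Q₁, hQ₁⟩ := X_sub_C_dvd_sub_C_eval (a := bB) (p := Q)
  have e0 := congrArg (Polynomial.eval yB) hQ₁
  simp only [eval_sub, eval_C, eval_mul, eval_X, hQy, zero_sub] at e0
  have e1 := congrArg (fun P => (derivative P).eval yB) hQ₁
  simp only [map_sub, derivative_C, sub_zero, derivative_mul, derivative_X, one_mul,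
    eval_add, eval_mul, eval_sub, eval_X, eval_C] at e1
  let vB : locGen v r y →ₐ[K] K := (valHom v).comp
    { toFun := fun b => ⟨(b : F), mem_of_mem_locGen hy b.2⟩
      map_one' := rfl
      map_mul' := fun _ _ => rfl
      map_zero' := rfl
      map_add' := fun _ _ => rfl
      commutes' := fun _ => rfl }
  have hvy : vB (yB - bB) = 0 := by
    rw [map_sub, AlgHom.commutes]
    exact sub_self _
  have hvQ₁ : vB (Q₁.eval yB) ≠ 0 := by
    have h2 : vB ((derivative Q).eval yB) = vB (Q₁.eval yB) := by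
      rw [e1, map_add, map_mul, hvy, zero_mul, add_zero]
    rw [← h2]
    show val v (algebraMap (locGen v r y) F ((derivative Q).eval yB)) ≠ 0
    rwa [hQ'y]
  have hvb : vB (Q.eval bB) = 0 := by
    rw [← neg_eq_zero, ← map_neg, e0, map_mul, hvy, zero_mul]
  -- `Q(b)` is divisible by `r - a`
  have hdiv : ∃ w, LocMem v r y w ∧
      ((Q.eval bB : locGen v r y) : F) = (r - algebraMap K F (val v r)) * w := by
    have hcoef : ∀ i, LocGood v r y ((Q.coeff i : locGen v r y) : F) := fun i => by
      have hi : ((Q.coeff i : locGen v r y) : F) = ((G.coeff i : K⟮r⟯) : F) := by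
        have := congrArg (fun P => coeff P i) hQ
        simpa [coeff_map] using this
      rw [hi]
      exact locGood_rational hr hy hrt (G.coeff i).2 (hg i)
    choose w hw hwe using hcoef
    refine ⟨∑ i ∈ Q.support, w i * algebraMap K F (val v y ^ i), ?_, ?_⟩
    · refine Finset.sum_induction _ _ (fun _ _ => locMem_add hy)
        (locMem_of 0 (zero_mem _)) fun i _ => ?_
      exact locMem_mul hy (hw i) (locMem_of _ ((locGen v r y).algebraMap_mem _))
    · have h0 : vB (Q.eval bB) = ∑ i ∈ Q.support, val v ((Q.coeff i : locGen v r y) : F)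
          * val v y ^ i := by
        rw [eval_eq_sum, sum_def, map_sum]
        refine Finset.sum_congr rfl fun i _ => ?_
        rw [map_mul, map_pow, AlgHom.commutes]
        rfl
      have h1 : ((Q.eval bB : locGen v r y) : F) = ∑ i ∈ Q.support,
          ((Q.coeff i : locGen v r y) : F) * algebraMap K F (val v y ^ i) := by
        rw [eval_eq_sum, sum_def]
        simp [bB]
      rw [hvb] at h0
      rw [h1, Finset.mul_sum, ← sub_zero (∑ i ∈ Q.support, _), ← map_zero (algebraMap K F), h0,
        map_sum, ← Finset.sum_sub_distrib]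
      refine Finset.sum_congr rfl fun i _ => ?_
      rw [← mul_assoc, ← hwe, map_mul]
      ring
  obtain ⟨w, hw, hwe⟩ := hdiv
  refine ⟨-w * ((Q₁.eval yB : locGen v r y) : F)⁻¹, locMem_mul hy ?_ ⟨1, one_mem _, _,
    (Q₁.eval yB).2, hvQ₁, by rw [one_div]⟩, ?_⟩
  · rw [neg_eq_neg_one_mul]
    exact locMem_mul hy (locMem_of _ (neg_mem (one_mem _))) hw
  · have hne := ((val_ne_zero_iff (mem_of_mem_locGen hy (Q₁.eval yB).2)).mp hvQ₁).1
    have e := congrArg (Subtype.val) e0
    push_cast at e
    rw [hwe] at e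
    simp only [yB, bB, Subalgebra.coe_algebraMap] at e
    field_simp
    linear_combination -e

private theorem locGood_all (hr : r ∈ v.toValuationSubring) (hy : y ∈ v.toValuationSubring)
    (hrt : Transcendental K r) (hgy : LocGood v r y y) {f : F} (hf : f ∈ locGen v r y) :
    LocGood v r y f := by
  refine Algebra.adjoin_induction ?_ ?_ ?_ ?_ hf
  · rintro x (⟨hx, hxO⟩ | rfl)
    · exact locGood_rational hr hy hrt hx hxO
    · exact hgy
  · intro c
    exact ⟨0, locMem_of 0 (zero_mem _), by simp⟩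
  · rintro f g hf hg ⟨w, hw, hwe⟩ ⟨w', hw', hwe'⟩
    refine ⟨w + w', locMem_add hy hw hw', ?_⟩
    rw [val_add (mem_of_mem_locGen hy hf) (mem_of_mem_locGen hy hg), map_add, mul_add, ← hwe,
      ← hwe']
    ring
  · rintro f g hf hg ⟨w, hw, hwe⟩ ⟨w', hw', hwe'⟩
    refine ⟨w * g + algebraMap K F (val v f) * w', locMem_add hy
      (locMem_mul hy hw (locMem_of g hg))
      (locMem_mul hy (locMem_of _ ((locGen v r y).algebraMap_mem _)) hw'), ?_⟩
    rw [val_mul (mem_of_mem_locGen hy hf) (mem_of_mem_locGen hy hg), map_mul]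
    linear_combination g * hwe + algebraMap K F (val v f) * hwe'

end

variable [CharZero K] [FF.IsFunctionField K F]

/-- A transcendental function is unramified at all but finitely many places. -/
theorem finite_ramified {r : F} (hr : Transcendental K r) :
    {v : Place K F | r ∈ v.toValuationSubring ∧
      v.ord (r - algebraMap K F (val v r)) ≠ 1}.Finite := by
  classical
  have := FF.finiteDimensional_adjoin hr
  have : CharZero K⟮r⟯ := charZero_of_injective_algebraMap (algebraMap K K⟮r⟯).injective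
  obtain ⟨y, hy⟩ := Field.exists_primitive_element K⟮r⟯ F
  have hint : IsIntegral K⟮r⟯ y := Algebra.IsIntegral.isIntegral y
  set G := minpoly K⟮r⟯ y with hG
  have hd : aeval y (derivative G) ≠ 0 :=
    Separable.aeval_derivative_ne_zero (Algebra.IsSeparable.isSeparable K⟮r⟯ y) (minpoly.aeval _ _)
  set bad : Set (Place K F) := {v | r ∉ v.toValuationSubring} ∪ {v | y ∉ v.toValuationSubring} ∪
    (⋃ i ∈ G.support, {v | ((G.coeff i : K⟮r⟯) : F) ∉ v.toValuationSubring}) ∪
    {v | v.ord (aeval y (derivative G)) ≠ 0} with hbad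
  have hpoles : ∀ f : F, {v : Place K F | f ∉ v.toValuationSubring}.Finite := by
    intro f
    rcases eq_or_ne f 0 with rfl | hf
    · simp
    · exact (FF.finite_setOf_ord_ne_zero hf).subset fun v hv => (notMem_iff_ord_neg.mp hv).ne
  refine Set.Finite.subset (s := bad) ?_ fun v hv => ?_
  · exact (((hpoles r).union (hpoles y)).union
      (G.support.finite_toSet.biUnion fun i _ => hpoles _)).union
      (FF.finite_setOf_ord_ne_zero hd)
  by_contra hvb
  simp only [hbad, Set.mem_union, Set.mem_ofPred_eq, Set.mem_iUnion, exists_prop, not_or, not_not,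
    not_exists, not_and] at hvb
  obtain ⟨⟨⟨hrO, hyO⟩, hgO⟩, hdO⟩ := hvb
  apply hv.2
  have hgy : LocGood v r y y := by
    refine locGood_primitive hrO hyO hr (fun i => ?_) ?_
    · by_cases hi : i ∈ G.support
      · exact hgO i hi
      · rw [notMem_support_iff.mp hi]
        exact zero_mem _
    · exact (val_ne_zero_iff (mem_of_ord_nonneg hdO.ge)).mpr ⟨hd, hdO⟩
  set u₀ : F := r - algebraMap K F (val v r) with hu₀
  have hu₀0 : u₀ ≠ 0 := fun h =>
    hr (by rw [sub_eq_zero.mp h]; exact isAlgebraic_algebraMap _)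
  have he : 0 < v.ord u₀ :=
    (ord_sub_val_pos hrO).resolve_left fun h => hu₀0 (sub_eq_zero.mpr h)
  -- every order on the ring generated by `y` and the regular functions of `r` is a multiple
  have hmul : ∀ (k : ℕ) (f : F), f ∈ locGen v r y → v.ord f ≤ k → v.ord u₀ ∣ v.ord f := by
    intro k
    induction k using Nat.strong_induction_on with
    | _ k ih =>
      intro f hf hk
      rcases eq_or_ne f 0 with rfl | hf0
      · simp
      have hfO := mem_of_mem_locGen hyO hf
      by_cases hz : val v f = 0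
      · obtain ⟨w, ⟨b, hb, s, hs, hs0, rfl⟩, hwe⟩ := locGood_all hrO hyO hr hgy hf
        rw [hz, map_zero, sub_zero, ← hu₀] at hwe
        have hb0 : b ≠ 0 := fun h => hf0 (by rw [hwe, h]; simp)
        have hs' := (val_ne_zero_iff (mem_of_mem_locGen hyO hs)).mp hs0
        have hof : v.ord f = v.ord u₀ + v.ord b := by
          rw [hwe, v.ord_mul hu₀0 (div_ne_zero hb0 hs'.1), ord_div hb0 hs'.1, hs'.2, sub_zero]
        have hbn := ord_nonneg_of_mem (mem_of_mem_locGen hyO hb)
        rw [hof]
        exact dvd_add dvd_rfl (ih (v.ord b).toNat (by omega) b hb (by omega))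
      · rw [((val_ne_zero_iff hfO).mp hz).2]
        exact dvd_zero _
  obtain ⟨π, hπ0, hπ⟩ := FF.exists_ord_eq_one v
  obtain ⟨P, hP⟩ : ∃ P : K⟮r⟯[X], aeval y P = π := by
    have : π ∈ (K⟮r⟯⟮y⟯).toSubalgebra := by rw [hy]; trivial
    rw [adjoin_simple_toSubalgebra_of_isAlgebraic hint.isAlgebraic,
      Algebra.adjoin_singleton_eq_range_aeval] at this
    exact this
  choose N hN using fun i => show ∃ N : ℕ, ((P.coeff i : K⟮r⟯) : F) * u₀ ^ N ∈
      v.toValuationSubring from by
    refine ⟨(-v.ord ((P.coeff i : K⟮r⟯) : F)).toNat, ?_⟩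
    rcases eq_or_ne ((P.coeff i : K⟮r⟯) : F) 0 with h | h
    · rw [h, zero_mul]; exact zero_mem _
    refine mem_of_ord_nonneg ?_
    rw [v.ord_mul h (pow_ne_zero _ hu₀0), ord_pow]
    have : ((-v.ord ((P.coeff i : K⟮r⟯) : F)).toNat : ℤ)
        ≤ (-v.ord ((P.coeff i : K⟮r⟯) : F)).toNat * v.ord u₀ :=
      le_mul_of_one_le_right (by positivity) he
    omega
  set M := P.support.sup N with hM
  have hmem : π * u₀ ^ M ∈ locGen v r y := by
    rw [← hP, aeval_eq_sum_range, Finset.sum_mul]
    refine sum_mem fun i hi => ?_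
    by_cases hi' : i ∈ P.support
    · have hle : N i ≤ M := Finset.le_sup hi'
      rw [Algebra.smul_def, show algebraMap K⟮r⟯ F (P.coeff i) * y ^ i * u₀ ^ M
        = (algebraMap K⟮r⟯ F (P.coeff i) * u₀ ^ M) * y ^ i by ring]
      refine mul_mem (gen_mem_locGen ?_ ?_) (pow_mem y_mem_locGen _)
      · exact mul_mem (P.coeff i).2 (pow_mem (sub_mem (mem_adjoin_simple_self K r)
          (IntermediateField.algebraMap_mem _ _)) _)
      · rw [← Nat.add_sub_cancel' hle, pow_add, ← mul_assoc]
        exact mul_mem (hN i) (pow_mem (sub_mem hrO (v.algebraMap_mem' _)) _)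
    · rw [notMem_support_iff.mp hi', zero_smul, zero_mul]
      exact zero_mem _
  have ho : v.ord (π * u₀ ^ M) = 1 + M * v.ord u₀ := by
    rw [v.ord_mul hπ0 (pow_ne_zero _ hu₀0), ord_pow, hπ]
  have hdvd := hmul _ _ hmem (Int.self_le_toNat _)
  rw [ho] at hdvd
  have h1 : v.ord u₀ ∣ (1 : ℤ) := by simpa using dvd_sub hdvd (dvd_mul_left (v.ord u₀) (M : ℤ))
  exact le_antisymm (Int.le_of_dvd one_pos h1) he

end Fermat.Agent.AJ
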