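import Fermat.Agent.AJ.Setup
import Fermat.Agent.FF.RiemannRoch

/-!
# Riemann's theorem for function fields
-/

set_option autoImplicit false

open AlgebraicCurve

namespace Fermat.Agent.AJ

theorem riemann (K F : Type*) [Field K] [Field F] [Algebra K F] [IsAlgClosed K]
    [FF.IsFunctionField K F] : Riemann K F where
  finite_L D := inferInstance
  finite_H1 := inferInstance
  le_finrank D := FF.le_finrank_riemannRochSpace D
  large := ⟨2 * (genusFF K F : ℤ) - 1, fun D hD => by
    refine ⟨FF.finrank_riemannRochSpace_of_lt_degree (by omega), ?_⟩
    have : Module.Finite K (H1 D) := FF.finite_h1 D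
    have h := FF.h1_eq_zero_of_lt_degree (D := D) (by omega)
    rw [Module.finrank_zero_iff] at h
    exact Submodule.Quotient.subsingleton_iff.mp h⟩

end Fermat.Agent.AJ
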