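import Fermat.Agent.AJ.Val
import Fermat.Agent.FF.Approximation
import Fermat.Agent.FF.RiemannRochBasic

/-!
# Linear systems with simple zeros, classes of polar parts in `H¹(0)`
-/

set_option autoImplicit false

noncomputable section

open AlgebraicCurve

namespace Fermat.Agent.AJ

variable (K F : Type*) [Field K] [Field F] [Algebra K F]

/-- Riemann's theorem, as it is used for the Abel–Jacobi map. -/
structure Riemann : Prop where
  finite_L : ∀ D : Divisor K F, Module.Finite K (riemannRochSpace D)
  finite_H1 : Module.Finite K (H1 (0 : Divisor K F))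
  le_finrank : ∀ D : Divisor K F,
    Divisor.degree D + 1 - genusFF K F ≤ (Module.finrank K (riemannRochSpace D) : ℤ)
  large : ∃ c : ℤ, ∀ D : Divisor K F, c ≤ Divisor.degree D →
    (Module.finrank K (riemannRochSpace D) : ℤ) = Divisor.degree D + 1 - genusFF K F ∧
      repartitionsOf D ⊔ principalRepartitions K F = ⊤

variable {K F}

/-- The reduced divisor of a finite set of places. -/
def pts (S : Finset (Place K F)) : Divisor K F := ∑ v ∈ S, Finsupp.single v 1

theorem pts_apply [DecidableEq (Place K F)] (S : Finset (Place K F)) (v : Place K F) :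
    pts S v = if v ∈ S then 1 else 0 := by
  simp only [pts, Finsupp.finsetSum_apply, Finsupp.single_apply]
  rw [Finset.sum_ite_eq']

theorem pts_apply_mem {S : Finset (Place K F)} {v : Place K F} (h : v ∈ S) : pts S v = 1 := by
  classical
  simp [pts_apply, h]

theorem pts_apply_notMem {S : Finset (Place K F)} {v : Place K F} (h : v ∉ S) :
    pts S v = 0 := by
  classical
  simp [pts_apply, h]

theorem pts_nonneg (S : Finset (Place K F)) : 0 ≤ pts S := fun v => by
  by_cases h : v ∈ S
  · simp [pts_apply_mem h]
  · simp [pts_apply_notMem h]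

variable [IsAlgClosed K] [IsCurveOver K F]

theorem deg_eq_one (v : Place K F) : v.deg = 1 := IsCurveOver.deg_eq_one_of_isAlgClosed v

theorem degree_eq_sum (D : Divisor K F) : Divisor.degree D = D.sum fun _ n => n := by
  simp [Divisor.degree, deg_eq_one]

theorem degree_pts (S : Finset (Place K F)) : Divisor.degree (pts S) = S.card := by
  simp [pts, map_sum, deg_eq_one]

theorem degree_single' (v : Place K F) (n : ℤ) :
    Divisor.degree (Finsupp.single v n) = n := by
  simp [deg_eq_one]

/-- A function in `L(D)` that gains an order on a set of `deg D` places has no further zero. -/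
theorem ord_add_eq_of_card {D : Divisor K F} {f : F} (hf : f ≠ 0)
    (hD : f ∈ riemannRochSpace D) {S : Finset (Place K F)}
    (hS : ∀ v ∈ S, 1 ≤ v.ord f + D v) :
    (S.card : ℤ) ≤ Divisor.degree D ∧ (Divisor.degree D ≤ S.card →
      (∀ v ∈ S, v.ord f + D v = 1) ∧ ∀ v ∉ S, v.ord f + D v = 0) := by
  obtain ⟨E, hE, hE0⟩ := HasPrincipalDivisors.exists_divisor (K := K) f hf
  have key : 0 ≤ E + D - pts S := by
    intro v
    simp only [Finsupp.coe_zero, Pi.zero_apply, Finsupp.coe_sub, Finsupp.coe_add, Pi.sub_apply,
      Pi.add_apply, hE v]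
    by_cases hv : v ∈ S
    · have := hS v hv
      rw [pts_apply_mem hv]
      omega
    · have := ((mem_riemannRochSpace_iff.mp hD) v).resolve_left hf
      rw [pts_apply_notMem hv]
      omega
  have hdeg : Divisor.degree (E + D - pts S) = Divisor.degree D - S.card := by
    rw [map_sub, map_add, hE0, degree_pts, zero_add]
  have hnn : 0 ≤ Divisor.degree (E + D - pts S) := by
    rw [degree_eq_sum]
    exact Finset.sum_nonneg fun v _ => key v
  refine ⟨by omega, fun hle => ?_⟩
  have hz : ∀ v, (E + D - pts S) v = 0 := by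
    intro v
    by_contra hv
    have h0 : Divisor.degree (E + D - pts S) = 0 := by omega
    rw [degree_eq_sum] at h0
    exact hv ((Finset.sum_eq_zero_iff_of_nonneg fun w _ => key w).mp h0 v
      (Finsupp.mem_support_iff.mpr hv))
  constructor
  · intro v hv
    have := hz v
    simp only [Finsupp.coe_sub, Finsupp.coe_add, Pi.sub_apply, Pi.add_apply, hE v,
      pts_apply_mem hv] at this
    omega
  · intro v hv
    have := hz v
    simp only [Finsupp.coe_sub, Finsupp.coe_add, Pi.sub_apply, Pi.add_apply, hE v,
      pts_apply_notMem hv] at this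
    omega

theorem eq_algebraMap_of_mem_L_zero {f : F} (h : f ∈ riemannRochSpace (0 : Divisor K F))
    (v : Place K F) : f = algebraMap K F (val v f) := by
  by_contra hne
  have hmem : f ∈ v.toValuationSubring :=
    mem_iff_ord_nonneg.mpr <| (mem_riemannRochSpace_iff.mp h v).imp_right (by simp)
  have hpos := (ord_sub_val_pos hmem).resolve_left hne
  have h2 : f - algebraMap K F (val v f) ∈ riemannRochSpace (0 : Divisor K F) := by
    refine Submodule.sub_mem _ h (mem_riemannRochSpace_iff.mpr fun w => Or.inr ?_)
    simp [ord_algebraMap]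
  have := (ord_add_eq_of_card (sub_ne_zero.mpr hne) h2 (S := {v}) fun w hw => by
    rw [Finset.mem_singleton.mp hw]
    simp only [Finsupp.coe_zero, Pi.zero_apply, add_zero]
    omega).1
  simp at this

/-! ### Classes of polar parts -/

/-- The class in `H¹(0)` of the repartition that is `f` at `v` and `0` elsewhere. -/
def cls (v : Place K F) : F →ₗ[K] H1 (0 : Divisor K F) :=
  (Submodule.mkQ _).comp (FF.singleRep v)

omit [IsAlgClosed K] [IsCurveOver K F] in
theorem cls_eq_zero {v : Place K F} {f : F} (h : f ∈ v.toValuationSubring) : cls v f = 0 :=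
  (Submodule.Quotient.mk_eq_zero _).mpr <| Submodule.mem_sup_left <|
    FF.singleRep_mem_repartitionsOf (by simpa using v.adicValuation_le_one_of_mem h)

omit [IsAlgClosed K] [IsCurveOver K F] in
theorem cls_congr {v : Place K F} {f g : F} (h : f - g ∈ v.toValuationSubring) :
    cls v f = cls v g := by
  rw [← sub_eq_zero, ← map_sub]
  exact cls_eq_zero h

omit [IsAlgClosed K] [IsCurveOver K F] in
theorem sum_cls_eq_zero {S : Finset (Place K F)} {g : F}
    (h : ∀ v ∉ S, g ∈ v.toValuationSubring) : ∑ v ∈ S, cls v g = 0 := by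
  classical
  show ∑ v ∈ S, Submodule.mkQ _ (FF.singleRep v g) = 0
  rw [← map_sum, Submodule.mkQ_apply, Submodule.Quotient.mk_eq_zero]
  refine Submodule.mem_sup.mpr ⟨_, ?_, _, FF.constRep_mem_principalRepartitions g,
    sub_add_cancel _ (FF.constRep K g)⟩
  intro w
  show w.adicValuation
    (((∑ v ∈ S, FF.singleRep v g : ↥(repartitions K F)) : Place K F → F) w - g) ≤ _
  rw [show ((∑ v ∈ S, FF.singleRep v g : ↥(repartitions K F)) : Place K F → F) w
      = ∑ v ∈ S, (FF.singleRep v g : Place K F → F) w by simp [AddSubmonoidClass.coe_finsetSum]]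
  by_cases hw : w ∈ S
  · rw [Finset.sum_eq_single_of_mem w hw fun v _ hv => FF.singleRep_apply_of_ne hv.symm g,
      FF.singleRep_apply_same, sub_self, map_zero]
    exact zero_le
  · rw [Finset.sum_eq_zero fun v hv => FF.singleRep_apply_of_ne
      (fun e => hw (by rwa [e])) g, zero_sub, Valuation.map_neg]
    simpa using w.adicValuation_le_one_of_mem (h w hw)

theorem cls_eq_smul {v : Place K F} {f t : F} (ht : v.ord t = 1)
    (h : f * t ∈ v.toValuationSubring) : cls v f = val v (f * t) • cls v t⁻¹ := by
  have ht0 : t ≠ 0 := by rintro rfl; simp at ht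
  rw [← map_smul]
  refine cls_congr ?_
  rcases ord_sub_val_pos h with e | hpos
  · rw [Algebra.smul_def, ← e, mul_assoc, mul_inv_cancel₀ ht0, mul_one, sub_self]
    exact zero_mem _
  · refine mem_of_ord_nonneg ?_
    rw [show f - val v (f * t) • t⁻¹ = (f * t - algebraMap K F (val v (f * t))) * t⁻¹ by
      rw [Algebra.smul_def]; field_simp]
    rw [v.ord_mul (fun e => by simp [e] at hpos) (inv_ne_zero ht0), v.ord_inv, ht]
    omega

/-- Polar parts at enough points span `H¹(0)`. -/
theorem span_cls_eq_top {S : Finset (Place K F)} (t : Place K F → F)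
    (ht : ∀ v ∈ S, v.ord (t v) = 1)
    (hS : repartitionsOf (pts S) ⊔ principalRepartitions K F = ⊤) :
    Submodule.span K ((fun v : Place K F => cls v (t v)⁻¹) '' (S : Set (Place K F))) = ⊤ := by
  classical
  refine Submodule.eq_top_iff'.mpr fun x => ?_
  obtain ⟨α, rfl⟩ := Submodule.Quotient.mk_surjective _ x
  have hα : α ∈ repartitionsOf (pts S) ⊔ principalRepartitions K F := by simp [hS]
  obtain ⟨β, hβ, γ, hγ, rfl⟩ := Submodule.mem_sup.mp hα
  have key : (Submodule.Quotient.mk (β + γ) : H1 (0 : Divisor K F))
      = ∑ v ∈ S, cls v ((β : Place K F → F) v) := by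
    show _ = ∑ v ∈ S, Submodule.mkQ _ (FF.singleRep v _)
    rw [← map_sum, Submodule.mkQ_apply, Submodule.Quotient.eq]
    refine Submodule.mem_sup.mpr ⟨β - ∑ v ∈ S, FF.singleRep v ((β : Place K F → F) v), ?_, γ, hγ,
      by abel⟩
    intro w
    show w.adicValuation ((β : Place K F → F) w -
      ((∑ v ∈ S, FF.singleRep v ((β : Place K F → F) v) : ↥(repartitions K F)) :
        Place K F → F) w) ≤ _
    rw [show ((∑ v ∈ S, FF.singleRep v ((β : Place K F → F) v) : ↥(repartitions K F)) :
        Place K F → F) w = ∑ v ∈ S, (FF.singleRep v ((β : Place K F → F) v) : Place K F → F) w by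
      simp [AddSubmonoidClass.coe_finsetSum]]
    by_cases hw : w ∈ S
    · rw [Finset.sum_eq_single_of_mem w hw fun v _ hv => FF.singleRep_apply_of_ne hv.symm _,
        FF.singleRep_apply_same, sub_self, map_zero]
      exact zero_le
    · rw [Finset.sum_eq_zero fun v hv => FF.singleRep_apply_of_ne
        (fun e => hw (by rwa [e])) _, sub_zero]
      simpa [pts_apply_notMem hw] using hβ w
  rw [key]
  refine Submodule.sum_mem _ fun v hv => ?_
  rw [cls_eq_smul (ht v hv) ?_]
  · exact Submodule.smul_mem _ _ (Submodule.subset_span ⟨v, hv, rfl⟩)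
  · rcases (mem_repartitionsOf_iff.mp hβ v) with h | h
    · simp [h]
    rcases eq_or_ne ((β : Place K F → F) v) 0 with h0 | h0
    · simp [h0]
    refine mem_of_ord_nonneg ?_
    rw [v.ord_mul h0 (fun e => by simpa [e] using ht v hv), ht v hv]
    rw [pts_apply_mem hv] at h
    omega

/-- If the polar parts at `S` are independent, `L(S)` consists of constants. -/
theorem eq_algebraMap_of_mem_L_pts {S : Finset (Place K F)} (t : Place K F → F)
    (ht : ∀ v ∈ S, v.ord (t v) = 1)
    (hind : LinearIndepOn K (fun v : Place K F => cls v (t v)⁻¹) (S : Set (Place K F)))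
    {f : F} (hf : f ∈ riemannRochSpace (pts S)) (v : Place K F) :
    f = algebraMap K F (val v f) := by
  refine eq_algebraMap_of_mem_L_zero ?_ v
  have hreg : ∀ w ∉ S, f ∈ w.toValuationSubring := fun w hw =>
    mem_iff_ord_nonneg.mpr <| (mem_riemannRochSpace_iff.mp hf w).imp_right
      (by simp [pts_apply_notMem hw])
  have hft : ∀ w ∈ S, f * t w ∈ w.toValuationSubring := by
    intro w hw
    rcases eq_or_ne f 0 with rfl | hf0
    · simp
    refine mem_of_ord_nonneg ?_
    rw [w.ord_mul hf0 (fun e => by simpa [e] using ht w hw), ht w hw]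
    have := ((mem_riemannRochSpace_iff.mp hf) w).resolve_left hf0
    rw [pts_apply_mem hw] at this
    omega
  have h0 := sum_cls_eq_zero hreg
  rw [Finset.sum_congr rfl fun w hw => cls_eq_smul (ht w hw) (hft w hw)] at h0
  have hc := linearIndepOn_finset_iff.mp hind _ h0
  refine mem_riemannRochSpace_iff.mpr fun w => ?_
  rcases eq_or_ne f 0 with h | hf0
  · exact Or.inl h
  right
  simp only [Finsupp.coe_zero, Pi.zero_apply, neg_zero]
  by_cases hw : w ∈ S
  · rcases (val_eq_zero_iff (hft w hw)).mp (hc w hw) with h | h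
    · simp only [mul_eq_zero, hf0, false_or] at h
      exact absurd (ht w hw) (by simp [h])
    · rw [w.ord_mul hf0 (fun e => by simpa [e] using ht w hw), ht w hw] at h
      omega
  · exact ord_nonneg_of_mem (hreg w hw)

end Fermat.Agent.AJ
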