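import Fermat.Agent.AJ.Linear
import Mathlib.Analysis.Complex.Basic
import Mathlib.Topology.Compactification.OnePoint.Basic

/-!
# The compact Hausdorff topology on the places of a curve over `ℂ`

The topology is the coarsest one for which all functions, seen as maps to the Riemann sphere, are
continuous. It is only ever installed as a local instance.
-/

set_option autoImplicit false

noncomputable section

open AlgebraicCurve Filter Topology OnePoint

namespace Fermat.Agent.AJ

variable {F : Type*} [Field F] [Algebra ℂ F] [IsCurveOver ℂ F]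

open scoped Classical in
/-- The value of a function at a place, in the Riemann sphere. -/
def evalPt (v : Place ℂ F) (f : F) : OnePoint ℂ :=
  if f ∈ v.toValuationSubring then ((val v f : ℂ) : OnePoint ℂ) else ∞

theorem evalPt_of_mem {v : Place ℂ F} {f : F} (h : f ∈ v.toValuationSubring) :
    evalPt v f = ((val v f : ℂ) : OnePoint ℂ) := if_pos h

theorem evalPt_of_notMem {v : Place ℂ F} {f : F} (h : f ∉ v.toValuationSubring) :
    evalPt v f = ∞ := if_neg h

theorem evalPt_eq_infty_iff {v : Place ℂ F} {f : F} :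
    evalPt v f = ∞ ↔ f ∉ v.toValuationSubring := by
  by_cases h : f ∈ v.toValuationSubring
  · simp [evalPt_of_mem h, h]
  · simp [evalPt_of_notMem h, h]

theorem evalPt_eq_coe_iff {v : Place ℂ F} {f : F} {c : ℂ} :
    evalPt v f = (c : OnePoint ℂ) ↔ f ∈ v.toValuationSubring ∧ val v f = c := by
  by_cases h : f ∈ v.toValuationSubring
  · simp [evalPt_of_mem h, h]
  · simp [evalPt_of_notMem h, h]

theorem evalPt_injective : Function.Injective (evalPt : Place ℂ F → F → OnePoint ℂ) := by
  intro v w h
  refine Place.ext (SetLike.ext fun f => ?_)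
  have := congrFun h f
  constructor <;> intro hf <;> by_contra hg
  · rw [evalPt_of_mem hf, evalPt_of_notMem hg] at this
    exact coe_ne_infty _ this
  · rw [evalPt_of_mem hf, evalPt_of_notMem hg] at this
    exact infty_ne_coe _ this

/-- Inversion of the Riemann sphere. -/
def sphereInv (a : OnePoint ℂ) : OnePoint ℂ :=
  a.elim ((0 : ℂ) : OnePoint ℂ) fun z => if z = 0 then ∞ else ((z⁻¹ : ℂ) : OnePoint ℂ)

theorem sphereInv_infty : sphereInv ∞ = ((0 : ℂ) : OnePoint ℂ) := rfl

theorem sphereInv_coe (z : ℂ) :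
    sphereInv (z : OnePoint ℂ) = if z = 0 then ∞ else ((z⁻¹ : ℂ) : OnePoint ℂ) := rfl

theorem continuous_sphereInv : Continuous sphereInv := by
  rw [OnePoint.continuous_iff]
  have h0 : ∀ᶠ z : ℂ in cocompact ℂ, z ≠ 0 :=
    (isCompact_singleton (x := (0 : ℂ))).compl_mem_cocompact
  constructor
  · rw [coclosedCompact_eq_cocompact, sphereInv_infty]
    refine (((continuous_coe (X := ℂ)).tendsto 0).comp tendsto_inv₀_cobounded).congr' ?_ |>.mono_left
      (by rw [Metric.cobounded_eq_cocompact])
    rw [Metric.cobounded_eq_cocompact]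
    filter_upwards [h0] with z hz
    simp [sphereInv_coe, hz]
  · rw [continuous_iff_continuousAt]
    intro z
    by_cases hz : z = 0
    · subst hz
      rw [ContinuousAt, sphereInv_coe, if_pos rfl, ← nhdsNE_sup_pure, tendsto_sup]
      refine ⟨?_, tendsto_pure_left.mpr fun s hs => ?_⟩
      swap
      · simpa [sphereInv_coe] using mem_of_mem_nhds hs
      have h1 : Tendsto (fun z : ℂ => ((z⁻¹ : ℂ) : OnePoint ℂ)) (𝓝[≠] 0) (𝓝 ∞) := by
        refine tendsto_coe_infty.comp ?_
        rw [coclosedCompact_eq_cocompact, ← Metric.cobounded_eq_cocompact]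
        exact tendsto_inv₀_nhdsNE_zero
      refine h1.congr' ?_
      filter_upwards [self_mem_nhdsWithin] with w hw
      simp [sphereInv_coe, show w ≠ 0 from hw]
    · refine (((continuous_coe (X := ℂ)).tendsto _).comp
        (continuousAt_inv₀ hz)).congr' ?_ |>.trans ?_
      · filter_upwards [isOpen_ne.mem_nhds hz] with w hw
        simp [sphereInv_coe, hw]
      · simp [sphereInv_coe, hz]

/-- Triples on the sphere respecting a continuous operation, closed up at infinity. -/
def opClosed (φ : ℂ → ℂ → ℂ) : Set (OnePoint ℂ × OnePoint ℂ × OnePoint ℂ) :=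
  {p | p.1 = ∞ ∨ p.2.1 = ∞ ∨ ∃ a b : ℂ, p.1 = a ∧ p.2.1 = b ∧ p.2.2 = ((φ a b : ℂ) : OnePoint ℂ)}

theorem isClosed_opClosed {φ : ℂ → ℂ → ℂ} (hφ : Continuous fun p : ℂ × ℂ => φ p.1 p.2) :
    IsClosed (opClosed φ) := by
  refine ⟨?_⟩
  have hopen : IsOpenEmbedding fun p : ℂ × ℂ × OnePoint ℂ =>
      (((p.1 : OnePoint ℂ), ((p.2.1 : OnePoint ℂ), p.2.2)) :
        OnePoint ℂ × OnePoint ℂ × OnePoint ℂ) :=
    isOpenEmbedding_coe.prodMap (isOpenEmbedding_coe.prodMap IsOpenEmbedding.id)
  have heq : (opClosed φ)ᶜ = (fun p : ℂ × ℂ × OnePoint ℂ =>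
      (((p.1 : OnePoint ℂ), ((p.2.1 : OnePoint ℂ), p.2.2)) :
        OnePoint ℂ × OnePoint ℂ × OnePoint ℂ)) ''
      {p | p.2.2 ≠ ((φ p.1 p.2.1 : ℂ) : OnePoint ℂ)} := by
    ext ⟨x, y, z⟩
    simp only [opClosed, Set.mem_compl_iff, Set.mem_ofPred_eq, Set.mem_image, Prod.exists,
      Prod.mk.injEq, not_or, not_exists, not_and]
    constructor
    · rintro ⟨hx, hy, h⟩
      obtain ⟨a, rfl⟩ := ne_infty_iff_exists.mp hx
      obtain ⟨b, rfl⟩ := ne_infty_iff_exists.mp hy
      exact ⟨a, b, z, h a b rfl rfl, rfl, rfl, rfl⟩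
    · rintro ⟨a, b, c, hc, rfl, rfl, rfl⟩
      refine ⟨coe_ne_infty _, coe_ne_infty _, fun a' b' ha hb => ?_⟩
      rw [← coe_injective ha, ← coe_injective hb]
      exact hc
  rw [heq]
  exact hopen.isOpenMap _ (isOpen_ne_fun (continuous_snd.comp continuous_snd)
    (continuous_coe.comp (hφ.comp (continuous_fst.prodMk (continuous_fst.comp continuous_snd)))))

variable (F) in
/-- The topology of the Riemann surface of `F`. -/
@[reducible] def placeTopology : TopologicalSpace (Place ℂ F) :=
  TopologicalSpace.induced evalPt inferInstance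

attribute [local instance] placeTopology

theorem isEmbedding_evalPt : IsEmbedding (evalPt : Place ℂ F → F → OnePoint ℂ) :=
  ⟨⟨rfl⟩, evalPt_injective⟩

theorem continuous_evalPt (f : F) : Continuous fun v : Place ℂ F => evalPt v f :=
  (continuous_apply f).comp isEmbedding_evalPt.continuous

theorem t2Space_place : T2Space (Place ℂ F) := isEmbedding_evalPt.t2Space

theorem isOpen_regular (f : F) : IsOpen {v : Place ℂ F | f ∈ v.toValuationSubring} := by
  have : {v : Place ℂ F | f ∈ v.toValuationSubring} = (fun v => evalPt v f) ⁻¹' {∞}ᶜ := by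
    ext v
    simp [evalPt_eq_infty_iff]
  rw [this]
  exact isClosed_infty.isOpen_compl.preimage (continuous_evalPt f)

theorem continuousAt_val {v : Place ℂ F} {f : F} (h : f ∈ v.toValuationSubring) :
    ContinuousAt (fun w : Place ℂ F => val w f) v := by
  rw [ContinuousAt, isOpenEmbedding_coe.isInducing.tendsto_nhds_iff]
  have := (continuous_evalPt f).tendsto v
  rw [evalPt_of_mem h] at this
  refine this.congr' ?_
  filter_upwards [(isOpen_regular f).mem_nhds h] with w hw
  exact evalPt_of_mem hw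

/-- The conditions cutting out the places among all functions `F → sphere`. -/
def placeSet : Set (F → OnePoint ℂ) :=
  {e | (∀ c : ℂ, e (algebraMap ℂ F c) = (c : OnePoint ℂ)) ∧
    (∀ f g, (e f, e g, e (f + g)) ∈ opClosed (· + ·)) ∧
    (∀ f g, (e f, e g, e (f * g)) ∈ opClosed (· * ·)) ∧
    ∀ f, f ≠ 0 → e f⁻¹ = sphereInv (e f)}

omit [IsCurveOver ℂ F] in
theorem isClosed_placeSet : IsClosed (placeSet (F := F)) := by
  simp only [placeSet, Set.ofPred_and, Set.ofPred_forall]
  refine (isClosed_iInter fun c => isClosed_eq (continuous_apply _) continuous_const).inter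
    ((isClosed_iInter fun f => isClosed_iInter fun g => ?_).inter
      ((isClosed_iInter fun f => isClosed_iInter fun g => ?_).inter
        (isClosed_iInter fun f => isClosed_iInter fun _ => isClosed_eq (continuous_apply _)
          (continuous_sphereInv.comp (continuous_apply _)))))
  · exact (isClosed_opClosed (by fun_prop)).preimage (by fun_prop)
  · exact (isClosed_opClosed (by fun_prop)).preimage (by fun_prop)

theorem evalPt_mem_placeSet (v : Place ℂ F) : evalPt v ∈ placeSet := by
  refine ⟨fun c => by rw [evalPt_of_mem (v.algebraMap_mem' c), val_algebraMap], fun f g => ?_,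
    fun f g => ?_, fun f hf0 => ?_⟩
  · by_cases hf : f ∈ v.toValuationSubring
    swap
    · exact Or.inl (evalPt_of_notMem hf)
    by_cases hg : g ∈ v.toValuationSubring
    swap
    · exact Or.inr (Or.inl (evalPt_of_notMem hg))
    exact Or.inr (Or.inr ⟨_, _, evalPt_of_mem hf, evalPt_of_mem hg,
      by rw [evalPt_of_mem (add_mem hf hg), val_add hf hg]⟩)
  · by_cases hf : f ∈ v.toValuationSubring
    swap
    · exact Or.inl (evalPt_of_notMem hf)
    by_cases hg : g ∈ v.toValuationSubring
    swap
    · exact Or.inr (Or.inl (evalPt_of_notMem hg))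
    exact Or.inr (Or.inr ⟨_, _, evalPt_of_mem hf, evalPt_of_mem hg,
      by rw [evalPt_of_mem (mul_mem hf hg), val_mul hf hg]⟩)
  · by_cases hf : f ∈ v.toValuationSubring
    · rw [evalPt_of_mem hf, sphereInv_coe]
      by_cases h0 : val v f = 0
      · rw [if_pos h0]
        rcases (val_eq_zero_iff hf).mp h0 with e | hpos
        · exact absurd e hf0
        · exact evalPt_of_notMem (notMem_iff_ord_neg.mpr (by rw [v.ord_inv]; omega))
      · rw [if_neg h0, evalPt_of_mem (mem_inv_of_val_ne_zero hf h0), val_inv hf h0]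
    · rw [evalPt_of_notMem hf, sphereInv_infty]
      have hneg := notMem_iff_ord_neg.mp hf
      have hinv : f⁻¹ ∈ v.toValuationSubring := mem_of_ord_nonneg (by rw [v.ord_inv]; omega)
      rw [evalPt_of_mem hinv, (val_eq_zero_iff hinv).mpr (Or.inr (by rw [v.ord_inv]; omega))]

section Compact

variable [FF.IsFunctionField ℂ F]

theorem exists_place_of_mem_placeSet {e : F → OnePoint ℂ} (he : e ∈ placeSet) :
    ∃ v : Place ℂ F, evalPt v = e := by
  obtain ⟨hc, hadd, hmul, hinv⟩ := he
  have hadd' : ∀ {f g : F} {a b : ℂ}, e f = a → e g = b → e (f + g) = ((a + b : ℂ) : OnePoint ℂ) := by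
    intro f g a b hf hg
    rcases hadd f g with h | h | ⟨a', b', h1, h2, h3⟩
    · exact absurd (hf.symm.trans h) (coe_ne_infty _)
    · exact absurd (hg.symm.trans h) (coe_ne_infty _)
    · change e (f + g) = _ at h3
      rw [h3, coe_injective (hf.symm.trans h1), coe_injective (hg.symm.trans h2)]
  have hmul' : ∀ {f g : F} {a b : ℂ}, e f = a → e g = b → e (f * g) = ((a * b : ℂ) : OnePoint ℂ) := by
    intro f g a b hf hg
    rcases hmul f g with h | h | ⟨a', b', h1, h2, h3⟩
    · exact absurd (hf.symm.trans h) (coe_ne_infty _)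
    · exact absurd (hg.symm.trans h) (coe_ne_infty _)
    · change e (f * g) = _ at h3
      rw [h3, coe_injective (hf.symm.trans h1), coe_injective (hg.symm.trans h2)]
  let A : ValuationSubring F :=
    { carrier := {f | ∃ a : ℂ, e f = a}
      mul_mem' := fun ⟨_, hf⟩ ⟨_, hg⟩ => ⟨_, hmul' hf hg⟩
      one_mem' := ⟨1, by simpa using hc 1⟩
      add_mem' := fun ⟨_, hf⟩ ⟨_, hg⟩ => ⟨_, hadd' hf hg⟩
      zero_mem' := ⟨0, by simpa using hc 0⟩
      neg_mem' := fun {f} ⟨a, hf⟩ => ⟨(-1) * a, by
        have := hmul' (hc (-1)) hf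
        simpa using this⟩
      mem_or_inv_mem' := fun f => by
        by_cases h : e f = ∞
        · rcases eq_or_ne f 0 with rfl | hf
          · exact Or.inl ⟨0, by simpa using hc 0⟩
          · exact Or.inr ⟨0, by rw [hinv f hf, h, sphereInv_infty]⟩
        · exact Or.inl ((ne_infty_iff_exists.mp h).imp fun a ha => ha.symm) }
  have hmemA : ∀ f, f ∈ A ↔ ∃ a : ℂ, e f = a := fun f => Iff.rfl
  have hne : A ≠ ⊤ := by
    intro htop
    obtain ⟨x, hx, -⟩ := FF.IsFunctionField.exists_transcendental (K := ℂ) (F := F)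
    obtain ⟨a, ha⟩ := (hmemA x).mp (htop ▸ ValuationSubring.mem_top x)
    set u := x - algebraMap ℂ F a with hu
    have hu0 : u ≠ 0 := fun h => hx (by rw [sub_eq_zero.mp h]; exact isAlgebraic_algebraMap a)
    have h1 : e u = ((0 : ℂ) : OnePoint ℂ) := by
      have := hadd' ha (hc (-a))
      rwa [map_neg, ← sub_eq_add_neg, add_neg_cancel] at this
    obtain ⟨b, hb⟩ := (hmemA u⁻¹).mp (htop ▸ ValuationSubring.mem_top u⁻¹)
    rw [hinv u hu0, h1, sphereInv_coe, if_pos rfl] at hb
    exact infty_ne_coe _ hb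
  let v : Place ℂ F := FF.placeOfValuationSubring A (fun c => ⟨c, hc c⟩) hne
  have hvA : ∀ f, f ∈ v.toValuationSubring ↔ ∃ a : ℂ, e f = a := fun f => Iff.rfl
  refine ⟨v, funext fun f => ?_⟩
  by_cases hf : f ∈ v.toValuationSubring
  · obtain ⟨a, ha⟩ := (hvA f).mp hf
    rw [evalPt_of_mem hf, ha, coe_eq_coe]
    by_contra hne'
    set w := f - algebraMap ℂ F a with hw
    have hwm : w ∈ v.toValuationSubring := sub_mem hf (v.algebraMap_mem' a)
    have hwv : val v w ≠ 0 := by
      rw [hw, val_sub hf (v.algebraMap_mem' a), val_algebraMap]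
      exact sub_ne_zero.mpr hne'
    obtain ⟨b, hb⟩ := (hvA w⁻¹).mp (mem_inv_of_val_ne_zero hwm hwv)
    have h1 : e w = ((0 : ℂ) : OnePoint ℂ) := by
      have := hadd' ha (hc (-a))
      rwa [map_neg, ← sub_eq_add_neg, add_neg_cancel] at this
    rw [hinv w ((val_ne_zero_iff hwm).mp hwv).1, h1, sphereInv_coe, if_pos rfl] at hb
    exact infty_ne_coe _ hb
  · rw [evalPt_of_notMem hf]
    by_contra h
    exact hf ((hvA f).mpr ((ne_infty_iff_exists.mp (Ne.symm h)).imp fun a ha => ha.symm))

theorem compactSpace_place : CompactSpace (Place ℂ F) := by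
  refine ⟨isEmbedding_evalPt.isCompact_iff.mpr ?_⟩
  have : evalPt '' (Set.univ : Set (Place ℂ F)) = placeSet := by
    ext e
    constructor
    · rintro ⟨v, -, rfl⟩
      exact evalPt_mem_placeSet v
    · intro he
      obtain ⟨v, hv⟩ := exists_place_of_mem_placeSet he
      exact ⟨v, trivial, hv⟩
  rw [this]
  exact isClosed_placeSet.isCompact

end Compact

end Fermat.Agent.AJ
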