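import Fermat.Agent.AJ.Local
import Fermat.Agent.AJ.Germ
import Mathlib.Analysis.Complex.AbsMax

/-!
# The Abel–Jacobi uniformisation of `Pic⁰` of a curve over `ℂ`

`Pic⁰` is the quotient of `ℂ^g` by a lattice; in particular it has `n ^ (2 g)` classes killed by
`n` and is divisible.
-/

set_option autoImplicit false

noncomputable section

open AlgebraicCurve Filter Topology

namespace Fermat.Agent.AJ

variable {F : Type*} [Field F] [Algebra ℂ F] [IsCurveOver ℂ F] [FF.IsFunctionField ℂ F]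

attribute [local instance] placeTopology

variable (A : Atlas F)

/-- A set of `g` places whose polar classes are independent. -/
def Atlas.IsBasisSet (J : Finset (Place ℂ F)) : Prop :=
  J.card = genusFF ℂ F ∧
    LinearIndepOn ℂ (fun P : Place ℂ F => cls P (A.t P)⁻¹) (J : Set (Place ℂ F))

omit [FF.IsFunctionField ℂ F] in
theorem Atlas.exists_inverse {J : Finset (Place ℂ F)} (hJ : A.IsBasisSet J) :
    ∃ S : (Fin (genusFF ℂ F) → ℂ) → (↥J → ℂ), Tendsto S (𝓝 0) (𝓝 0) ∧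
      (∀ᶠ r in 𝓝 0, S (∑ j, A.Ψ j.1 (r j)) = r) ∧
      (∀ᶠ w in 𝓝 0, ∑ j, A.Ψ j.1 (S w j) = w) := by
  let M : (↥J → ℂ) →L[ℂ] (Fin (genusFF ℂ F) → ℂ) :=
    ∑ j, (ContinuousLinearMap.proj j).smulRight (A.L (A.a j.1))
  have hM : ∀ r, M r = ∑ j, r j • A.L (A.a j.1) := fun r => by simp [M]
  have hinj : Function.Injective M := by
    rw [injective_iff_map_eq_zero]
    intro r hr
    rw [hM] at hr
    have h0 : A.L (∑ j, r j • A.a j.1) = 0 := by rw [map_sum]; simpa only [map_smul] using hr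
    rw [LinearEquiv.map_eq_zero_iff] at h0
    exact funext fun j => Fintype.linearIndependent_iff.mp hJ.2 r h0 j
  have hsurj : Function.Surjective M :=
    (LinearMap.injective_iff_surjective_of_finrank_eq_finrank (f := M.toLinearMap) (by
      rw [Module.finrank_fintype_fun_eq_card, Module.finrank_fin_fun, Fintype.card_coe, hJ.1])).mp
      hinj
  let Me : (↥J → ℂ) ≃L[ℂ] (Fin (genusFF ℂ F) → ℂ) :=
    (LinearEquiv.ofBijective M.toLinearMap ⟨hinj, hsurj⟩).toContinuousLinearEquiv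
  have hMe : (Me : (↥J → ℂ) →L[ℂ] (Fin (genusFF ℂ F) → ℂ)) = M := by
    ext r : 1
    simp [Me]
  have hΦ : HasStrictFDerivAt (fun r : ↥J → ℂ => ∑ j, A.Ψ j.1 (r j))
      (Me : (↥J → ℂ) →L[ℂ] (Fin (genusFF ℂ F) → ℂ)) 0 := by
    rw [hMe]
    refine HasStrictFDerivAt.fun_sum fun j _ => ?_
    have h1 : HasStrictDerivAt (A.Ψ j.1) (A.L (A.a j.1)) 0 := by
      have := (A.analyticAt_Ψ j.1).hasStrictDerivAt
      rwa [(A.hasDerivAt_Ψ_zero j.1).deriv] at this
    exact HasStrictFDerivAt.comp (g := A.Ψ j.1) (f := fun f : ↥J → ℂ => f j) (0 : ↥J → ℂ)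
      h1.hasStrictFDerivAt (hasStrictFDerivAt_apply j (0 : ↥J → ℂ))
  have h0 : (∑ j : J, A.Ψ j.1 ((0 : ↥J → ℂ) j)) = 0 := by simp [A.Ψ_zero]
  refine ⟨hΦ.localInverse _ Me 0, ?_, hΦ.eventually_left_inverse, ?_⟩
  · have := hΦ.localInverse_tendsto
    rwa [h0] at this
  · have := hΦ.eventually_right_inverse
    rwa [h0] at this

open scoped Classical in
/-- The local inverse of the sum of primitives on a basis set. -/
def Atlas.inv (J : Finset (Place ℂ F)) : (Fin (genusFF ℂ F) → ℂ) → (↥J → ℂ) :=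
  if h : A.IsBasisSet J then (A.exists_inverse h).choose else 0

/-- The germ of the Abel–Jacobi inverse defined by a basis set. -/
def Atlas.germ (J : Finset (Place ℂ F)) (w : Fin (genusFF ℂ F) → ℂ) : Pic0 ℂ F :=
  ∑ j, A.α j.1 (A.inv J w j)

omit [FF.IsFunctionField ℂ F] in
theorem Atlas.inv_spec {J : Finset (Place ℂ F)} (hJ : A.IsBasisSet J) :
    Tendsto (A.inv J) (𝓝 0) (𝓝 0) ∧
      (∀ᶠ r in 𝓝 0, A.inv J (∑ j, A.Ψ j.1 (r j)) = r) ∧
      (∀ᶠ w in 𝓝 0, ∑ j, A.Ψ j.1 (A.inv J w j) = w) := by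
  rw [Atlas.inv, dif_pos hJ]
  exact (A.exists_inverse hJ).choose_spec

omit [FF.IsFunctionField ℂ F] in
theorem Atlas.α_zero (P : Place ℂ F) : A.α P 0 = 0 := by
  rw [Atlas.α, (A.isChart P).map_zero, sub_self, map_zero]

variable [DecidableEq (Place ℂ F)]

/-- Extension by zero. -/
def extZero (B : Finset (Place ℂ F)) (u : ↥B → ℂ) : Place ℂ F → ℂ :=
  fun P => if h : P ∈ B then u ⟨P, h⟩ else 0

omit [IsCurveOver ℂ F] [FF.IsFunctionField ℂ F] in
theorem tendsto_extZero (B : Finset (Place ℂ F)) : Tendsto (extZero B) (𝓝 0) (𝓝 0) := by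
  rw [tendsto_pi_nhds]
  intro P
  simp only [extZero, Pi.zero_apply]
  split_ifs with h
  · exact (continuous_apply (⟨P, h⟩ : ↥B)).tendsto _
  · exact tendsto_const_nhds

omit [IsCurveOver ℂ F] [FF.IsFunctionField ℂ F] in
theorem sum_extZero {β : Type*} [AddCommMonoid β] {B I : Finset (Place ℂ F)} (hBI : B ⊆ I)
    (G : Place ℂ F → ℂ → β) (hG : ∀ P, G P 0 = 0) (u : ↥B → ℂ) :
    ∑ P ∈ I, G P (extZero B u P) = ∑ b : ↥B, G b.1 (u b) := by
  rw [← Finset.sum_subset hBI fun P _ hP => by rw [extZero, dif_neg hP, hG],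
    ← Finset.sum_coe_sort B]
  exact Finset.sum_congr rfl fun b _ => by rw [extZero, dif_pos b.2]

omit [IsCurveOver ℂ F] [FF.IsFunctionField ℂ F] in
theorem sum_extZero_add {β : Type*} [AddCommMonoid β] {B B' I : Finset (Place ℂ F)} (hBI : B ⊆ I)
    (hB'I : B' ⊆ I) (hd : Disjoint B B') (G : Place ℂ F → ℂ → β) (hG : ∀ P, G P 0 = 0)
    (u : ↥B → ℂ) (u' : ↥B' → ℂ) :
    ∑ P ∈ I, G P (extZero B u P + extZero B' u' P) =
      ∑ b : ↥B, G b.1 (u b) + ∑ b : ↥B', G b.1 (u' b) := by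
  rw [← sum_extZero hBI G hG u, ← sum_extZero hB'I G hG u', ← Finset.sum_add_distrib]
  refine Finset.sum_congr rfl fun P _ => ?_
  by_cases hP : P ∈ B
  · simp [extZero, hP, Finset.disjoint_left.mp hd hP, hG]
  · simp [extZero, hP, hG]

/-- A zero set large enough for the moving lemma. -/
structure GoodSet (c : ℤ) (Z : Finset (Place ℂ F)) : Prop where
  exists_div : ∃ (R : Place ℂ F) (h : F), IsSimpleDiv R h Z
  card_le : c + 4 * genusFF ℂ F + 1 ≤ Z.card

variable {c : ℤ}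
  (hc : ∀ D : Divisor ℂ F, c ≤ Divisor.degree D →
    (Module.finrank ℂ (riemannRochSpace D) : ℤ) = Divisor.degree D + 1 - genusFF ℂ F ∧
      repartitionsOf D ⊔ principalRepartitions ℂ F = ⊤)
include hc

omit [DecidableEq (Place ℂ F)] [FF.IsFunctionField ℂ F] in
theorem Atlas.exists_isBasisSet {S : Finset (Place ℂ F)} (hS : c ≤ S.card) :
    ∃ J, J ⊆ S ∧ A.IsBasisSet J := by
  classical
  set v := fun P : Place ℂ F => cls P (A.t P)⁻¹
  have hsp := span_cls_eq_top (S := S) A.t (fun P _ => (A.coord P).2.2)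
    (hc (pts S) (by rw [degree_pts]; exact hS)).2
  obtain ⟨b, hb, -, hbspan, hbind⟩ := exists_linearIndepOn_extension (K := ℂ) (v := v)
    (s := ∅) (t := (S : Set (Place ℂ F))) (linearIndepOn_empty ℂ v) (Set.empty_subset _)
  have hbfin : b.Finite := S.finite_toSet.subset hb
  refine ⟨hbfin.toFinset, by simpa using hb, ?_, by simpa using hbind⟩
  have htop : ⊤ ≤ Submodule.span ℂ (Set.range fun i : b => v i) := by
    rw [← hsp, ← Set.image_eq_range]
    exact Submodule.span_le.mpr hbspan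
  have := hbfin.fintype
  have := Module.finrank_eq_nat_card_basis (Module.Basis.mk hbind htop)
  rw [Nat.card_eq_card_finite_toFinset] at this
  exact this.symm

variable (hR : Riemann ℂ F)
include hR

theorem Atlas.relation {Z J : Finset (Place ℂ F)} (hZ : GoodSet c Z) (hJZ : J ⊆ Z)
    (hJ : A.IsBasisSet J) :
    ∀ᶠ z : Place ℂ F → ℂ in 𝓝 0,
      ∑ P ∈ Z \ J, A.α P (z P) + A.germ J (-∑ P ∈ Z \ J, A.Ψ P (z P)) = 0 := by
  obtain ⟨R, h, hh⟩ := hZ.exists_div
  obtain ⟨r, hr, hev⟩ := exists_move_zeros A hR hc hh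
    (by have := hZ.card_le; omega) hJZ hJ.1 hJ.2
  obtain ⟨-, hinv, -⟩ := A.inv_spec hJ
  have hres : Tendsto (fun z : Place ℂ F → ℂ => fun i : ↥(Z \ J) => z i.1) (𝓝 0) (𝓝 0) :=
    (by fun_prop : Continuous fun z : Place ℂ F → ℂ => fun i : ↥(Z \ J) => z i.1).tendsto 0
  filter_upwards [hres.eventually hev, (hr.comp hres).eventually hinv] with z hz hz'
  obtain ⟨h1, h2⟩ := hz
  rw [← Finset.sum_coe_sort (Z \ J), ← Finset.sum_coe_sort (Z \ J) fun P => A.Ψ P (z P),
    neg_eq_of_add_eq_zero_right h1, Atlas.germ]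
  simp only [Function.comp_apply] at hz'
  rw [hz']
  exact h2

theorem Atlas.relation_sub {Z J B : Finset (Place ℂ F)} (hZ : GoodSet c Z) (hJZ : J ⊆ Z)
    (hJ : A.IsBasisSet J) (hB : B ⊆ Z \ J) :
    ∀ᶠ u : ↥B → ℂ in 𝓝 0, ∑ b, A.α b.1 (u b) + A.germ J (-∑ b, A.Ψ b.1 (u b)) = 0 := by
  filter_upwards [(tendsto_extZero B).eventually (A.relation hc hR hZ hJZ hJ)] with u hu
  rwa [sum_extZero hB (fun P => A.α P) A.α_zero u, sum_extZero hB (fun P => A.Ψ P) A.Ψ_zero u]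
    at hu

theorem Atlas.germ_disjoint {Z J J' : Finset (Place ℂ F)} (hZ : GoodSet c Z) (hJZ : J ⊆ Z)
    (hJ : A.IsBasisSet J) (hJ'Z : J' ⊆ Z \ J) (hJ' : A.IsBasisSet J') :
    ∀ᶠ w in 𝓝 0, A.germ J' w + A.germ J (-w) = 0 := by
  obtain ⟨ht, -, hright⟩ := A.inv_spec hJ'
  filter_upwards [ht.eventually (A.relation_sub hc hR hZ hJZ hJ hJ'Z), hright] with w h1 h2
  rwa [h2] at h1

omit [FF.IsFunctionField ℂ F] hR in
theorem Atlas.exists_disjoint {Z : Finset (Place ℂ F)} (hZ : GoodSet c Z)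
    (U : Finset (Place ℂ F)) (hU : U.card ≤ 2 * genusFF ℂ F + 1) :
    ∃ J, J ⊆ Z \ U ∧ A.IsBasisSet J :=
  A.exists_isBasisSet hc (by
    have := hZ.card_le
    have := Finset.le_card_sdiff U Z
    omega)

theorem Atlas.germ_eq {Z J J' : Finset (Place ℂ F)} (hZ : GoodSet c Z) (hJZ : J ⊆ Z)
    (hJ : A.IsBasisSet J) (hJ'Z : J' ⊆ Z) (hJ' : A.IsBasisSet J') :
    ∀ᶠ w in 𝓝 0, A.germ J' w = A.germ J w := by
  obtain ⟨J₂, hJ₂Z, hJ₂⟩ := A.exists_disjoint hc hZ (J ∪ J') (by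
    have := Finset.card_union_le J J'
    have := hJ.1
    have := hJ'.1
    omega)
  have hd : J ⊆ Z \ J₂ ∧ J' ⊆ Z \ J₂ := by
    constructor <;> intro P hP
    · refine Finset.mem_sdiff.mpr ⟨hJZ hP, fun h => ?_⟩
      have := Finset.mem_sdiff.mp (hJ₂Z h)
      exact this.2 (Finset.mem_union_left _ hP)
    · refine Finset.mem_sdiff.mpr ⟨hJ'Z hP, fun h => ?_⟩
      have := Finset.mem_sdiff.mp (hJ₂Z h)
      exact this.2 (Finset.mem_union_right _ hP)
  have hJ₂Z' : J₂ ⊆ Z := hJ₂Z.trans Finset.sdiff_subset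
  filter_upwards [A.germ_disjoint hc hR hZ hJ₂Z' hJ₂ hd.1 hJ,
    A.germ_disjoint hc hR hZ hJ₂Z' hJ₂ hd.2 hJ'] with w h1 h2
  exact add_right_cancel (h2.trans h1.symm)

theorem Atlas.germ_neg {Z J : Finset (Place ℂ F)} (hZ : GoodSet c Z) (hJZ : J ⊆ Z)
    (hJ : A.IsBasisSet J) : ∀ᶠ w in 𝓝 0, A.germ J (-w) = -A.germ J w := by
  obtain ⟨J', hJ'Z, hJ'⟩ := A.exists_disjoint hc hZ J (by have := hJ.1; omega)
  filter_upwards [A.germ_disjoint hc hR hZ hJZ hJ hJ'Z hJ',
    A.germ_eq hc hR hZ hJZ hJ (hJ'Z.trans Finset.sdiff_subset) hJ'] with w h1 h2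
  rw [h2] at h1
  exact (neg_eq_of_add_eq_zero_right h1).symm

theorem Atlas.germ_add {Z J : Finset (Place ℂ F)} (hZ : GoodSet c Z) (hJZ : J ⊆ Z)
    (hJ : A.IsBasisSet J) :
    ∀ᶠ p : (Fin (genusFF ℂ F) → ℂ) × (Fin (genusFF ℂ F) → ℂ) in 𝓝 (0, 0),
      A.germ J (p.1 + p.2) = A.germ J p.1 + A.germ J p.2 := by
  obtain ⟨J₁, hJ₁Z, hJ₁⟩ := A.exists_disjoint hc hZ J (by have := hJ.1; omega)
  obtain ⟨J₂, hJ₂Z, hJ₂⟩ := A.exists_disjoint hc hZ (J ∪ J₁) (by
    have := Finset.card_union_le J J₁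
    have := hJ.1
    have := hJ₁.1
    omega)
  have hJ₁Z' : J₁ ⊆ Z := hJ₁Z.trans Finset.sdiff_subset
  have hJ₂Z' : J₂ ⊆ Z := hJ₂Z.trans Finset.sdiff_subset
  have hB : J₁ ∪ J₂ ⊆ Z \ J := by
    refine Finset.union_subset hJ₁Z fun P hP => ?_
    obtain ⟨h1, h2⟩ := Finset.mem_sdiff.mp (hJ₂Z hP)
    exact Finset.mem_sdiff.mpr ⟨h1, fun h => h2 (Finset.mem_union_left _ h)⟩
  have hdis : Disjoint J₁ J₂ := Finset.disjoint_left.mpr fun P h1 h2 =>
    (Finset.mem_sdiff.mp (hJ₂Z h2)).2 (Finset.mem_union_right _ h1)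
  obtain ⟨t₁, -, r₁⟩ := A.inv_spec hJ₁
  obtain ⟨t₂, -, r₂⟩ := A.inv_spec hJ₂
  set W := Fin (genusFF ℂ F) → ℂ
  let z : W × W → Place ℂ F → ℂ := fun p P =>
    extZero J₁ (A.inv J₁ p.1) P + extZero J₂ (A.inv J₂ p.2) P
  have ht : Tendsto z (𝓝 (0, 0)) (𝓝 0) := by
    have h1 := (tendsto_extZero J₁).comp (t₁.comp (continuous_fst.tendsto ((0 : W), (0 : W))))
    have h2 := (tendsto_extZero J₂).comp (t₂.comp (continuous_snd.tendsto ((0 : W), (0 : W))))
    have h3 := h1.add h2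
    rw [add_zero] at h3
    exact h3
  have hfst := continuous_fst.tendsto ((0 : W), (0 : W))
  have hsnd := continuous_snd.tendsto ((0 : W), (0 : W))
  have hsum : Tendsto (fun p : W × W => p.1 + p.2) (𝓝 (0, 0)) (𝓝 0) :=
    (by fun_prop : Continuous fun p : W × W => p.1 + p.2).tendsto' _ _ (by simp)
  filter_upwards [ht.eventually (A.relation hc hR hZ hJZ hJ), hfst.eventually r₁,
    hsnd.eventually r₂, hfst.eventually (A.germ_eq hc hR hZ hJZ hJ hJ₁Z' hJ₁),
    hsnd.eventually (A.germ_eq hc hR hZ hJZ hJ hJ₂Z' hJ₂),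
    hsum.eventually (A.germ_neg hc hR hZ hJZ hJ)] with p h1 h2 h3 h4 h5 h6
  change _ + A.germ J _ = 0 at h1
  have hd₁ := Finset.subset_union_left.trans hB
  have hd₂ := Finset.subset_union_right.trans hB
  rw [sum_extZero_add hd₁ hd₂ hdis (fun P => A.α P) A.α_zero,
    sum_extZero_add hd₁ hd₂ hdis (fun P => A.Ψ P) A.Ψ_zero, h2, h3, h6] at h1
  rw [← eq_neg_of_add_eq_zero_left h1 |>.trans (neg_neg _)]
  exact (congrArg₂ (· + ·) h4 h5)

theorem Atlas.α_eq_germ {Z J : Finset (Place ℂ F)} (hZ : GoodSet c Z) (hJZ : J ⊆ Z)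
    (hJ : A.IsBasisSet J) {P : Place ℂ F} (hP : P ∈ Z) :
    ∀ᶠ s in 𝓝 (0 : ℂ), A.α P s = A.germ J (A.Ψ P s) := by
  obtain ⟨J', hJ'Z, hJ'⟩ := A.exists_disjoint hc hZ {P} (by simp)
  have hJ'Z' : J' ⊆ Z := hJ'Z.trans Finset.sdiff_subset
  have hPB : ({P} : Finset (Place ℂ F)) ⊆ Z \ J' := by
    intro Q hQ
    rw [Finset.mem_singleton.mp hQ]
    exact Finset.mem_sdiff.mpr ⟨hP, fun h =>
      (Finset.mem_sdiff.mp (hJ'Z h)).2 (Finset.mem_singleton_self P)⟩
  have ht : Tendsto (fun s : ℂ => fun _ : ↥({P} : Finset (Place ℂ F)) => s) (𝓝 0) (𝓝 0) :=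
    (continuous_pi fun _ => continuous_id).tendsto 0
  have hΨ : Tendsto (A.Ψ P) (𝓝 0) (𝓝 0) := by
    have := (A.analyticAt_Ψ P).continuousAt.tendsto
    rwa [A.Ψ_zero] at this
  filter_upwards [ht.eventually (A.relation_sub hc hR hZ hJ'Z' hJ' hPB),
    hΨ.eventually (A.germ_neg hc hR hZ hJ'Z' hJ'),
    hΨ.eventually (A.germ_eq hc hR hZ hJZ hJ hJ'Z' hJ')] with s h1 h2 h3
  rw [Finset.univ_unique, Finset.sum_singleton, Finset.sum_singleton] at h1
  simp only [Finset.default_singleton] at h1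
  rw [h2, h3] at h1
  exact eq_of_sub_eq_zero (by rwa [sub_eq_add_neg])

omit hc [DecidableEq (Place ℂ F)] in
theorem exists_notMem_finset (S : Finset (Place ℂ F)) : ∃ R, R ∉ S := by
  classical
  by_contra h
  push Not at h
  obtain ⟨R⟩ : Nonempty (Place ℂ F) :=
    let ⟨_, hx, _⟩ := FF.IsFunctionField.exists_transcendental (K := ℂ) (F := F)
    let ⟨v, _⟩ := FF.exists_place_ord_pos hx
    ⟨v⟩
  obtain ⟨N, hN⟩ := exists_isSimpleDiv hR R ∅ (Finset.notMem_empty R)
  obtain ⟨f, Z, -, hcard, -⟩ := hN (N + S.card + 1) (by omega)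
  have := Finset.card_le_card (show Z ⊆ S from fun P _ => h P)
  omega

omit hc [DecidableEq (Place ℂ F)] in
theorem exists_goodSet (B : Finset (Place ℂ F)) : ∃ Z, B ⊆ Z ∧ GoodSet c Z := by
  obtain ⟨R, hR'⟩ := exists_notMem_finset hR B
  obtain ⟨N, hN⟩ := exists_isSimpleDiv hR R B hR'
  obtain ⟨h, Z, hBZ, hcard, hh⟩ := hN (N + c.toNat + 4 * genusFF ℂ F + 1) (by omega)
  exact ⟨Z, hBZ, ⟨R, h, hh⟩, by omega⟩

omit [DecidableEq (Place ℂ F)] in
/-- The Riemann surface is connected. -/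
theorem preconnectedSpace_place : PreconnectedSpace (Place ℂ F) := by
  classical
  have : CompactSpace (Place ℂ F) := compactSpace_place
  rw [preconnectedSpace_iff_clopen]
  intro U hU
  by_contra hne
  rw [not_or] at hne
  obtain ⟨hne₁, hne₂⟩ := hne
  obtain ⟨P, hP⟩ := (Set.ne_univ_iff_exists_notMem U).mp hne₂
  obtain ⟨Q₀, hQ₀⟩ := Set.nonempty_iff_ne_empty.mpr hne₁
  obtain ⟨A⟩ := nonempty_atlas hR P
  obtain ⟨f, hfD, hf0, hfP⟩ := exists_exact hc hR.finite_L
    (Finsupp.single P (((c + 1).toNat : ℤ) + 1)) (by rw [degree_single']; omega) {P} (by simp)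
  have hreg : ∀ Q ∈ U, f ∈ Q.toValuationSubring := fun Q hQ => by
    have : Q ≠ P := fun e => hP (e ▸ hQ)
    exact mem_of_mem_L hfD (by simp [Finsupp.single_eq_of_ne this])
  have hfPneg : P.ord f < 0 := by
    rw [hfP P (Finset.mem_singleton_self P), Finsupp.single_eq_same]
    omega
  have hcont : ContinuousOn (fun Q => ‖val Q f‖) U := fun Q hQ =>
    ((continuousAt_val (hreg Q hQ)).norm).continuousWithinAt
  obtain ⟨Q, hQU, hmax⟩ := hU.isClosed.isCompact.exists_isMaxOn ⟨Q₀, hQ₀⟩ hcont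
  have hσ := (A.isChart Q)
  have han := hσ.analytic f (hreg Q hQU)
  have hloc : IsLocalMax (norm ∘ fun s => val (A.σ Q s) f) 0 := by
    filter_upwards [hσ.tendsto.eventually (hU.isOpen.mem_nhds hQU)] with s hs
    simp only [Function.comp_apply, hσ.map_zero]
    exact hmax hs
  have hconst := Complex.eventually_eq_of_isLocalMax_norm
    (han.eventually_analyticAt.mono fun s hs => hs.differentiableAt) hloc
  set a := val (A.σ Q 0) f
  have hne : f - algebraMap ℂ F a ≠ 0 := fun h => by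
    rw [sub_eq_zero.mp h, ord_algebraMap] at hfPneg
    exact lt_irrefl 0 hfPneg
  have hfin := FF.finite_setOf_ord_ne_zero (K := ℂ) hne
  have hev := (hconst.and (hσ.coord.and (hσ.tendsto.eventually (hU.isOpen.mem_nhds hQU))))
  obtain ⟨ε, hε, hball⟩ := Metric.eventually_nhds_iff_ball.mp hev
  have hinj : Set.InjOn (A.σ Q) (Metric.ball (0 : ℂ) ε) := fun s hs s' hs' e => by
    rw [← (hball s hs).2.1.2.1, ← (hball s' hs').2.1.2.1, e]
  refine (Set.Infinite.image hinj (infinite_of_mem_nhds (0 : ℂ) (Metric.ball_mem_nhds 0 hε)))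
    (hfin.subset ?_)
  rintro _ ⟨s, hs, rfl⟩
  obtain ⟨he, -, hsU⟩ := hball s hs
  have hm := hreg _ hsU
  have h0 : val (A.σ Q s) (f - algebraMap ℂ F a) = 0 := by
    rw [val_sub hm ((A.σ Q s).algebraMap_mem' a), val_algebraMap, he, sub_self]
  have := ((val_eq_zero_iff (sub_mem hm ((A.σ Q s).algebraMap_mem' a))).mp h0).resolve_left hne
  exact this.ne'

/-- `Pic⁰` is a torus of real dimension `2 g`. -/
theorem exists_uniformisation' :
    ∃ (Φ : (Fin (genusFF ℂ F) → ℂ) →+ Pic0 ℂ F) (C : ℝ),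
      (∀ᶠ w in 𝓝 0, Φ w = 0 → w = 0) ∧ ∀ x, ∃ w, ‖w‖ ≤ C ∧ Φ w = x := by
  obtain ⟨O, -⟩ := exists_notMem_finset hR ∅
  obtain ⟨A⟩ := nonempty_atlas hR O
  obtain ⟨Z₀, -, hZ₀⟩ := exists_goodSet (c := c) hR ∅
  obtain ⟨J, hJZ₀, hJ⟩ := A.exists_isBasisSet hc (S := Z₀) (by have := hZ₀.card_le; omega)
  obtain ⟨Φ, hΦ⟩ := exists_addMonoidHom_of_germ (A.germ J) (A.germ_add hc hR hZ₀ hJZ₀ hJ)
  -- near every place the Abel–Jacobi map factors through `Φ`
  have hlocal : ∀ P, ∀ᶠ s in 𝓝 (0 : ℂ), A.α P s = Φ (A.Ψ P s) := by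
    intro P
    obtain ⟨Z, hsub, hZ⟩ := exists_goodSet (c := c) hR (insert P J)
    have hΨ : Tendsto (A.Ψ P) (𝓝 0) (𝓝 0) := by
      have := (A.analyticAt_Ψ P).continuousAt.tendsto
      rwa [A.Ψ_zero] at this
    filter_upwards [A.α_eq_germ hc hR hZ ((Finset.subset_insert P J).trans hsub) hJ
      (hsub (Finset.mem_insert_self P J)), hΨ.eventually hΦ] with s h1 h2
    rw [h1, h2]
  let pt : Place ℂ F → Pic0 ℂ F := fun Q => A.toPic0 (Finsupp.single Q 1)
  have hpt : ∀ P, ∀ᶠ Q in 𝓝 P, ∃ w, ‖w‖ ≤ 1 ∧ pt Q = pt P + Φ w := by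
    intro P
    obtain ⟨hmem, hval, -⟩ := A.coord P
    have ht : Tendsto (fun Q => val Q (A.t P)) (𝓝 P) (𝓝 0) := by
      have := (continuousAt_val hmem).tendsto
      rwa [hval] at this
    have hsmall : ∀ᶠ s in 𝓝 (0 : ℂ), ‖A.Ψ P s‖ ≤ 1 := by
      have h := (A.analyticAt_Ψ P).continuousAt.tendsto.norm
      rw [A.Ψ_zero, norm_zero] at h
      exact (h.eventually (gt_mem_nhds one_pos)).mono fun _ h => h.le
    filter_upwards [(A.isChart P).surj, ht.eventually (hlocal P), ht.eventually hsmall]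
      with Q h1 h2 h3
    refine ⟨A.Ψ P (val Q (A.t P)), h3, ?_⟩
    rw [← h2, Atlas.α, h1, map_sub]
    exact (add_sub_cancel _ _).symm
  have hclopen : IsClopen {Q | pt Q ∈ Φ.range} := by
    refine ⟨isOpen_compl_iff.mp ?_, ?_⟩
    · rw [isOpen_iff_mem_nhds]
      intro P hP
      filter_upwards [hpt P] with Q hQ hQr
      obtain ⟨w, -, hw⟩ := hQ
      refine hP ?_
      show pt P ∈ Φ.range
      rw [eq_sub_of_add_eq hw.symm]
      exact sub_mem hQr ⟨w, rfl⟩
    · rw [isOpen_iff_mem_nhds]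
      intro P hP
      filter_upwards [hpt P] with Q hQ
      obtain ⟨w, -, hw⟩ := hQ
      show pt Q ∈ Φ.range
      rw [hw]
      exact add_mem hP ⟨w, rfl⟩
  have hptO : pt A.O = 0 := by
    show A.toPic0 (Finsupp.single A.O 1) = 0
    show Pic0.mk _ = 0
    rw [← Pic0.mk_zero]
    exact congrArg Pic0.mk (Subtype.ext (by simp [deg_eq_one]))
  have := preconnectedSpace_place hc hR
  have hall : ∀ Q, pt Q ∈ Φ.range := by
    have := hclopen.eq_univ ⟨A.O, show pt A.O ∈ Φ.range by rw [hptO]; exact zero_mem _⟩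
    exact fun Q => (this ▸ Set.mem_univ Q :)
  -- a bound
  have : CompactSpace (Place ℂ F) := compactSpace_place
  obtain ⟨T, hT⟩ := isCompact_univ.elim_nhds_subcover
    (fun P => {Q | ∃ w, ‖w‖ ≤ 1 ∧ pt Q = pt P + Φ w}) (fun P _ => hpt P)
  choose lift hlift using fun P => AddMonoidHom.mem_range.mp (hall P)
  obtain ⟨C₀, hC₀⟩ : ∃ C₀ : ℝ, ∀ P ∈ T, ‖lift P‖ ≤ C₀ :=
    ⟨∑ P ∈ T, ‖lift P‖, fun P hP =>
      Finset.single_le_sum (f := fun P => ‖lift P‖) (fun _ _ => norm_nonneg _) hP⟩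
  have hbound : ∀ Q, ∃ w, ‖w‖ ≤ C₀ + 1 ∧ Φ w = pt Q := by
    intro Q
    obtain ⟨P, hPT, w, hw, hQ⟩ := Set.mem_iUnion₂.mp (hT.2 (Set.mem_univ Q))
    refine ⟨lift P + w, (norm_add_le _ _).trans (add_le_add (hC₀ P hPT) hw), ?_⟩
    rw [map_add, hlift, hQ]
  refine ⟨Φ, genusFF ℂ F * (C₀ + 1), ?_, ?_⟩
  · -- injectivity near zero
    obtain ⟨ht, -, hright⟩ := A.inv_spec hJ
    have hsep : ∀ᶠ w in 𝓝 (0 : Fin (genusFF ℂ F) → ℂ), ∀ j : ↥J,
        val (A.σ j.1 (A.inv J w j)) (A.t j.1) = A.inv J w j ∧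
        ∀ k ∈ J, k ≠ j.1 → A.σ j.1 (A.inv J w j) ≠ k := by
      rw [eventually_all]
      intro j
      have htj : Tendsto (fun w => A.inv J w j) (𝓝 0) (𝓝 0) :=
        ((continuous_apply j).tendsto _).comp ht
      have : T2Space (Place ℂ F) := t2Space_place
      refine (htj.eventually ((A.isChart j.1).coord.mono fun s hs => hs.2.1)).and
        ((eventually_all_finset _).mpr fun k _ => ?_)
      by_cases hk : k = j.1
      · exact Eventually.of_forall fun _ h => (h hk).elim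
      · filter_upwards [((A.isChart j.1).tendsto.comp htj).eventually_ne (Ne.symm hk)] with w hw _
        exact hw
    filter_upwards [hΦ, hright, hsep] with w h1 h2 h3 h0
    rw [h1, Atlas.germ] at h0
    simp only [Atlas.α, ← map_sum] at h0
    set σw := fun j : ↥J => A.σ j.1 (A.inv J w j)
    obtain ⟨f, hf0, hf⟩ := (A.toPic0_eq_zero_iff (by simp [map_sum, deg_eq_one])).mp h0
    have hfL : f ∈ riemannRochSpace (pts J) := by
      refine mem_riemannRochSpace_iff.mpr fun v => Or.inr ?_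
      rw [← hf v, Finsupp.finsetSum_apply]
      calc -pts J v = ∑ j : ↥J, -(Finsupp.single j.1 (1 : ℤ) v) := by
            rw [Finset.sum_neg_distrib, pts, Finsupp.finsetSum_apply, ← Finset.sum_coe_sort J]
        _ ≤ _ := Finset.sum_le_sum fun j _ => by
            rw [Finsupp.sub_apply]
            have : (0 : ℤ) ≤ Finsupp.single (σw j) (1 : ℤ) v := by
              simp only [Finsupp.single_apply]; split_ifs <;> norm_num
            linarith
    have hz : ∀ j : ↥J, A.inv J w j = 0 := by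
      intro j
      have hv := eq_algebraMap_of_mem_L_pts A.t (fun v _ => (A.coord v).2.2) hJ.2 hfL A.O
      have hd := hf (σw j)
      rw [hv, ord_algebraMap, Finsupp.finsetSum_apply] at hd
      obtain ⟨hval, hne⟩ := h3 j
      by_contra hj
      have hnot : σw j ∉ J := fun hk => by
        by_cases e : σw j = j.1
        · apply hj
          rw [← hval]
          show val (σw j) (A.t j.1) = 0
          rw [e]
          exact (A.coord j.1).2.1
        · exact hne _ hk e rfl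
      have hpos : 0 < ∑ k : ↥J, (Finsupp.single (σw k) (1 : ℤ) -
          Finsupp.single k.1 (1 : ℤ)) (σw j) := by
        refine Finset.sum_pos' (fun k _ => ?_) ⟨j, Finset.mem_univ _, ?_⟩
        · have e : Finsupp.single k.1 (1 : ℤ) (σw j) = 0 :=
            Finsupp.single_eq_of_ne fun e => hnot (by rw [e]; exact k.2)
          rw [Finsupp.sub_apply, e, sub_zero, Finsupp.single_apply]
          split_ifs <;> norm_num
        · have e : Finsupp.single j.1 (1 : ℤ) (σw j) = 0 :=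
            Finsupp.single_eq_of_ne fun e => hnot (by rw [e]; exact j.2)
          rw [Finsupp.sub_apply, e, sub_zero, Finsupp.single_eq_same]
          norm_num
      exact hpos.ne' hd
    rw [← h2]
    exact Finset.sum_eq_zero fun j _ => by rw [hz j, A.Ψ_zero]
  · intro x
    obtain ⟨⟨D, hD⟩, rfl⟩ := Pic0.mk_surjective x
    have hD' := Divisor.mem_degZero.mp hD
    have hx : Pic0.mk ⟨D, hD⟩ = A.toPic0 D :=
      congrArg Pic0.mk (Subtype.ext (by simp [hD']))
    set D' := D + Finsupp.single A.O (genusFF ℂ F : ℤ)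
    have hl := hR.le_finrank D'
    rw [map_add, hD', degree_single'] at hl
    obtain ⟨⟨f, hfD⟩, hf0⟩ : ∃ f : riemannRochSpace D', f ≠ 0 := by
      have := hR.finite_L D'
      have : Nontrivial (riemannRochSpace D') :=
        Module.nontrivial_of_finrank_pos (R := ℂ) (by omega)
      exact exists_ne (0 : riemannRochSpace D')
    have hf : f ≠ 0 := fun e => hf0 (Subtype.ext e)
    obtain ⟨E, hE, hE0⟩ := HasPrincipalDivisors.exists_divisor (K := ℂ) f hf
    set G := D' + E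
    have hG0 : ∀ v, 0 ≤ G v := fun v => by
      have := (mem_riemannRochSpace_iff.mp hfD v).resolve_left hf
      rw [Finsupp.add_apply, hE v]
      linarith
    have hGdeg : Divisor.degree G = genusFF ℂ F := by
      rw [map_add, map_add, hD', degree_single', hE0, zero_add, add_zero]
    have hGx : A.toPic0 G = A.toPic0 D := by
      rw [map_add, map_add, (A.toPic0_eq_zero_iff hE0).mpr ⟨f, hf, hE⟩, add_zero]
      have : Finsupp.single A.O (genusFF ℂ F : ℤ) =
          (genusFF ℂ F : ℤ) • Finsupp.single A.O (1 : ℤ) := by simp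
      rw [this, map_zsmul]
      show _ + _ • pt A.O = _
      rw [hptO, smul_zero, add_zero]
    choose w hw hwQ using hbound
    refine ⟨∑ v ∈ G.support, G v • w v, ?_, ?_⟩
    · refine (norm_sum_le _ _).trans ?_
      calc ∑ v ∈ G.support, ‖G v • w v‖ ≤ ∑ v ∈ G.support, (G v : ℝ) * (C₀ + 1) := by
            refine Finset.sum_le_sum fun v _ => ?_
            rw [← Int.cast_smul_eq_zsmul ℝ, norm_smul, Real.norm_of_nonneg (by
              exact_mod_cast hG0 v)]
            exact mul_le_mul_of_nonneg_left (hw v) (by exact_mod_cast hG0 v)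
        _ = _ := by
            rw [← Finset.sum_mul]
            congr 1
            have h := degree_eq_sum G
            rw [hGdeg, Finsupp.sum] at h
            exact_mod_cast h.symm
    · rw [hx, ← hGx, map_sum]
      conv_rhs => rw [← G.sum_single, Finsupp.sum, map_sum]
      refine Finset.sum_congr rfl fun v _ => ?_
      rw [map_zsmul, hwQ]
      show _ • A.toPic0 _ = _
      rw [← map_zsmul]
      simp

omit hc [DecidableEq (Place ℂ F)] in
/-- Over `ℂ`, exactly `n ^ (2 g)` degree zero classes are killed by `n`. -/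
theorem natCard_torsion_complex {n : ℕ} (hn : 0 < n) :
    Nat.card (Pic0.torsion ℂ F n) = n ^ (2 * genusFF ℂ F) := by
  classical
  obtain ⟨c, hc⟩ := hR.large
  obtain ⟨Φ, C, hdisc, hbd⟩ := exists_uniformisation' hc hR
  have h := natCard_torsion_of_lattice Φ (fun x => (hbd x).imp fun _ h => h.2) hdisc C hbd hn
  rw [show Module.finrank ℝ (Fin (genusFF ℂ F) → ℂ) = 2 * genusFF ℂ F by
    simp [Module.finrank_pi_fintype, Complex.finrank_real_complex, mul_comm]] at h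
  rw [← h]
  exact Nat.card_congr (Equiv.subtypeEquivRight fun x => by
    rw [Pic0.mem_torsion, natCast_zsmul])

omit hc [DecidableEq (Place ℂ F)] in
/-- `Pic⁰` over `ℂ` is divisible. -/
theorem pic0_exists_nsmul_eq_complex {n : ℕ} (hn : 0 < n) (x : Pic0 ℂ F) :
    ∃ y, n • y = x := by
  classical
  obtain ⟨c, hc⟩ := hR.large
  obtain ⟨Φ, C, -, hbd⟩ := exists_uniformisation' hc hR
  obtain ⟨w, -, rfl⟩ := hbd x
  refine ⟨Φ ((n : ℝ)⁻¹ • w), ?_⟩
  rw [← map_nsmul, ← Nat.cast_smul_eq_nsmul ℝ, smul_smul,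
    mul_inv_cancel₀ (by exact_mod_cast hn.ne'), one_smul]

end Fermat.Agent.AJ
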