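import Fermat.Agent.AJ.Model
import Fermat.Agent.AJ.Uniformize
import Fermat.Agent.AJ.RiemannInst
import Fermat.Agent.MW.Descent
import Fermat.Agent.FF.ConstExt.Genus

/-!
# Torsion and divisibility of `Pic⁰` over an algebraically closed field of characteristic zero

Every finite set of classes lives on a model over a countable algebraically closed field of
constants, which embeds in `ℂ`, where the Abel–Jacobi uniformisation applies.
-/

set_option autoImplicit false
set_option linter.unusedSectionVars false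
set_option linter.style.haveILetI false

noncomputable section

open AlgebraicCurve TensorProduct

namespace Fermat.Agent.AJ

open FF.ConstExt (IsConstExt mulMap extPlace extDivisor extPic0)

universe u v w

/-- A constant field extension to a larger algebraically closed field exists. -/
theorem exists_constExt (K₀ : Type u) (L : Type v) (F₀ : Type w) [Field K₀] [IsAlgClosed K₀]
    [Field L] [Field F₀] [Algebra K₀ L] [Algebra K₀ F₀] :
    ∃ (F' : Type (max v w)) (_ : Field F') (_ : Algebra L F') (_ : Algebra F₀ F')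
      (_ : Algebra K₀ F') (_ : IsScalarTower K₀ L F') (_ : IsScalarTower K₀ F₀ F'),
      IsConstExt K₀ L F₀ F' := by
  have := isDomain_tensorProduct K₀ L F₀
  let F' := FractionRing (L ⊗[K₀] F₀)
  letI : Algebra F₀ F' := ((algebraMap (L ⊗[K₀] F₀) F').comp
    (Algebra.TensorProduct.includeRight (R := K₀) (A := L) (B := F₀)).toRingHom).toAlgebra
  have h₁ : IsScalarTower K₀ L F' := inferInstance
  have h₂ : IsScalarTower K₀ F₀ F' := IsScalarTower.of_algebraMap_eq fun a => by
    rw [IsScalarTower.algebraMap_apply K₀ (L ⊗[K₀] F₀) F' a]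
    show _ = algebraMap (L ⊗[K₀] F₀) F'
      (Algebra.TensorProduct.includeRight (R := K₀) (A := L) (B := F₀) (algebraMap K₀ F₀ a))
    rw [AlgHom.commutes]
  refine ⟨F', inferInstance, inferInstance, inferInstance, inferInstance, h₁, h₂, ?_⟩
  have hmap : ∀ z, mulMap K₀ L F₀ F' z = algebraMap (L ⊗[K₀] F₀) F' z := by
    intro z
    induction z using TensorProduct.induction_on with
    | zero => simp
    | tmul c f =>
      rw [FF.ConstExt.mulMap_tmul, IsScalarTower.algebraMap_apply L (L ⊗[K₀] F₀) F' c,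
        show algebraMap F₀ F' f = algebraMap (L ⊗[K₀] F₀) F' (1 ⊗ₜ f) from rfl, ← map_mul,
        Algebra.TensorProduct.algebraMap_apply, Algebra.TensorProduct.tmul_mul_tmul]
      simp
    | add a b ha hb => rw [map_add, map_add, ha, hb]
  refine ⟨fun a b h => IsFractionRing.injective (L ⊗[K₀] F₀) F' (by rw [← hmap, ← hmap, h]), ?_⟩
  rw [← top_le_iff]
  intro z _
  obtain ⟨a, b, -, rfl⟩ := IsFractionRing.div_surjective (L ⊗[K₀] F₀) z
  have hmem : ∀ a, algebraMap (L ⊗[K₀] F₀) F' a ∈
      IntermediateField.adjoin L (Set.range (algebraMap F₀ F')) := by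
    intro a
    rw [← hmap]
    induction a using TensorProduct.induction_on with
    | zero => simp
    | tmul c f =>
      rw [FF.ConstExt.mulMap_tmul]
      exact mul_mem (IntermediateField.algebraMap_mem _ c)
        (IntermediateField.subset_adjoin L _ ⟨f, rfl⟩)
    | add a b ha hb => rw [map_add]; exact add_mem ha hb
  exact div_mem (hmem a) (hmem b)

section Countable

variable (K₀ : Type u) (F₀ : Type v) [Field K₀] [Field F₀] [Algebra K₀ F₀] [IsAlgClosed K₀]
  [CharZero K₀] [Countable K₀] [FF.IsFunctionField K₀ F₀]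

/-- The torsion count over a countable field of constants. -/
theorem natCard_torsion_countable {n : ℕ} (hn : 0 < n) :
    Nat.card (Pic0.torsion K₀ F₀ n) = n ^ (2 * genusFF K₀ F₀) := by
  obtain ⟨i⟩ := exists_ringHom_complex K₀
  letI : Algebra K₀ ℂ := i.toAlgebra
  obtain ⟨F', _, _, _, _, _, _, _⟩ := exists_constExt K₀ ℂ F₀
  have : FF.IsFunctionField ℂ F' := FF.ConstExt.isFunctionField K₀ F₀ ℂ F'
  have hcard := natCard_torsion_complex (riemann ℂ F') hn
  have : Finite (Pic0.torsion ℂ F' n) :=
    Nat.finite_of_card_ne_zero (by rw [hcard]; exact pow_ne_zero _ hn.ne')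
  rw [FF.ConstExt.natCard_torsion_eq (K := K₀) (F := F₀) ℂ F' n, hcard,
    FF.ConstExt.genusFF_eq K₀ F₀ ℂ F']

/-- Divisibility over a countable field of constants. -/
theorem exists_nsmul_eq_countable {n : ℕ} (hn : 0 < n) (z : Pic0 K₀ F₀) :
    ∃ y, n • y = z := by
  obtain ⟨i⟩ := exists_ringHom_complex K₀
  letI : Algebra K₀ ℂ := i.toAlgebra
  obtain ⟨F', _, _, _, _, _, _, _⟩ := exists_constExt K₀ ℂ F₀
  have : FF.IsFunctionField ℂ F' := FF.ConstExt.isFunctionField K₀ F₀ ℂ F'
  have hcard := natCard_torsion_complex (riemann ℂ F') hn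
  have : Finite (Pic0.torsion ℂ F' n) :=
    Nat.finite_of_card_ne_zero (by rw [hcard]; exact pow_ne_zero _ hn.ne')
  refine MW.exists_nsmul_eq_descent ℂ F' (pic0_exists_nsmul_eq_complex (riemann ℂ F') hn) ?_ z
  refine (Set.toFinite (Pic0.torsion ℂ F' n : Set (Pic0 ℂ F'))).subset fun t (ht : n • t = 0) => ?_
  rw [SetLike.mem_coe, Pic0.mem_torsion, natCast_zsmul]
  exact ht

end Countable

variable (K : Type u) (F : Type v) [Field K] [Field F] [Algebra K F] [IsAlgClosed K] [CharZero K]
  [FF.IsFunctionField K F]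

/-- A finite set of classes comes from a model over a countable field of constants. -/
theorem exists_model_pic0 (S : Finset (Pic0 K F)) :
    ∃ (K₀ : Type u) (F₀ : Type v) (_ : Field K₀) (_ : Field F₀) (_ : Algebra K₀ F₀)
      (_ : IsAlgClosed K₀) (_ : CharZero K₀) (_ : Countable K₀)
      (_ : FF.IsFunctionField K₀ F₀) (φ : Pic0 K₀ F₀ →+ Pic0 K F),
      Function.Injective φ ∧ genusFF K F = genusFF K₀ F₀ ∧ ∀ x ∈ S, x ∈ Set.range φ := by
  classical
  choose D hD using fun x : Pic0 K F => Pic0.mk_surjective x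
  choose t ht0 ht using fun P : Place K F => FF.exists_ord_eq_one P
  set P := S.biUnion fun x => (D x : Divisor K F).support with hP
  obtain ⟨K₀, _, _, F₀, hT, _, _⟩ := exists_model K F (P.image t)
  refine ⟨K₀, F₀, inferInstance, inferInstance, inferInstance, inferInstance, inferInstance,
    inferInstance, inferInstance, extPic0 (K := K₀) (F := F₀) K F, FF.ConstExt.extPic0_injective,
    FF.ConstExt.genusFF_eq K₀ F₀ K F, fun x hx => ?_⟩
  set e : Place K₀ F₀ → Place K F := extPlace K F
  have hrange : ∀ P ∈ (D x : Divisor K F).support, P ∈ Set.range e := by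
    intro Q hQ
    have hmem : t Q ∈ F₀ :=
      hT _ (Finset.mem_image_of_mem t (Finset.mem_biUnion.mpr ⟨x, hx, hQ⟩))
    refine FF.ConstExt.exists_extPlace_eq Q ⟨⟨t Q, hmem⟩, ?_⟩
    show Q.ord (t Q) ≠ 0
    rw [ht Q]
    exact one_ne_zero
  set D₀ : Divisor K₀ F₀ :=
    Finsupp.comapDomain e (D x : Divisor K F) FF.ConstExt.extPlace_injective.injOn
  have hD₀ : extDivisor K F D₀ = (D x : Divisor K F) :=
    Finsupp.mapDomain_comapDomain e FF.ConstExt.extPlace_injective _ fun P hP => hrange P hP
  have hdeg : D₀ ∈ Divisor.degZero (K := K₀) (F := F₀) := by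
    rw [Divisor.mem_degZero, ← FF.ConstExt.degree_extDivisor K F D₀, hD₀]
    exact Divisor.mem_degZero.mp (D x).2
  refine ⟨Pic0.mk ⟨D₀, hdeg⟩, ?_⟩
  rw [FF.ConstExt.extPic0_mk]
  exact (congrArg Pic0.mk (Subtype.ext hD₀)).trans (hD x)

/-- There are at most `n ^ (2 g)` torsion classes in any finite set. -/
theorem card_le_of_torsion {n : ℕ} (hn : 0 < n) (S : Finset (Pic0.torsion K F n)) :
    S.card ≤ n ^ (2 * genusFF K F) := by
  classical
  obtain ⟨K₀, F₀, _, _, _, _, _, _, _, φ, hφ, hg, hS⟩ := exists_model_pic0 K F (S.image Subtype.val)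
  have hcard := natCard_torsion_countable K₀ F₀ hn
  have : Finite (Pic0.torsion K₀ F₀ n) :=
    Nat.finite_of_card_ne_zero (by rw [hcard]; exact pow_ne_zero _ hn.ne')
  choose pre hpre using fun x : S =>
    hS _ (Finset.mem_image_of_mem Subtype.val x.2)
  let f : S → Pic0.torsion K₀ F₀ n := fun x => ⟨pre x, by
    rw [Pic0.mem_torsion]
    apply hφ
    rw [map_zsmul, hpre x, map_zero]
    exact Pic0.mem_torsion.mp x.1.2⟩
  have hf : Function.Injective f := fun x y h => by
    have : pre x = pre y := congrArg Subtype.val h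
    exact Subtype.ext (Subtype.ext (by rw [← hpre x, ← hpre y, this]))
  have := Nat.card_le_card_of_injective f hf
  rwa [Nat.card_eq_fintype_card, Fintype.card_coe, hcard, ← hg] at this

theorem finite_torsion {n : ℕ} (hn : 0 < n) : Finite (Pic0.torsion K F n) := by
  by_contra h
  have : Infinite (Pic0.torsion K F n) := not_finite_iff_infinite.mp h
  obtain ⟨S, hS⟩ := Infinite.exists_subset_card_eq (Pic0.torsion K F n) (n ^ (2 * genusFF K F) + 1)
  have := card_le_of_torsion K F hn S
  omega

/-- Exactly `n ^ (2 g)` classes are killed by `n`. -/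
theorem natCard_torsion {n : ℕ} (hn : 0 < n) :
    Nat.card (Pic0.torsion K F n) = n ^ (2 * genusFF K F) := by
  have := finite_torsion K F hn
  obtain ⟨K₀, _, _, F₀, -, _, _⟩ := exists_model K F ∅
  rw [← FF.ConstExt.natCard_torsion_eq (K := K₀) (F := F₀) K F n,
    natCard_torsion_countable K₀ F₀ hn, FF.ConstExt.genusFF_eq K₀ F₀ K F]

/-- `Pic⁰` is divisible. -/
theorem exists_nsmul_eq_pic0 (n : ℕ) [NeZero n] (z : Pic0 K F) : ∃ y, n • y = z := by
  obtain ⟨K₀, F₀, _, _, _, _, _, _, _, φ, -, -, hS⟩ := exists_model_pic0 K F {z}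
  obtain ⟨z₀, rfl⟩ := hS z (Finset.mem_singleton_self z)
  obtain ⟨y, hy⟩ := exists_nsmul_eq_countable K₀ F₀ (Nat.pos_of_ne_zero (NeZero.ne n)) z₀
  exact ⟨φ y, by rw [← map_nsmul, hy]⟩

end Fermat.Agent.AJ

end
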