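import Fermat.Prelude.Def_AlgebraicCurve_IsCurveOver
import Fermat.Prelude.Def_AlgebraicCurve_Repartitions
import Mathlib.Tactic

/-!
# Values of functions at places of a curve over an algebraically closed field
-/

set_option autoImplicit false

noncomputable section

open AlgebraicCurve WithZero

namespace Fermat.Agent.AJ

variable {K F : Type*} [Field K] [Field F] [Algebra K F] {v : Place K F} {f g : F}

theorem mem_iff_ord_nonneg : f ∈ v.toValuationSubring ↔ f = 0 ∨ 0 ≤ v.ord f := by
  constructor
  · intro hf
    exact v.adicValuation_le_one_iff.mp (v.adicValuation_le_one_of_mem hf)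
  · intro h
    rcases eq_or_ne f 0 with rfl | hf
    · exact zero_mem _
    have h := h.resolve_left hf
    obtain ⟨π, hπ⟩ := IsDiscreteValuationRing.exists_irreducible v.toValuationSubring
    obtain ⟨u, hu⟩ := v.exists_unit_mul_zpow hf hπ
    rw [hu, ← Int.toNat_of_nonneg h, zpow_natCast]
    exact mul_mem (u : v.toValuationSubring).2 (pow_mem π.2 _)

theorem mem_of_ord_nonneg (h : 0 ≤ v.ord f) : f ∈ v.toValuationSubring :=
  mem_iff_ord_nonneg.mpr (Or.inr h)

theorem ord_nonneg_of_mem (h : f ∈ v.toValuationSubring) : 0 ≤ v.ord f := by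
  rcases mem_iff_ord_nonneg.mp h with rfl | h <;> simp [*]

theorem notMem_iff_ord_neg : f ∉ v.toValuationSubring ↔ v.ord f < 0 := by
  constructor
  · intro h
    by_contra h'
    exact h (mem_of_ord_nonneg (le_of_not_gt h'))
  · intro h hf
    exact absurd (ord_nonneg_of_mem hf) (not_le.mpr h)

theorem min_le_ord_add (hf : f ≠ 0) (hg : g ≠ 0) (hfg : f + g ≠ 0) :
    min (v.ord f) (v.ord g) ≤ v.ord (f + g) := by
  have h := Valuation.map_add v.adicValuation f g
  rw [v.adicValuation_eq_exp_neg_ord hf, v.adicValuation_eq_exp_neg_ord hg,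
    v.adicValuation_eq_exp_neg_ord hfg] at h
  rcases le_total (v.ord f) (v.ord g) with h' | h'
  · rw [max_eq_left (exp_le_exp.mpr (by omega)), exp_le_exp] at h
    omega
  · rw [max_eq_right (exp_le_exp.mpr (by omega)), exp_le_exp] at h
    omega

theorem ord_neg (v : Place K F) (f : F) : v.ord (-f) = v.ord f := by
  simp [Place.ord]

theorem ord_sum_lt (hf : f ≠ 0) (h : v.ord f < v.ord g ∨ g = 0) :
    f + g ≠ 0 ∧ v.ord (f + g) = v.ord f := by
  rcases h with h | rfl
  swap
  · simpa using hf
  rcases eq_or_ne g 0 with rfl | hg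
  · simpa using hf
  have hne : f + g ≠ 0 := by
    intro h0
    rw [eq_neg_of_add_eq_zero_left h0, ord_neg] at h
    exact lt_irrefl _ h
  refine ⟨hne, le_antisymm ?_ ?_⟩
  · have h1 := min_le_ord_add (v := v) hne (neg_ne_zero.mpr hg) (by simpa using hf)
    rw [ord_neg, add_neg_cancel_right] at h1
    rcases min_le_iff.mp h1 with h1 | h1 <;> omega
  · exact (le_min le_rfl h.le).trans (min_le_ord_add hf hg hne)

theorem ord_algebraMap {c : K} : v.ord (algebraMap K F c) = 0 := by
  rcases eq_or_ne c 0 with rfl | hc
  · simp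
  have h1 := ord_nonneg_of_mem (v.algebraMap_mem' c)
  have h2 := ord_nonneg_of_mem (v.algebraMap_mem' c⁻¹)
  rw [map_inv₀, v.ord_inv] at h2
  omega

theorem ord_pow (v : Place K F) (f : F) (n : ℕ) : v.ord (f ^ n) = n * v.ord f := by
  simpa using v.ord_zpow f (n : ℤ)

theorem ord_div (hf : f ≠ 0) (hg : g ≠ 0) : v.ord (f / g) = v.ord f - v.ord g := by
  rw [div_eq_mul_inv, v.ord_mul hf (inv_ne_zero hg), v.ord_inv]
  ring

section Value

variable [IsAlgClosed K] [IsCurveOver K F]

theorem algebraMap_residueField_bijective (v : Place K F) :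
    Function.Bijective (algebraMap K v.ResidueField) :=
  haveI := IsCurveOver.finite_residueField v
  haveI : Algebra.IsIntegral K v.ResidueField := Algebra.IsIntegral.of_finite K v.ResidueField
  IsAlgClosed.algebraMap_bijective_of_isIntegral

open scoped Classical in
/-- The value of a function at a place (junk `0` at a pole). -/
def val (v : Place K F) (f : F) : K :=
  if h : f ∈ v.toValuationSubring then
    (RingEquiv.ofBijective _ (algebraMap_residueField_bijective v)).symm
      (IsLocalRing.residue _ ⟨f, h⟩)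
  else 0

theorem algebraMap_val (hf : f ∈ v.toValuationSubring) :
    algebraMap K v.ResidueField (val v f) = IsLocalRing.residue _ ⟨f, hf⟩ := by
  rw [val, dif_pos hf]
  exact (RingEquiv.ofBijective _ (algebraMap_residueField_bijective v)).apply_symm_apply _

theorem val_eq_of_residue (hf : f ∈ v.toValuationSubring) {c : K}
    (h : IsLocalRing.residue _ ⟨f, hf⟩ = algebraMap K v.ResidueField c) : val v f = c :=
  (algebraMap_residueField_bijective v).1 ((algebraMap_val hf).trans h)

theorem val_add (hf : f ∈ v.toValuationSubring) (hg : g ∈ v.toValuationSubring) :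
    val v (f + g) = val v f + val v g :=
  val_eq_of_residue (add_mem hf hg) <| by
    rw [map_add, algebraMap_val hf, algebraMap_val hg, ← map_add]
    rfl

theorem val_mul (hf : f ∈ v.toValuationSubring) (hg : g ∈ v.toValuationSubring) :
    val v (f * g) = val v f * val v g :=
  val_eq_of_residue (mul_mem hf hg) <| by
    rw [map_mul, algebraMap_val hf, algebraMap_val hg, ← map_mul]
    rfl

@[simp]
theorem val_algebraMap (v : Place K F) (c : K) : val v (algebraMap K F c) = c :=
  val_eq_of_residue (v.algebraMap_mem' c) rfl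

theorem val_zero (v : Place K F) : val v (0 : F) = 0 := by
  simpa using val_algebraMap v (0 : K)

theorem val_one (v : Place K F) : val v (1 : F) = 1 := by
  simpa using val_algebraMap v (1 : K)

theorem val_neg (hf : f ∈ v.toValuationSubring) : val v (-f) = -val v f := by
  have h := val_add hf (neg_mem hf)
  rw [add_neg_cancel, val_zero] at h
  linear_combination -h

theorem val_sub (hf : f ∈ v.toValuationSubring) (hg : g ∈ v.toValuationSubring) :
    val v (f - g) = val v f - val v g := by
  rw [sub_eq_add_neg, val_add hf (neg_mem hg), val_neg hg, sub_eq_add_neg]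

theorem val_smul (c : K) (hf : f ∈ v.toValuationSubring) : val v (c • f) = c * val v f := by
  rw [Algebra.smul_def, val_mul (v.algebraMap_mem' c) hf, val_algebraMap]

omit [IsAlgClosed K] [IsCurveOver K F] in
theorem smul_mem_toValuationSubring (c : K) (hf : f ∈ v.toValuationSubring) :
    c • f ∈ v.toValuationSubring := by
  rw [Algebra.smul_def]
  exact mul_mem (v.algebraMap_mem' c) hf

theorem val_sum {ι : Type*} (s : Finset ι) (h : ι → F)
    (hh : ∀ i ∈ s, h i ∈ v.toValuationSubring) :
    val v (∑ i ∈ s, h i) = ∑ i ∈ s, val v (h i) := by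
  induction s using Finset.cons_induction with
  | empty => simp [val_zero]
  | cons a s has ih =>
    rw [Finset.sum_cons, Finset.sum_cons, val_add (hh a (Finset.mem_cons_self a s))
      (sum_mem fun i hi => hh i (Finset.mem_cons_of_mem hi)),
      ih fun i hi => hh i (Finset.mem_cons_of_mem hi)]

/-- Evaluation on the valuation ring as an algebra homomorphism. -/
def valHom (v : Place K F) : v.toValuationSubring →ₐ[K] K where
  toFun f := val v (f : F)
  map_one' := val_one v
  map_mul' f g := val_mul f.2 g.2
  map_zero' := val_zero v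
  map_add' f g := val_add f.2 g.2
  commutes' c := val_algebraMap v c

theorem val_pow (hf : f ∈ v.toValuationSubring) (n : ℕ) : val v (f ^ n) = val v f ^ n :=
  map_pow (valHom v) ⟨f, hf⟩ n

theorem val_eq_zero_iff (hf : f ∈ v.toValuationSubring) :
    val v f = 0 ↔ f = 0 ∨ 0 < v.ord f := by
  rcases eq_or_ne f 0 with rfl | hf0
  · simp [val_zero]
  rw [or_iff_right hf0, ← map_eq_zero_iff _ (algebraMap_residueField_bijective v).1,
    algebraMap_val hf, IsLocalRing.residue_eq_zero_iff, IsLocalRing.mem_maximalIdeal,
    mem_nonunits_iff, ← v.adicValuation_coe_eq_one_iff]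
  change ¬v.adicValuation f = 1 ↔ _
  rw [v.adicValuation_eq_exp_neg_ord hf0, exp_eq_one, neg_eq_zero]
  have := ord_nonneg_of_mem hf
  omega

theorem val_ne_zero_iff (hf : f ∈ v.toValuationSubring) :
    val v f ≠ 0 ↔ f ≠ 0 ∧ v.ord f = 0 := by
  have := ord_nonneg_of_mem hf
  rw [Ne, val_eq_zero_iff hf]
  constructor
  · intro h
    push Not at h
    exact ⟨h.1, by omega⟩
  · rintro ⟨h1, h2⟩ (h | h)
    · exact h1 h
    · omega

theorem mem_inv_of_val_ne_zero (hf : f ∈ v.toValuationSubring) (h : val v f ≠ 0) :
    f⁻¹ ∈ v.toValuationSubring := by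
  refine mem_of_ord_nonneg ?_
  rw [v.ord_inv, ((val_ne_zero_iff hf).mp h).2]
  norm_num

theorem val_inv (hf : f ∈ v.toValuationSubring) (h : val v f ≠ 0) :
    val v f⁻¹ = (val v f)⁻¹ := by
  refine eq_inv_of_mul_eq_one_left ?_
  rw [← val_mul (mem_inv_of_val_ne_zero hf h) hf,
    inv_mul_cancel₀ ((val_ne_zero_iff hf).mp h).1, val_one]

theorem val_div (hf : f ∈ v.toValuationSubring) (hg : g ∈ v.toValuationSubring)
    (h : val v g ≠ 0) : val v (f / g) = val v f / val v g := by
  rw [div_eq_mul_inv, val_mul hf (mem_inv_of_val_ne_zero hg h), val_inv hg h, div_eq_mul_inv]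

theorem ord_sub_val_pos (hf : f ∈ v.toValuationSubring) :
    f = algebraMap K F (val v f) ∨ 0 < v.ord (f - algebraMap K F (val v f)) := by
  have h := (val_eq_zero_iff (sub_mem hf (v.algebraMap_mem' (val v f)))).mp
    (by rw [val_sub hf (v.algebraMap_mem' _), val_algebraMap, sub_self])
  exact h.imp_left sub_eq_zero.mp

end Value

end Fermat.Agent.AJ
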